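/-
GATE-Z (S15) / [MOD-beta] (T2) sub-leaf E, abstract core (helper43; helper21 5907 (R1)).
Mathlib only.

A map `P : G → E` from a commutative group to an additive commutative group which is additive on
GENERIC pairs only,

* `hgen : ∀ u v, P u ≠ 0 → P v ≠ 0 → P u ≠ P v → P u ≠ -P v → P (u * v) = P u + P v`,

together with `hinv : P u⁻¹ = -P u`, `hper : P (q * u) = P u`, `hker : P u = 0 ↔ u ∈ q^ℤ`, and ONE
sequence `w : ℕ → G` along which `P` is injective (in the application `w n = 1 + q^(n+1)`, where
`|X (w n)| = |q|^(-2(n+1))`), is additive on ALL pairs (doubling, `u v ∈ q^ℤ`, … included).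

Proof: for `P u, P v, P (u v) ≠ 0` choose `n` with `P (w n)` outside the seven values
`0, ±P (u v), ±P v, P u - P v, -P u - P v`; then `(u v) w`, `v w`, `u (v w)` are generic chords and
`P (u v) + P w = P (u v w) = P u + P (v w) = P u + P v + P w`.
-/
import Mathlib

set_option autoImplicit false

namespace Fermat.Agent.GZ.Tate.T2.HomCore

variable {G : Type*} [CommGroup G] {E : Type*} [AddCommGroup E]
variable (P : G → E)
variable (hgen : ∀ u v, P u ≠ 0 → P v ≠ 0 → P u ≠ P v → P u ≠ -P v → P (u * v) = P u + P v)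
variable (hinv : ∀ u, P u⁻¹ = -P u)
variable {q : G} (hper : ∀ u, P (q * u) = P u)
variable (hker : ∀ u, P u = 0 ↔ u ∈ Subgroup.zpowers q)

include hper in
omit [AddCommGroup E] in
/-- periodicity under every power of `q`. -/
theorem P_zpow_mul (n : ℤ) (u : G) : P (q ^ n * u) = P u := by
  induction n using Int.induction_on with
  | zero => rw [zpow_zero, one_mul]
  | succ i ih => rw [zpow_add_one, mul_comm (q ^ (i : ℤ)) q, mul_assoc, hper, ih]
  | pred i ih =>
    have h := hper (q ^ (-(i : ℤ) - 1) * u)
    rw [← mul_assoc, ← zpow_one_add, show (1 : ℤ) + (-(i : ℤ) - 1) = -(i : ℤ) by ring] at h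
    rw [← h, ih]

omit [CommGroup G] [AddCommGroup E] in
/-- along an injective sequence, finitely many values can be avoided. -/
theorem exists_avoid {w : ℕ → G} (hw : Function.Injective fun n => P (w n)) (S : Finset E) :
    ∃ n, P (w n) ∉ S := by
  classical
  by_contra hcon
  simp only [not_exists, not_not] at hcon
  -- the injective map `ℕ → S`
  have : Function.Injective (fun n : ℕ => (⟨P (w n), hcon n⟩ : S)) := fun a b h =>
    hw (congrArg Subtype.val h)
  exact not_injective_infinite_finite _ this

include hgen hinv hper hker in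
/-- **(R1)**: generic additivity + an injective sequence ⟹ `P` is a homomorphism. -/
theorem map_mul_of_generic {w : ℕ → G} (hw : Function.Injective fun n => P (w n)) (u v : G) :
    P (u * v) = P u + P v := by
  classical
  by_cases hu : P u = 0
  · obtain ⟨n, rfl⟩ := Subgroup.mem_zpowers_iff.mp ((hker u).mp hu)
    rw [P_zpow_mul P hper, hu, zero_add]
  by_cases hv : P v = 0
  · obtain ⟨n, rfl⟩ := Subgroup.mem_zpowers_iff.mp ((hker v).mp hv)
    rw [mul_comm, P_zpow_mul P hper, hv, add_zero]
  by_cases huv : P (u * v) = 0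
  · obtain ⟨n, hn⟩ := Subgroup.mem_zpowers_iff.mp ((hker _).mp huv)
    have hv' : v = q ^ n * u⁻¹ := by rw [hn, mul_comm u v, mul_inv_cancel_right]
    rw [huv, hv', P_zpow_mul P hper, hinv, add_neg_cancel]
  -- the generic position argument
  obtain ⟨n, hn⟩ := exists_avoid P hw
    {0, P (u * v), -P (u * v), P v, -P v, P u - P v, -P u - P v}
  simp only [Finset.mem_insert, Finset.mem_singleton, not_or] at hn
  obtain ⟨h0, h1, h2, h3, h4, h5, h6⟩ := hn
  -- chord `(u v, w)`
  have c1 : P (u * v * w n) = P (u * v) + P (w n) :=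
    hgen _ _ huv h0 (fun h => h1 h.symm) (fun h => h2 (by rw [h, neg_neg]))
  -- chord `(v, w)`
  have c2 : P (v * w n) = P v + P (w n) :=
    hgen _ _ hv h0 (fun h => h3 h.symm) (fun h => h4 (by rw [h, neg_neg]))
  have hvw : P (v * w n) ≠ 0 := by
    rw [c2]
    intro h
    exact h4 (eq_neg_of_add_eq_zero_right h)
  -- chord `(u, v w)`
  have c3 : P (u * (v * w n)) = P u + P (v * w n) := by
    refine hgen _ _ hu hvw ?_ ?_
    · rw [c2]
      intro h
      exact h5 (by rw [h]; abel)
    · rw [c2]
      intro h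
      exact h6 (by rw [h]; abel)
  rw [mul_assoc, c3, c2, ← add_assoc] at c1
  exact (add_right_cancel c1).symm

end Fermat.Agent.GZ.Tate.T2.HomCore
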