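/-
GATE-Z (S15) / [MOD-beta] leaf (T2), vocabulary (helper21): the two polynomial relations that
express `P₁ + P₂ = P₃` on a Weierstrass curve with `a₁ = 1`, `a₂ = a₃ = 0` (the Tate curve) when
`x₁ ≠ x₂`, and the bridge to Mathlib's group law on `WeierstrassCurve.Affine.Point`.

* `ColRel x₁ y₁ x₂ y₂ x₃ y₃` : `(x₁ - x₂)(y₃ + x₃ + y₁) + (y₁ - y₂)(x₃ - x₁) = 0`
  — the points `P₁`, `P₂`, `-P₃ = (x₃, -y₃ - x₃)` are collinear;
* `SumRel x₁ y₁ x₂ y₂ x₃`    : `(x₁ - x₂)²(x₁ + x₂ + x₃) = (y₁ - y₂)² + (y₁ - y₂)(x₁ - x₂)`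
  — `x₃ = λ² + λ - x₁ - x₂` with the slope `λ = (y₁ - y₂)/(x₁ - x₂)`;
* `some_add_some_of_rel` : `x₁ ≠ x₂`, `ColRel`, `SumRel` ⟹ `some P₁ + some P₂ = some P₃`.
-/
import Fermat.Agent.GZ.Tate.Defs

set_option autoImplicit false

namespace Fermat.Agent.GZ.Tate.T2

/-- collinearity of `(x₁, y₁)`, `(x₂, y₂)`, `(x₃, -y₃ - x₃)`. -/
def ColRel {R : Type*} [CommRing R] (x₁ y₁ x₂ y₂ x₃ y₃ : R) : Prop :=
  (x₁ - x₂) * (y₃ + x₃ + y₁) + (y₁ - y₂) * (x₃ - x₁) = 0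

/-- the `x`-coordinate of the sum, cleared of denominators. -/
def SumRel {R : Type*} [CommRing R] (x₁ y₁ x₂ y₂ x₃ : R) : Prop :=
  (x₁ - x₂) ^ 2 * (x₁ + x₂ + x₃) = (y₁ - y₂) ^ 2 + (y₁ - y₂) * (x₁ - x₂)

theorem ColRel.map {R S : Type*} [CommRing R] [CommRing S] (f : R →+* S) {x₁ y₁ x₂ y₂ x₃ y₃ : R}
    (h : ColRel x₁ y₁ x₂ y₂ x₃ y₃) : ColRel (f x₁) (f y₁) (f x₂) (f y₂) (f x₃) (f y₃) := by
  unfold ColRel at h ⊢
  have := congrArg f h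
  simpa only [map_add, map_mul, map_sub, map_zero] using this

theorem SumRel.map {R S : Type*} [CommRing R] [CommRing S] (f : R →+* S) {x₁ y₁ x₂ y₂ x₃ : R}
    (h : SumRel x₁ y₁ x₂ y₂ x₃) : SumRel (f x₁) (f y₁) (f x₂) (f y₂) (f x₃) := by
  unfold SumRel at h ⊢
  have := congrArg f h
  simpa only [map_add, map_mul, map_sub, map_pow] using this

open WeierstrassCurve

/-- **bridge to Mathlib's group law**: on a Weierstrass curve with `a₁ = 1`, `a₂ = a₃ = 0`, if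
`x₁ ≠ x₂` and the two relations hold then `P₁ + P₂ = P₃`. -/
theorem some_add_some_of_rel {F : Type*} [Field F] [DecidableEq F] {W : WeierstrassCurve F}
    (h1 : W.a₁ = 1) (h2 : W.a₂ = 0) (h3 : W.a₃ = 0) {x₁ y₁ x₂ y₂ x₃ y₃ : F}
    (hP₁ : W.toAffine.Nonsingular x₁ y₁) (hP₂ : W.toAffine.Nonsingular x₂ y₂)
    (hP₃ : W.toAffine.Nonsingular x₃ y₃) (hx : x₁ ≠ x₂)
    (hcol : ColRel x₁ y₁ x₂ y₂ x₃ y₃) (hsum : SumRel x₁ y₁ x₂ y₂ x₃) :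
    Affine.Point.some _ _ hP₁ + Affine.Point.some _ _ hP₂ = Affine.Point.some _ _ hP₃ := by
  rw [Affine.Point.add_of_X_ne hx]
  have hd : x₁ - x₂ ≠ 0 := sub_ne_zero.2 hx
  have hX : W.toAffine.addX x₁ x₂ (W.toAffine.slope x₁ x₂ y₁ y₂) = x₃ := by
    rw [Affine.slope_of_X_ne hx]
    simp only [Affine.addX, h1, h2]
    unfold SumRel at hsum
    field_simp
    linear_combination (-1 : F) * hsum
  have hY : W.toAffine.addY x₁ x₂ y₁ (W.toAffine.slope x₁ x₂ y₁ y₂) = y₃ := by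
    simp only [Affine.addY, Affine.negAddY, Affine.negY, hX, h1, h3]
    rw [Affine.slope_of_X_ne hx]
    unfold ColRel at hcol
    field_simp
    linear_combination (-1 : F) * hcol
  simp only [hX, hY]

end Fermat.Agent.GZ.Tate.T2
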