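/-
GATE-Z (S15) / [MOD-beta] (T2) sub-leaf E (helper43; helper21 5907 (R1)): the Tate parametrisation
`tateP : Kˣ → E_q(K)` is a HOMOMORPHISM with kernel `q^ℤ`, from GENERIC addition only.

Vocabulary: `GZ/Tate/Defs.lean` (helper72), `GZ/Tate/Conv.lean` (functional equations and first-order
estimates, helper72), `GZ/Tate/T2/Rel.lean` (`ColRel`, `SumRel`, helper21).

Binders (everything else is proved here):

* `hns  : ∀ u, IsAdm q u → (tateCurve q).toAffine.Nonsingular (X q u) (Y q u)`     (T1: equation + `Δ ≠ 0`);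
* `hgen : ∀ u v, IsAdm q u → IsAdm q v → IsAdm q (u * v) → X q u ≠ X q v →
            ColRel (X q u) (Y q u) (X q v) (Y q v) (X q (u * v)) (Y q (u * v)) ∧
            SumRel (X q u) (Y q u) (X q v) (Y q v) (X q (u * v))`                    (T2-D: generic chords).

Output: `tateP_mul` (ALL pairs: doubling, `u v ∈ q^ℤ`, `X u = X v` included), `tateP_eq_zero_iff`
(`= hker`), `tateP_of_isAdm`; these are the binders `hmul`, `hker` of `GZ/Tate/T3/Plug.lean` verbatim.
-/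
import Fermat.Agent.GZ.Tate.Conv
import Fermat.Agent.GZ.Tate.T2.Rel
import Fermat.Agent.GZ.Tate.T2.HomCore

set_option autoImplicit false

noncomputable section

namespace Fermat.Agent.GZ.Tate.T2.Hom

open WeierstrassCurve Fermat.Agent.GZ.Tate

variable {K : Type*} [NormedField K]

/-! ### admissibility for units -/

/-- for a unit `u`, `IsAdm q u ⟺ u ∉ q^ℤ`. -/
theorem isAdm_iff_not_mem_zpowers {q : K} (hq0 : q ≠ 0) (u : Kˣ) :
    IsAdm q (u : K) ↔ u ∉ Subgroup.zpowers (Units.mk0 q hq0) := by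
  rw [Subgroup.mem_zpowers_iff]
  constructor
  · rintro ⟨-, h⟩ ⟨k, hk⟩
    apply h (-k)
    have : (u : K) = q ^ k := by
      rw [← hk, Units.val_zpow_eq_zpow_val, Units.val_mk0]
    rw [this, ← zpow_add₀ hq0, neg_add_cancel, zpow_zero]
  · intro h
    refine ⟨u.ne_zero, fun n hn => h ⟨-n, ?_⟩⟩
    apply Units.ext
    rw [Units.val_zpow_eq_zpow_val, Units.val_mk0]
    have hqn : q ^ n ≠ 0 := zpow_ne_zero _ hq0
    rw [zpow_neg]
    exact (eq_inv_of_mul_eq_one_right hn).symm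

theorem isAdm_mul_left_iff {q : K} (hq0 : q ≠ 0) (u : K) : IsAdm q (q * u) ↔ IsAdm q u := by
  refine ⟨fun h => ⟨fun hu => h.1 (by rw [hu, mul_zero]), fun n hn => ?_⟩, IsAdm.mul_left hq0⟩
  apply h.2 (n - 1)
  rw [zpow_sub₀ hq0, zpow_one, div_mul_eq_mul_div, mul_comm q u, ← mul_assoc,
    mul_div_assoc, div_self hq0, mul_one, hn]

theorem isAdm_inv_iff {q : K} (u : K) : IsAdm q u⁻¹ ↔ IsAdm q u :=
  ⟨fun h => by simpa using h.inv, IsAdm.inv⟩

/-! ### the parametrisation -/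

variable [IsUltrametricDist K]

omit [IsUltrametricDist K] in
/-- two affine points with equal coordinates are equal. -/
theorem some_congr {W : WeierstrassCurve K} {x y x' y' : K} (hx : x = x') (hy : y = y')
    (h : W.toAffine.Nonsingular x y) (h' : W.toAffine.Nonsingular x' y') :
    Affine.Point.some x y h = Affine.Point.some x' y' h' := by
  subst hx hy
  rfl

variable (q : K)
variable (hns : ∀ u : K, IsAdm q u → (tateCurve q).toAffine.Nonsingular (X q u) (Y q u))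

open Classical in
/-- **the Tate parametrisation** `Kˣ → E_q(K)`: `u ↦ (X(u), Y(u))` off `q^ℤ`, `0` on `q^ℤ`. -/
def tateP (u : Kˣ) : (tateCurve q).toAffine.Point :=
  if h : IsAdm q (u : K) then Affine.Point.some (X q u) (Y q u) (hns u h) else 0

omit [IsUltrametricDist K] in
theorem tateP_of_isAdm {u : Kˣ} (h : IsAdm q (u : K)) :
    tateP q hns u = Affine.Point.some (X q u) (Y q u) (hns u h) := by
  rw [tateP, dif_pos h]

omit [IsUltrametricDist K] in
theorem tateP_of_not_isAdm {u : Kˣ} (h : ¬ IsAdm q (u : K)) : tateP q hns u = 0 := by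
  rw [tateP, dif_neg h]

omit [IsUltrametricDist K] in
theorem tateP_eq_zero_iff_not_isAdm (u : Kˣ) : tateP q hns u = 0 ↔ ¬ IsAdm q (u : K) := by
  constructor
  · intro h0 h
    rw [tateP_of_isAdm q hns h] at h0
    exact Affine.Point.some_ne_zero _ h0
  · exact tateP_of_not_isAdm q hns

omit [IsUltrametricDist K] in
/-- **`hker`**: `tateP u = 0 ⟺ u ∈ q^ℤ`. -/
theorem tateP_eq_zero_iff (hq0 : q ≠ 0) (u : Kˣ) :
    tateP q hns u = 0 ↔ u ∈ Subgroup.zpowers (Units.mk0 q hq0) := by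
  rw [tateP_eq_zero_iff_not_isAdm, isAdm_iff_not_mem_zpowers hq0, not_not]

omit [IsUltrametricDist K] in
/-- **`hper`**: `tateP (q u) = tateP u`. -/
theorem tateP_mul_left (hq0 : q ≠ 0) (u : Kˣ) :
    tateP q hns (Units.mk0 q hq0 * u) = tateP q hns u := by
  by_cases h : IsAdm q (u : K)
  · have h' : IsAdm q ((Units.mk0 q hq0 * u : Kˣ) : K) := by
      rw [Units.val_mul, Units.val_mk0]; exact (isAdm_mul_left_iff hq0 _).mpr h
    rw [tateP_of_isAdm q hns h, tateP_of_isAdm q hns h']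
    apply some_congr
    · rw [Units.val_mul, Units.val_mk0, X_mul_left hq0]
    · rw [Units.val_mul, Units.val_mk0, Y_mul_left hq0]
  · have h' : ¬ IsAdm q ((Units.mk0 q hq0 * u : Kˣ) : K) := by
      rw [Units.val_mul, Units.val_mk0, isAdm_mul_left_iff hq0]; exact h
    rw [tateP_of_not_isAdm q hns h, tateP_of_not_isAdm q hns h']

variable [CompleteSpace K]

/-- **`hinv`**: `tateP u⁻¹ = - tateP u`. -/
theorem tateP_inv (hq0 : q ≠ 0) (hq1 : ‖q‖ < 1) (u : Kˣ) :
    tateP q hns u⁻¹ = -tateP q hns u := by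
  by_cases h : IsAdm q (u : K)
  · have h' : IsAdm q ((u⁻¹ : Kˣ) : K) := by
      rw [Units.val_inv_eq_inv_val]; exact h.inv
    rw [tateP_of_isAdm q hns h, tateP_of_isAdm q hns h', Affine.Point.neg_some]
    apply some_congr
    · rw [Units.val_inv_eq_inv_val, X_inv hq0 u.ne_zero]
    · rw [Units.val_inv_eq_inv_val, Y_inv hq0 hq1 u.ne_zero]
      simp only [Affine.negY, tateCurve]
      ring
  · have h' : ¬ IsAdm q ((u⁻¹ : Kˣ) : K) := by
      rw [Units.val_inv_eq_inv_val, isAdm_inv_iff]; exact h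
    rw [tateP_of_not_isAdm q hns h, tateP_of_not_isAdm q hns h', Affine.Point.neg_zero]

/-! ### `(G5)`: the points `1 + q^(n+1)` -/

/-- `(G5)`: `‖w‖ = 1`, `w ≠ 1`, `‖1 - w‖ < 1` ⟹ `‖X(w)‖ = ‖1 - w‖⁻²`. -/
theorem norm_X_of_near_one {q : K} (hq0 : q ≠ 0) (hq1 : ‖q‖ < 1) {w : K} (hw : ‖w‖ = 1)
    (hw1 : w ≠ 1) (hlt : ‖1 - w‖ < 1) : ‖X q w‖ = (‖1 - w‖ ^ 2)⁻¹ := by
  have hqpos : 0 < ‖q‖ := norm_pos_iff.2 hq0
  have hd : 0 < ‖1 - w‖ := norm_pos_iff.2 (sub_ne_zero.2 (Ne.symm hw1))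
  have h := norm_X_sub_xTerm_le hq0 hq1 (by rw [hw]; exact hq1)
    (by rw [hw]; exact (one_lt_inv₀ hqpos).2 hq1)
  rw [hw, mul_one, div_one, max_self] at h
  have hx : ‖xTerm w‖ = (‖1 - w‖ ^ 2)⁻¹ := by
    unfold xTerm
    rw [norm_div, norm_pow, hw, one_div]
  have hgt : 1 < ‖xTerm w‖ := by
    rw [hx]
    exact (one_lt_inv₀ (by positivity)).2 (pow_lt_one₀ hd.le hlt (by norm_num))
  have hne : ‖X q w - xTerm w‖ ≠ ‖xTerm w‖ := ne_of_lt ((h.trans_lt hq1).trans hgt)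
  have e : X q w = (X q w - xTerm w) + xTerm w := by ring
  rw [e, IsUltrametricDist.norm_add_eq_max_of_norm_ne_norm hne,
    max_eq_right ((h.trans hq1.le).trans hgt.le), hx]

omit [CompleteSpace K] in
theorem norm_one_add_pow {q : K} (hq1 : ‖q‖ < 1) (n : ℕ) : ‖1 + q ^ (n + 1)‖ = 1 := by
  have hlt : ‖q ^ (n + 1)‖ < 1 := norm_pow_succ_lt_one hq1 n
  have h := IsUltrametricDist.norm_add_eq_max_of_norm_ne_norm (x := (1 : K)) (y := q ^ (n + 1))
    (by rw [norm_one]; exact ne_of_gt hlt)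
  rw [h, norm_one, max_eq_left hlt.le]

omit [CompleteSpace K] in
theorem one_add_pow_ne_zero {q : K} (hq1 : ‖q‖ < 1) (n : ℕ) : (1 : K) + q ^ (n + 1) ≠ 0 := by
  intro h
  have := norm_one_add_pow hq1 n
  rw [h, norm_zero] at this
  exact zero_ne_one this

/-- the auxiliary units `w n = 1 + q^(n+1)`. -/
def wSeq {q : K} (hq1 : ‖q‖ < 1) (n : ℕ) : Kˣ := Units.mk0 (1 + q ^ (n + 1)) (one_add_pow_ne_zero hq1 n)

omit [CompleteSpace K] in
theorem isAdm_wSeq {q : K} (hq0 : q ≠ 0) (hq1 : ‖q‖ < 1) (n : ℕ) :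
    IsAdm q ((wSeq hq1 n : Kˣ) : K) := by
  have hqpos : 0 < ‖q‖ := norm_pos_iff.2 hq0
  refine ⟨(wSeq hq1 n).ne_zero, fun m hm => ?_⟩
  have hnorm : ‖q ^ m * ((wSeq hq1 n : Kˣ) : K)‖ = ‖q‖ ^ m := by
    rw [norm_mul, norm_zpow, wSeq, Units.val_mk0, norm_one_add_pow hq1 n, mul_one]
  rw [hm, norm_one] at hnorm
  have hm0 : m = 0 := by
    by_contra hne
    rcases lt_or_gt_of_ne hne with hneg | hpos
    · have : 1 < ‖q‖ ^ m := one_lt_zpow_of_neg₀ hqpos hq1 hneg
      rw [← hnorm] at this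
      exact lt_irrefl _ this
    · have : ‖q‖ ^ m < 1 := zpow_lt_one₀ hqpos hq1 hpos
      rw [← hnorm] at this
      exact lt_irrefl _ this
  rw [hm0, zpow_zero, one_mul, wSeq, Units.val_mk0, add_eq_left] at hm
  exact pow_ne_zero _ hq0 hm

theorem norm_X_wSeq {q : K} (hq0 : q ≠ 0) (hq1 : ‖q‖ < 1) (n : ℕ) :
    ‖X q ((wSeq hq1 n : Kˣ) : K)‖ = ((‖q‖ ^ (n + 1)) ^ 2)⁻¹ := by
  have h1 : (1 : K) - (1 + q ^ (n + 1)) = -q ^ (n + 1) := by ring
  have hne : (1 : K) + q ^ (n + 1) ≠ 1 := by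
    rw [Ne, add_eq_left]; exact pow_ne_zero _ hq0
  have hlt : ‖(1 : K) - (1 + q ^ (n + 1))‖ < 1 := by
    rw [h1, norm_neg]; exact norm_pow_succ_lt_one hq1 n
  rw [wSeq, Units.val_mk0, norm_X_of_near_one hq0 hq1 (norm_one_add_pow hq1 n) hne hlt, h1,
    norm_neg, norm_pow]

/-- `tateP` is injective along `wSeq`. -/
theorem tateP_wSeq_injective (hq0 : q ≠ 0) (hq1 : ‖q‖ < 1) :
    Function.Injective fun n => tateP q hns (wSeq hq1 n) := by
  intro n m h
  simp only at h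
  rw [tateP_of_isAdm q hns (isAdm_wSeq hq0 hq1 n), tateP_of_isAdm q hns (isAdm_wSeq hq0 hq1 m)] at h
  have hX : X q ((wSeq hq1 n : Kˣ) : K) = X q ((wSeq hq1 m : Kˣ) : K) := by
    injection h
  have hqpos : 0 < ‖q‖ := norm_pos_iff.2 hq0
  have hn := congrArg norm hX
  rw [norm_X_wSeq hq0 hq1, norm_X_wSeq hq0 hq1, inv_inj, ← pow_mul, ← pow_mul] at hn
  have := pow_right_injective₀ hqpos (ne_of_lt hq1) hn
  omega

/-! ### the homomorphism -/

variable [DecidableEq K]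
variable (hgen : ∀ u v : K, IsAdm q u → IsAdm q v → IsAdm q (u * v) → X q u ≠ X q v →
  ColRel (X q u) (Y q u) (X q v) (Y q v) (X q (u * v)) (Y q (u * v)) ∧
    SumRel (X q u) (Y q u) (X q v) (Y q v) (X q (u * v)))

include hgen in
omit [CompleteSpace K] [IsUltrametricDist K] in
/-- generic additivity of `tateP`, in the shape of `HomCore`. -/
theorem tateP_mul_of_generic (hq0 : q ≠ 0) (u v : Kˣ) (hu : tateP q hns u ≠ 0)
    (hv : tateP q hns v ≠ 0) (h1 : tateP q hns u ≠ tateP q hns v)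
    (h2 : tateP q hns u ≠ -tateP q hns v) :
    tateP q hns (u * v) = tateP q hns u + tateP q hns v := by
  have hau : IsAdm q (u : K) := by
    by_contra h; exact hu (tateP_of_not_isAdm q hns h)
  have hav : IsAdm q (v : K) := by
    by_contra h; exact hv (tateP_of_not_isAdm q hns h)
  rw [tateP_of_isAdm q hns hau, tateP_of_isAdm q hns hav] at h1 h2
  have hX : X q (u : K) ≠ X q (v : K) := by
    intro hx
    rcases Affine.Point.X_eq_iff.mp hx with h | h
    · exact h1 h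
    · exact h2 h
  have hauv : IsAdm q ((u * v : Kˣ) : K) := by
    rw [isAdm_iff_not_mem_zpowers hq0]
    intro hmem
    obtain ⟨n, hn⟩ := Subgroup.mem_zpowers_iff.mp hmem
    apply hX
    have hv' : (v : K) = q ^ n * (u : K)⁻¹ := by
      have : v = Units.mk0 q hq0 ^ n * u⁻¹ := by rw [hn, mul_comm u v, mul_inv_cancel_right]
      rw [this, Units.val_mul, Units.val_zpow_eq_zpow_val, Units.val_mk0, Units.val_inv_eq_inv_val]
    rw [hv', X_zpow_mul hq0, X_inv hq0 u.ne_zero]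
  rw [tateP_of_isAdm q hns hau, tateP_of_isAdm q hns hav, tateP_of_isAdm q hns hauv]
  have hrel := hgen u v hau hav (by rw [← Units.val_mul]; exact hauv) hX
  symm
  refine (some_add_some_of_rel (W := tateCurve q) rfl rfl rfl (hns u hau) (hns v hav)
    (hns _ (by rw [← Units.val_mul]; exact hauv)) hX hrel.1 hrel.2).trans ?_
  apply some_congr <;> rw [Units.val_mul]

include hgen in
/-- **(T2) = `hmul`**: `tateP` is additive on ALL pairs. -/
theorem tateP_mul (hq0 : q ≠ 0) (hq1 : ‖q‖ < 1) (u v : Kˣ) :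
    tateP q hns (u * v) = tateP q hns u + tateP q hns v :=
  HomCore.map_mul_of_generic (tateP q hns) (tateP_mul_of_generic q hns hgen hq0)
    (tateP_inv q hns hq0 hq1) (tateP_mul_left q hns hq0) (tateP_eq_zero_iff q hns hq0)
    (tateP_wSeq_injective q hns hq0 hq1) u v

include hgen in
/-- the packaged statement (helper21 5907 §2 E). -/
theorem exists_hom (hq0 : q ≠ 0) (hq1 : ‖q‖ < 1) :
    ∃ P : Kˣ → (tateCurve q).toAffine.Point,
      (∀ u v, P (u * v) = P u + P v) ∧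
      (∀ u, P u = 0 ↔ u ∈ Subgroup.zpowers (Units.mk0 q hq0)) ∧
      ∀ (u : Kˣ) (h : IsAdm q (u : K)), P u = Affine.Point.some (X q u) (Y q u) (hns u h) :=
  ⟨tateP q hns, tateP_mul q hns hgen hq0 hq1, tateP_eq_zero_iff q hns hq0,
    fun _ h => tateP_of_isAdm q hns h⟩

end Fermat.Agent.GZ.Tate.T2.Hom
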