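/-
GATE-Z (S15) / [MOD-beta] / GZ-MODB-T2C (helper64) = file 3 "Lambert" of helper71's WEQ plan:
**evaluation of the formal `q`-expansions** `Weq.Xf`, `Weq.Yf`, `Weq.sf`, `Weq.a4f`, `Weq.a6f`
in ANY complete normed field `𝕜` (no ultrametric hypothesis: serves `ℂ` and the `p`-adic fields).

For `‖q‖ < 1`, `‖q‖ < ‖u‖`, `‖u‖ ‖q‖ < 1`, `u ≠ 1`, `q ≠ 0`:

* `hasSum_Xf`  : `HasSum (fun d => coeff d (Xf u u⁻¹ (1 - u)⁻¹) * q ^ d) (X q u)`,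
  `summable_norm_Xf` : `Summable (fun d => ‖coeff d (Xf u u⁻¹ (1 - u)⁻¹)‖ * ‖q‖ ^ d)`;
* `hasSum_Yf`, `summable_norm_Yf` : the same for `Y`;
* `hasSum_sf`, `hasSum_a4f`, `hasSum_a6f` (+ norm-summability) : the Lambert series
  `s_k(q)`, `a₄(q)`, `a₆(q)` of `GZ/Tate/Defs.lean`.

Core: `hasSum_lambert` — regrouping of a norm-summable double series
`∑_{n, m ≥ 1} g(m) q^(n m)` by `d = n m`:  `∑_d (∑_{m ∣ d} g m) q^d`.
-/
import Mathlib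
import Fermat.Agent.GZ.Tate.Defs
import Fermat.Agent.GZ.Tate.Weq.Formal

set_option autoImplicit false

noncomputable section

namespace Fermat.Agent.GZ.Tate.T2.Lambert

open Filter Topology

variable {𝕜 : Type*} [NormedField 𝕜]

/-! ### the double series -/

/-- the general term `g(m) q^(n m)` of the double series, indexed by `(n - 1, m - 1)`. -/
def lam (g : ℕ → 𝕜) (q : 𝕜) (c : ℕ × ℕ) : 𝕜 := g (c.2 + 1) * q ^ ((c.1 + 1) * (c.2 + 1))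

/-- norm-summability of the double series. -/
def NS (g : ℕ → 𝕜) (q : 𝕜) : Prop :=
  Summable fun c : ℕ × ℕ => ‖g (c.2 + 1)‖ * ‖q‖ ^ ((c.1 + 1) * (c.2 + 1))

theorem norm_lam (g : ℕ → 𝕜) (q : 𝕜) (c : ℕ × ℕ) :
    ‖lam g q c‖ = ‖g (c.2 + 1)‖ * ‖q‖ ^ ((c.1 + 1) * (c.2 + 1)) := by
  rw [lam, norm_mul, norm_pow]

theorem NS.summable_norm {g : ℕ → 𝕜} {q : 𝕜} (h : NS g q) : Summable fun c => ‖lam g q c‖ := by
  unfold NS at h
  simpa only [norm_lam] using h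

theorem NS.summable [CompleteSpace 𝕜] {g : ℕ → 𝕜} {q : 𝕜} (h : NS g q) : Summable (lam g q) :=
  h.summable_norm.of_norm

/-- the real double series of norms. -/
theorem NS.real {g : ℕ → 𝕜} {q : 𝕜} (h : NS g q) : NS (fun m => ‖g m‖) ‖q‖ := by
  unfold NS at h ⊢
  simpa only [norm_norm] using h

/-- **criterion**: `‖g m‖ ≤ m^k a^m` with `a ‖q‖ < 1`, `‖q‖ < 1`. -/
theorem NS.of_le {g : ℕ → 𝕜} {q : 𝕜} (k : ℕ) {a : ℝ} (ha : 0 ≤ a) (hq1 : ‖q‖ < 1)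
    (haq : a * ‖q‖ < 1) (hg : ∀ m : ℕ, ‖g (m + 1)‖ ≤ ((m + 1 : ℕ) : ℝ) ^ k * a ^ (m + 1)) :
    NS g q := by
  set r : ℝ := ‖q‖ with hr
  have hr0 : 0 ≤ r := norm_nonneg q
  set ρ : ℝ := max (a * r) r with hρ
  have hρ0 : 0 ≤ ρ := le_max_of_le_right hr0
  have hρ1 : ρ < 1 := max_lt haq hq1
  have h1 : Summable fun m : ℕ => ((m + 1 : ℕ) : ℝ) ^ k * ρ ^ (m + 1) := by
    have := summable_pow_mul_geometric_of_norm_lt_one (R := ℝ) k
      (show ‖ρ‖ < 1 by rwa [Real.norm_of_nonneg hρ0])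
    exact (summable_nat_add_iff 1).2 this
  have h2 : Summable fun n : ℕ => ρ ^ n := summable_geometric_of_lt_one hρ0 hρ1
  have h3 := h2.mul_of_nonneg h1 (fun n => pow_nonneg hρ0 n)
    (fun m => mul_nonneg (pow_nonneg (Nat.cast_nonneg _) _) (pow_nonneg hρ0 _))
  refine Summable.of_nonneg_of_le (fun c => mul_nonneg (norm_nonneg _) (pow_nonneg hr0 _))
    (fun c => ?_) h3
  obtain ⟨n, m⟩ := c
  show ‖g (m + 1)‖ * r ^ ((n + 1) * (m + 1)) ≤ ρ ^ n * (((m + 1 : ℕ) : ℝ) ^ k * ρ ^ (m + 1))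
  have e1 : (n + 1) * (m + 1) = (m + 1) + n * (m + 1) := by ring
  have hr1 : r ≤ 1 := hq1.le
  have b1 : r ^ (n * (m + 1)) ≤ ρ ^ n := by
    calc r ^ (n * (m + 1)) ≤ r ^ n :=
          pow_le_pow_of_le_one hr0 hr1 (Nat.le_mul_of_pos_right n (Nat.succ_pos m))
      _ ≤ ρ ^ n := pow_le_pow_left₀ hr0 (le_max_right _ _) n
  have b2 : a ^ (m + 1) * r ^ (m + 1) ≤ ρ ^ (m + 1) := by
    rw [← mul_pow]
    exact pow_le_pow_left₀ (mul_nonneg ha hr0) (le_max_left _ _) _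
  have hk0 : 0 ≤ ((m + 1 : ℕ) : ℝ) ^ k := pow_nonneg (Nat.cast_nonneg _) _
  calc ‖g (m + 1)‖ * r ^ ((n + 1) * (m + 1))
      ≤ (((m + 1 : ℕ) : ℝ) ^ k * a ^ (m + 1)) * (r ^ (m + 1) * r ^ (n * (m + 1))) := by
        rw [e1, pow_add]
        exact mul_le_mul_of_nonneg_right (hg m) (mul_nonneg (pow_nonneg hr0 _) (pow_nonneg hr0 _))
    _ = ((m + 1 : ℕ) : ℝ) ^ k * (a ^ (m + 1) * r ^ (m + 1)) * r ^ (n * (m + 1)) := by ring
    _ ≤ ((m + 1 : ℕ) : ℝ) ^ k * ρ ^ (m + 1) * ρ ^ n := by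
        apply mul_le_mul (mul_le_mul_of_nonneg_left b2 hk0) b1 (pow_nonneg hr0 _)
        exact mul_nonneg hk0 (pow_nonneg hρ0 _)
    _ = ρ ^ n * (((m + 1 : ℕ) : ℝ) ^ k * ρ ^ (m + 1)) := by ring

theorem NS.add {g h : ℕ → 𝕜} {q : 𝕜} (hg : NS g q) (hh : NS h q) : NS (fun m => g m + h m) q := by
  unfold NS at hg hh ⊢
  refine Summable.of_nonneg_of_le (fun c => mul_nonneg (norm_nonneg _) (pow_nonneg (norm_nonneg _) _))
    (fun c => ?_) (hg.add hh)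
  rw [← add_mul]
  exact mul_le_mul_of_nonneg_right (norm_add_le _ _) (pow_nonneg (norm_nonneg _) _)

theorem NS.const_mul {g : ℕ → 𝕜} {q : 𝕜} (hg : NS g q) (a : 𝕜) : NS (fun m => a * g m) q := by
  unfold NS at hg ⊢
  have := hg.mul_left ‖a‖
  refine this.congr fun c => ?_
  rw [norm_mul, mul_assoc]

theorem NS.neg {g : ℕ → 𝕜} {q : 𝕜} (hg : NS g q) : NS (fun m => -g m) q := by
  unfold NS at hg ⊢
  simpa only [norm_neg] using hg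

/-! ### regrouping by `d = n m` -/

/-- the fibre of `(n, m) ↦ (n + 1)(m + 1)` over `d`, as a finset. -/
def fib (d : ℕ) : Finset (ℕ × ℕ) :=
  d.divisorsAntidiagonal.image fun x => (x.1 - 1, x.2 - 1)

theorem mem_fib {d : ℕ} {c : ℕ × ℕ} : c ∈ fib d ↔ (c.1 + 1) * (c.2 + 1) = d := by
  rw [fib, Finset.mem_image]
  constructor
  · rintro ⟨x, hx, rfl⟩
    rw [Nat.mem_divisorsAntidiagonal] at hx
    obtain ⟨hx1, hx2⟩ := hx
    have h1 : x.1 ≠ 0 := fun h => hx2 (by rw [← hx1, h, zero_mul])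
    have h2 : x.2 ≠ 0 := fun h => hx2 (by rw [← hx1, h, mul_zero])
    show (x.1 - 1 + 1) * (x.2 - 1 + 1) = d
    rw [Nat.sub_add_cancel (Nat.one_le_iff_ne_zero.2 h1),
      Nat.sub_add_cancel (Nat.one_le_iff_ne_zero.2 h2), hx1]
  · intro h
    refine ⟨(c.1 + 1, c.2 + 1), ?_, by simp⟩
    rw [Nat.mem_divisorsAntidiagonal]
    refine ⟨h, ?_⟩
    rw [← h]
    exact Nat.mul_ne_zero (Nat.succ_ne_zero _) (Nat.succ_ne_zero _)

theorem sum_fib (g : ℕ → 𝕜) (q : 𝕜) (d : ℕ) :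
    ∑ c ∈ fib d, lam g q c = (∑ m ∈ d.divisors, g m) * q ^ d := by
  rw [fib, Finset.sum_image]
  · have h1 : ∀ x ∈ d.divisorsAntidiagonal, lam g q (x.1 - 1, x.2 - 1) = g x.2 * q ^ d := by
      intro x hx
      rw [Nat.mem_divisorsAntidiagonal] at hx
      obtain ⟨hx1, hx2⟩ := hx
      have h1 : x.1 ≠ 0 := fun h => hx2 (by rw [← hx1, h, zero_mul])
      have h2 : x.2 ≠ 0 := fun h => hx2 (by rw [← hx1, h, mul_zero])
      show g (x.2 - 1 + 1) * q ^ ((x.1 - 1 + 1) * (x.2 - 1 + 1)) = _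
      rw [Nat.sub_add_cancel (Nat.one_le_iff_ne_zero.2 h1),
        Nat.sub_add_cancel (Nat.one_le_iff_ne_zero.2 h2), hx1]
    rw [Finset.sum_congr rfl h1, Nat.sum_divisorsAntidiagonal' (fun _ j => g j * q ^ d),
      Finset.sum_mul]
  · intro x hx y hy hxy
    rw [Finset.mem_coe, Nat.mem_divisorsAntidiagonal] at hx hy
    obtain ⟨hx1, hx2⟩ := hx
    obtain ⟨hy1, hy2⟩ := hy
    have h1 : x.1 ≠ 0 := fun h => hx2 (by rw [← hx1, h, zero_mul])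
    have h2 : x.2 ≠ 0 := fun h => hx2 (by rw [← hx1, h, mul_zero])
    have h3 : y.1 ≠ 0 := fun h => hy2 (by rw [← hy1, h, zero_mul])
    have h4 : y.2 ≠ 0 := fun h => hy2 (by rw [← hy1, h, mul_zero])
    simp only [Prod.mk.injEq] at hxy
    ext <;> omega

/-- **Lambert regrouping**: `∑_{n, m ≥ 1} g(m) q^(n m) = ∑_d (∑_{m ∣ d} g m) q^d`. -/
theorem hasSum_lambert {g : ℕ → 𝕜} {q : 𝕜} (hs : Summable (lam g q)) :
    HasSum (fun d : ℕ => (∑ m ∈ d.divisors, g m) * q ^ d) (∑' c, lam g q c) := by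
  have h := hs.hasSum
  have h' := (Equiv.sigmaFiberEquiv fun c : ℕ × ℕ => (c.1 + 1) * (c.2 + 1)).hasSum_iff.2 h
  refine h'.sigma fun d => ?_
  have hset : {c : ℕ × ℕ | (c.1 + 1) * (c.2 + 1) = d} = ↑(fib d) := by
    ext c
    rw [Set.mem_setOf_eq, Finset.mem_coe, mem_fib]
  have h2 := (fib d).hasSum (lam g q)
  rw [sum_fib] at h2
  have h3 := hasSum_subtype_iff_indicator.1 h2
  rw [← hset] at h3
  exact hasSum_subtype_iff_indicator.2 h3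

theorem NS.hasSum_lambert [CompleteSpace 𝕜] {g : ℕ → 𝕜} {q : 𝕜} (h : NS g q) :
    HasSum (fun d : ℕ => (∑ m ∈ d.divisors, g m) * q ^ d) (∑' c, lam g q c) :=
  Lambert.hasSum_lambert h.summable

/-- norm-summability of the regrouped series. -/
theorem NS.summable_norm_lambert {g : ℕ → 𝕜} {q : 𝕜} (h : NS g q) :
    Summable fun d : ℕ => (∑ m ∈ d.divisors, ‖g m‖) * ‖q‖ ^ d :=
  (Lambert.hasSum_lambert (𝕜 := ℝ) (g := fun m => ‖g m‖) (q := ‖q‖) (by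
    have := h.real.summable_norm
    refine this.of_norm)).summable

/-! ### rows and columns of the double series -/

section Fibres

variable [CompleteSpace 𝕜]

/-- summing the double series row by row (fixed cofactor `n`). -/
theorem NS.hasSum_rows {g : ℕ → 𝕜} {q : 𝕜} (h : NS g q) {R : ℕ → 𝕜}
    (hR : ∀ n, HasSum (fun m => lam g q (n, m)) (R n)) : HasSum R (∑' c, lam g q c) :=
  h.summable.hasSum.prod_fiberwise hR

/-- summing the double series column by column (fixed divisor `m`): the Lambert form. -/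
theorem NS.hasSum_cols {g : ℕ → 𝕜} {q : 𝕜} (h : NS g q) (hq1 : ‖q‖ < 1) :
    HasSum (fun m : ℕ => g (m + 1) * q ^ (m + 1) / (1 - q ^ (m + 1))) (∑' c, lam g q c) := by
  have h1 : HasSum (fun c : ℕ × ℕ => lam g q c.swap) (∑' c, lam g q c) :=
    (Equiv.prodComm ℕ ℕ).hasSum_iff.2 h.summable.hasSum
  refine h1.prod_fiberwise fun m => ?_
  have hm : ‖q ^ (m + 1)‖ < 1 := by
    rw [norm_pow]
    exact pow_lt_one₀ (norm_nonneg q) hq1 (Nat.succ_ne_zero m)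
  have h2 := (hasSum_geometric_of_norm_lt_one hm).mul_left (g (m + 1) * q ^ (m + 1))
  have e1 : (fun n : ℕ => lam g q ((m, n) : ℕ × ℕ).swap) =
      fun n => g (m + 1) * q ^ (m + 1) * (q ^ (m + 1)) ^ n := by
    funext n
    show g (m + 1) * q ^ ((n + 1) * (m + 1)) = _
    rw [mul_assoc, ← pow_succ', ← pow_mul, mul_comm (m + 1)]
  rw [e1, div_eq_mul_inv]
  exact h2

end Fibres

/-! ### the geometric-type series -/

section Geom

variable [CompleteSpace 𝕜]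

theorem hasSum_xTerm {w : 𝕜} (hw : ‖w‖ < 1) :
    HasSum (fun m : ℕ => ((m + 1 : ℕ) : 𝕜) * w ^ (m + 1)) (xTerm w) := by
  have h := hasSum_coe_mul_geometric_of_norm_lt_one hw
  have h2 := (hasSum_nat_add_iff' 1).2 h
  simp only [Finset.range_one, Finset.sum_singleton, Nat.cast_zero, zero_mul, sub_zero] at h2
  exact h2

theorem hasSum_yTerm {w : 𝕜} (hw : ‖w‖ < 1) :
    HasSum (fun m : ℕ => (((m + 1).choose 2 : ℕ) : 𝕜) * w ^ (m + 1)) (yTerm w) := by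
  have h := (hasSum_choose_mul_geometric_of_norm_lt_one 2 hw).mul_left (w ^ 2)
  have e : w ^ 2 * (1 / (1 - w) ^ (2 + 1)) = yTerm w := by
    unfold yTerm
    rw [mul_one_div]
  rw [e] at h
  -- `h : HasSum (fun n => w^2 * (C(n+2,2) * w^n)) (yTerm w)`; shift by one (first term is `0`)
  set F : ℕ → 𝕜 := fun m => (((m + 1).choose 2 : ℕ) : 𝕜) * w ^ (m + 1) with hF
  have h2 : HasSum (fun n : ℕ => F (n + 1)) (yTerm w) := by
    have e2 : (fun n : ℕ => F (n + 1)) = fun i => w ^ 2 * (((i + 2).choose 2 : ℕ) * w ^ i) := by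
      funext i
      show (((i + 2).choose 2 : ℕ) : 𝕜) * w ^ (i + 2) = _
      ring
    rw [e2]
    exact h
  have h3 := (hasSum_nat_add_iff 1).1 h2
  have hF0 : F 0 = 0 := by simp [hF]
  rw [Finset.range_one, Finset.sum_singleton, hF0, add_zero] at h3
  exact h3

end Geom

/-! ### the general evaluation lemma -/

section General

variable [CompleteSpace 𝕜]

theorem lam_add (g h : ℕ → 𝕜) (q : 𝕜) (c : ℕ × ℕ) :
    lam (fun m => g m + h m) q c = lam g q c + lam h q c := by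
  simp only [lam, add_mul]

theorem lam_const_mul (a : 𝕜) (g : ℕ → 𝕜) (q : 𝕜) (c : ℕ × ℕ) :
    lam (fun m => a * g m) q c = a * lam g q c := by
  simp only [lam, mul_assoc]

theorem NS.tsum_add {g h : ℕ → 𝕜} {q : 𝕜} (hg : NS g q) (hh : NS h q) :
    ∑' c, lam (fun m => g m + h m) q c = ∑' c, lam g q c + ∑' c, lam h q c := by
  simp only [lam_add]
  exact hg.summable.tsum_add hh.summable

theorem NS.tsum_const_mul {g : ℕ → 𝕜} {q : 𝕜} (hg : NS g q) (a : 𝕜) :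
    ∑' c, lam (fun m => a * g m) q c = a * ∑' c, lam g q c := by
  simp only [lam_const_mul]
  exact hg.summable.tsum_mul_left a

/-- a power series whose coefficients are `a₀` in degree `0` and divisor sums of `G` in positive
degrees evaluates to `a₀ + ∑_{n,m} G(m) q^(nm)`. -/
theorem NS.hasSum_coeff {G : ℕ → 𝕜} {q : 𝕜} (hG : NS G q) (a₀ : 𝕜) (c : ℕ → 𝕜) (hc0 : c 0 = a₀)
    (hc : ∀ d, d ≠ 0 → c d = ∑ m ∈ d.divisors, G m) :
    HasSum (fun d => c d * q ^ d) (a₀ + ∑' x, lam G q x) := by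
  have h0 : HasSum (fun d : ℕ => if d = 0 then a₀ else 0) a₀ := hasSum_ite_eq 0 a₀
  have h1 := h0.add hG.hasSum_lambert
  refine h1.congr_fun fun d => ?_
  by_cases hd : d = 0
  · subst hd
    simp [hc0]
  · rw [if_neg hd, zero_add, hc d hd]

/-- norm-summability in the situation of `NS.hasSum_coeff`. -/
theorem NS.summable_norm_coeff {G : ℕ → 𝕜} {q : 𝕜} (hG : NS G q) (c : ℕ → 𝕜)
    (hc : ∀ d, d ≠ 0 → c d = ∑ m ∈ d.divisors, G m) :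
    Summable fun d => ‖c d‖ * ‖q‖ ^ d := by
  have h0 : Summable (fun d : ℕ => if d = 0 then ‖c 0‖ else 0) := (hasSum_ite_eq 0 ‖c 0‖).summable
  have h1 := h0.add hG.summable_norm_lambert
  refine Summable.of_nonneg_of_le (fun d => mul_nonneg (norm_nonneg _) (pow_nonneg (norm_nonneg _) _))
    (fun d => ?_) h1
  by_cases hd : d = 0
  · subst hd
    simp
  · rw [if_neg hd, zero_add, hc d hd]
    exact mul_le_mul_of_nonneg_right (norm_sum_le _ _) (pow_nonneg (norm_nonneg _) _)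

end General

/-! ### the concrete coefficient functions -/

/-- `m ↦ m^k`. -/
def gS (k : ℕ) (m : ℕ) : 𝕜 := (m : 𝕜) ^ k

/-- `m ↦ m u^m`. -/
def gXp (u : 𝕜) (m : ℕ) : 𝕜 := (m : 𝕜) * u ^ m

/-- `m ↦ C(m,2) u^m`. -/
def gYp (u : 𝕜) (m : ℕ) : 𝕜 := ((m.choose 2 : ℕ) : 𝕜) * u ^ m

/-- `m ↦ -C(m+1,2) u'^m`. -/
def gYm (u' : 𝕜) (m : ℕ) : 𝕜 := -((((m + 1).choose 2 : ℕ) : 𝕜) * u' ^ m)

theorem norm_natCast_le' (n : ℕ) : ‖(n : 𝕜)‖ ≤ (n : ℝ) := by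
  have := Nat.norm_cast_le (α := 𝕜) n
  rwa [norm_one, mul_one] at this

theorem ns_gS (k : ℕ) {q : 𝕜} (hq1 : ‖q‖ < 1) : NS (gS (𝕜 := 𝕜) k) q := by
  refine NS.of_le k (a := 1) zero_le_one hq1 (by rwa [one_mul]) fun m => ?_
  rw [gS, norm_pow, one_pow, mul_one]
  exact pow_le_pow_left₀ (norm_nonneg _) (norm_natCast_le' _) k

theorem ns_gXp {q u : 𝕜} (hq1 : ‖q‖ < 1) (hu : ‖u‖ * ‖q‖ < 1) : NS (gXp u) q := by
  refine NS.of_le 1 (norm_nonneg u) hq1 hu fun m => ?_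
  rw [gXp, norm_mul, norm_pow, pow_one]
  exact mul_le_mul_of_nonneg_right (norm_natCast_le' _) (pow_nonneg (norm_nonneg _) _)

theorem choose_two_le_sq (n : ℕ) : n.choose 2 ≤ n ^ 2 := Nat.choose_le_pow n 2

theorem ns_gYp {q u : 𝕜} (hq1 : ‖q‖ < 1) (hu : ‖u‖ * ‖q‖ < 1) : NS (gYp u) q := by
  refine NS.of_le 2 (norm_nonneg u) hq1 hu fun m => ?_
  rw [gYp, norm_mul, norm_pow]
  refine mul_le_mul_of_nonneg_right ?_ (pow_nonneg (norm_nonneg _) _)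
  refine (norm_natCast_le' _).trans ?_
  exact_mod_cast choose_two_le_sq (m + 1)

theorem ns_gYm {q u : 𝕜} (hq1 : ‖q‖ < 1) (hu : ‖u‖ * ‖q‖ < 1) : NS (gYm u) q := by
  have h1 : NS (fun m => gYp u m + gXp u m) q := (ns_gYp hq1 hu).add (ns_gXp hq1 hu)
  have h2 : (fun m => gYm u m) = fun m => -(gYp u m + gXp u m) := by
    funext m
    simp only [gYm, gYp, gXp]
    rw [← add_mul]
    congr 2
    rw [Nat.choose_succ_succ' m 1, Nat.choose_one_right]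
    push_cast
    ring
  show NS (fun m => gYm u m) q
  rw [h2]
  exact h1.neg

/-! ### rows -/

section Rows

variable [CompleteSpace 𝕜]

theorem norm_pow_succ_mul_lt {q u : 𝕜} (hq1 : ‖q‖ < 1) (hu : ‖u‖ * ‖q‖ < 1) (n : ℕ) :
    ‖q ^ (n + 1) * u‖ < 1 := by
  rw [norm_mul, norm_pow, pow_succ, mul_assoc]
  calc ‖q‖ ^ n * (‖q‖ * ‖u‖) ≤ 1 * (‖q‖ * ‖u‖) :=
        mul_le_mul_of_nonneg_right (pow_le_one₀ (norm_nonneg _) hq1.le)
          (mul_nonneg (norm_nonneg _) (norm_nonneg _))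
    _ = ‖u‖ * ‖q‖ := by ring
    _ < 1 := hu

theorem row_gXp {q u : 𝕜} (hq1 : ‖q‖ < 1) (hu : ‖u‖ * ‖q‖ < 1) (n : ℕ) :
    HasSum (fun m => lam (gXp u) q (n, m)) (xTerm (q ^ (n + 1) * u)) := by
  have h := hasSum_xTerm (norm_pow_succ_mul_lt hq1 hu n)
  refine h.congr_fun fun m => ?_
  show ((m + 1 : ℕ) : 𝕜) * u ^ (m + 1) * q ^ ((n + 1) * (m + 1)) = _
  rw [mul_pow, ← pow_mul]
  ring

theorem row_gYp {q u : 𝕜} (hq1 : ‖q‖ < 1) (hu : ‖u‖ * ‖q‖ < 1) (n : ℕ) :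
    HasSum (fun m => lam (gYp u) q (n, m)) (yTerm (q ^ (n + 1) * u)) := by
  have h := hasSum_yTerm (norm_pow_succ_mul_lt hq1 hu n)
  refine h.congr_fun fun m => ?_
  show (((m + 1).choose 2 : ℕ) : 𝕜) * u ^ (m + 1) * q ^ ((n + 1) * (m + 1)) = _
  rw [mul_pow, ← pow_mul]
  ring

theorem row_gYm {q u : 𝕜} (hq1 : ‖q‖ < 1) (hu : ‖u‖ * ‖q‖ < 1) (n : ℕ) :
    HasSum (fun m => lam (gYm u) q (n, m))
      (-yTerm (q ^ (n + 1) * u) - xTerm (q ^ (n + 1) * u)) := by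
  have h := ((row_gYp hq1 hu n).neg).sub (row_gXp hq1 hu n)
  refine h.congr_fun fun m => ?_
  show -((((m + 1 + 1).choose 2 : ℕ) : 𝕜) * u ^ (m + 1)) * q ^ ((n + 1) * (m + 1)) =
    -((((m + 1).choose 2 : ℕ) : 𝕜) * u ^ (m + 1) * q ^ ((n + 1) * (m + 1))) -
      ((m + 1 : ℕ) : 𝕜) * u ^ (m + 1) * q ^ ((n + 1) * (m + 1))
  rw [Nat.choose_succ_succ' (m + 1) 1, Nat.choose_one_right]
  push_cast
  ring

end Rows

/-! ### the `ℤ`-indexed sums -/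

section IntSums

variable [CompleteSpace 𝕜]

/-- assembling a `ℤ`-indexed sum from its `n = 0` term, the rows `n ≥ 1` and the rows `n ≤ -1`. -/
theorem hasSum_int_of_rows {T : 𝕜 → 𝕜} {q u : 𝕜} {gp gm : ℕ → 𝕜} (hgp : NS gp q) (hgm : NS gm q)
    (hp : ∀ n : ℕ, HasSum (fun m => lam gp q (n, m)) (T (q ^ (n + 1) * u)))
    (hm : ∀ n : ℕ, HasSum (fun m => lam gm q (n, m)) (T ((q ^ (n + 1) * u⁻¹)⁻¹))) :
    HasSum (fun n : ℤ => T (q ^ n * u)) (T u + ∑' c, lam gp q c + ∑' c, lam gm q c) := by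
  have h1 : HasSum (fun n : ℕ => T (q ^ (n + 1) * u)) (∑' c, lam gp q c) := hgp.hasSum_rows hp
  have h2 : HasSum (fun n : ℕ => T (q ^ n * u)) (∑' c, lam gp q c + T u) := by
    have := (hasSum_nat_add_iff (f := fun n : ℕ => T (q ^ n * u)) 1).1 h1
    simpa using this
  have h3 : HasSum (fun n : ℕ => T ((q ^ (n + 1) * u⁻¹)⁻¹)) (∑' c, lam gm q c) :=
    hgm.hasSum_rows hm
  have h4 : HasSum (fun n : ℕ => T (q ^ ((n : ℕ) : ℤ) * u)) (T u + ∑' c, lam gp q c) := by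
    rw [add_comm]
    simpa only [zpow_natCast] using h2
  have h5 : HasSum (fun n : ℕ => T (q ^ (-((n : ℤ) + 1)) * u)) (∑' c, lam gm q c) := by
    refine h3.congr_fun fun n => ?_
    congr 1
    have : ((n : ℤ) + 1) = ((n + 1 : ℕ) : ℤ) := by push_cast; ring
    rw [this, zpow_neg, zpow_natCast, mul_inv, inv_inv]
  exact HasSum.of_nat_of_neg_add_one h4 h5

theorem norm_inv_mul_lt {q u : 𝕜} (hu : ‖q‖ < ‖u‖) : ‖u⁻¹‖ * ‖q‖ < 1 := by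
  have hu0 : 0 < ‖u‖ := lt_of_le_of_lt (norm_nonneg q) hu
  rw [norm_inv, inv_mul_lt_iff₀ hu0, mul_one]
  exact hu

theorem hasSum_int_xTerm {q u : 𝕜} (hq0 : q ≠ 0) (hq1 : ‖q‖ < 1) (hu1 : ‖q‖ < ‖u‖)
    (hu2 : ‖u‖ * ‖q‖ < 1) :
    HasSum (fun n : ℤ => xTerm (q ^ n * u))
      (xTerm u + ∑' c, lam (gXp u) q c + ∑' c, lam (gXp u⁻¹) q c) := by
  have hu0 : u ≠ 0 := by
    intro h
    rw [h, norm_zero] at hu1
    exact absurd hu1 (not_lt.2 (norm_nonneg q))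
  have hu' := norm_inv_mul_lt hu1
  refine hasSum_int_of_rows (T := xTerm) (ns_gXp hq1 hu2) (ns_gXp hq1 hu') (row_gXp hq1 hu2)
    fun n => ?_
  rw [xTerm_inv (mul_ne_zero (pow_ne_zero _ hq0) (inv_ne_zero hu0))]
  exact row_gXp hq1 hu' n

theorem hasSum_int_yTerm {q u : 𝕜} (hq0 : q ≠ 0) (hq1 : ‖q‖ < 1) (hu1 : ‖q‖ < ‖u‖)
    (hu2 : ‖u‖ * ‖q‖ < 1) :
    HasSum (fun n : ℤ => yTerm (q ^ n * u))
      (yTerm u + ∑' c, lam (gYp u) q c + ∑' c, lam (gYm u⁻¹) q c) := by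
  have hu0 : u ≠ 0 := by
    intro h
    rw [h, norm_zero] at hu1
    exact absurd hu1 (not_lt.2 (norm_nonneg q))
  have hu' := norm_inv_mul_lt hu1
  refine hasSum_int_of_rows (T := yTerm) (ns_gYp hq1 hu2) (ns_gYm hq1 hu') (row_gYp hq1 hu2)
    fun n => ?_
  rw [yTerm_inv (mul_ne_zero (pow_ne_zero _ hq0) (inv_ne_zero hu0))]
  exact row_gYm hq1 hu' n

/-- the Lambert series `s_k(q)` as a double series. -/
theorem sK_eq_tsum_lam (k : ℕ) {q : 𝕜} (hq1 : ‖q‖ < 1) :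
    sK k q = ∑' c, lam (gS k) q c :=
  ((ns_gS k hq1).hasSum_cols hq1).tsum_eq

end IntSums

/-! ### evaluation of `Xf`, `Yf` -/

section Final

variable [CompleteSpace 𝕜]

open PowerSeries

/-- the divisor-sum coefficient function of `X`. -/
def GX (u u' : 𝕜) (m : ℕ) : 𝕜 := gXp u m + gXp u' m + (-2) * gS 1 m

/-- the divisor-sum coefficient function of `Y`. -/
def GY (u u' : 𝕜) (m : ℕ) : 𝕜 := gYp u m + gYm u' m + 1 * gS 1 m

theorem ns_GX {q u u' : 𝕜} (hq1 : ‖q‖ < 1) (hu : ‖u‖ * ‖q‖ < 1) (hu' : ‖u'‖ * ‖q‖ < 1) :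
    NS (GX u u') q :=
  ((ns_gXp hq1 hu).add (ns_gXp hq1 hu')).add ((ns_gS 1 hq1).const_mul (-2))

theorem ns_GY {q u u' : 𝕜} (hq1 : ‖q‖ < 1) (hu : ‖u‖ * ‖q‖ < 1) (hu' : ‖u'‖ * ‖q‖ < 1) :
    NS (GY u u') q :=
  ((ns_gYp hq1 hu).add (ns_gYm hq1 hu')).add ((ns_gS 1 hq1).const_mul 1)

theorem tsum_GX {q u u' : 𝕜} (hq1 : ‖q‖ < 1) (hu : ‖u‖ * ‖q‖ < 1) (hu' : ‖u'‖ * ‖q‖ < 1) :
    ∑' c, lam (GX u u') q c =
      ∑' c, lam (gXp u) q c + ∑' c, lam (gXp u') q c + (-2) * ∑' c, lam (gS 1) q c := by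
  have h1 := ((ns_gXp hq1 hu).add (ns_gXp hq1 hu')).tsum_add ((ns_gS 1 hq1).const_mul (-2))
  rw [(ns_gXp hq1 hu).tsum_add (ns_gXp hq1 hu'), (ns_gS 1 hq1).tsum_const_mul] at h1
  exact h1

theorem tsum_GY {q u u' : 𝕜} (hq1 : ‖q‖ < 1) (hu : ‖u‖ * ‖q‖ < 1) (hu' : ‖u'‖ * ‖q‖ < 1) :
    ∑' c, lam (GY u u') q c =
      ∑' c, lam (gYp u) q c + ∑' c, lam (gYm u') q c + 1 * ∑' c, lam (gS 1) q c := by
  have h1 := ((ns_gYp hq1 hu).add (ns_gYm hq1 hu')).tsum_add ((ns_gS 1 hq1).const_mul 1)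
  rw [(ns_gYp hq1 hu).tsum_add (ns_gYm hq1 hu'), (ns_gS 1 hq1).tsum_const_mul] at h1
  exact h1

theorem xCoeff_eq_sum (u u' : 𝕜) (d : ℕ) : Weq.xCoeff u u' d = ∑ m ∈ d.divisors, GX u u' m := by
  unfold Weq.xCoeff
  refine Finset.sum_congr rfl fun m _ => ?_
  simp only [GX, gXp, gS, pow_one]
  ring

theorem yCoeff_eq_sum (u u' : 𝕜) (d : ℕ) : Weq.yCoeff u u' d = ∑ m ∈ d.divisors, GY u u' m := by
  unfold Weq.yCoeff
  refine Finset.sum_congr rfl fun m _ => ?_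
  simp only [GY, gYp, gYm, gS, pow_one]
  ring

theorem coeff_zero_Xf (u : 𝕜) : coeff 0 (Weq.Xf u u⁻¹ (1 - u)⁻¹) = xTerm u := by
  rw [Weq.coeff_Xf, if_pos rfl, xTerm, div_eq_mul_inv, inv_pow]

theorem coeff_zero_Yf (u : 𝕜) : coeff 0 (Weq.Yf u u⁻¹ (1 - u)⁻¹) = yTerm u := by
  rw [Weq.coeff_Yf, if_pos rfl, yTerm, div_eq_mul_inv, inv_pow]

/-- **evaluation of the formal `q`-expansion of `X`** on the annulus `‖q‖ < ‖u‖ < ‖q‖⁻¹`. -/
theorem hasSum_Xf {q u : 𝕜} (hq0 : q ≠ 0) (hq1 : ‖q‖ < 1) (hu1 : ‖q‖ < ‖u‖)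
    (hu2 : ‖u‖ * ‖q‖ < 1) :
    HasSum (fun d => coeff d (Weq.Xf u u⁻¹ (1 - u)⁻¹) * q ^ d) (X q u) := by
  have hu' := norm_inv_mul_lt hu1
  have h := (ns_GX hq1 hu2 hu').hasSum_coeff (xTerm u)
    (fun d => coeff d (Weq.Xf u u⁻¹ (1 - u)⁻¹)) (coeff_zero_Xf u) (fun d hd => by
      rw [Weq.coeff_Xf, if_neg hd, xCoeff_eq_sum])
  have e : X q u = xTerm u + ∑' x, lam (GX u u⁻¹) q x := by
    rw [X, (hasSum_int_xTerm hq0 hq1 hu1 hu2).tsum_eq, tsum_GX hq1 hu2 hu', sK_eq_tsum_lam 1 hq1]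
    ring
  rw [e]
  exact h

theorem summable_norm_Xf {q u : 𝕜} (hq1 : ‖q‖ < 1) (hu1 : ‖q‖ < ‖u‖) (hu2 : ‖u‖ * ‖q‖ < 1) :
    Summable fun d => ‖coeff d (Weq.Xf u u⁻¹ (1 - u)⁻¹)‖ * ‖q‖ ^ d :=
  (ns_GX hq1 hu2 (norm_inv_mul_lt hu1)).summable_norm_coeff
    (fun d => coeff d (Weq.Xf u u⁻¹ (1 - u)⁻¹)) (fun d hd => by
      rw [Weq.coeff_Xf, if_neg hd, xCoeff_eq_sum])

/-- **evaluation of the formal `q`-expansion of `Y`** on the annulus `‖q‖ < ‖u‖ < ‖q‖⁻¹`. -/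
theorem hasSum_Yf {q u : 𝕜} (hq0 : q ≠ 0) (hq1 : ‖q‖ < 1) (hu1 : ‖q‖ < ‖u‖)
    (hu2 : ‖u‖ * ‖q‖ < 1) :
    HasSum (fun d => coeff d (Weq.Yf u u⁻¹ (1 - u)⁻¹) * q ^ d) (Y q u) := by
  have hu' := norm_inv_mul_lt hu1
  have h := (ns_GY hq1 hu2 hu').hasSum_coeff (yTerm u)
    (fun d => coeff d (Weq.Yf u u⁻¹ (1 - u)⁻¹)) (coeff_zero_Yf u) (fun d hd => by
      rw [Weq.coeff_Yf, if_neg hd, yCoeff_eq_sum])
  have e : Y q u = yTerm u + ∑' x, lam (GY u u⁻¹) q x := by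
    rw [Y, (hasSum_int_yTerm hq0 hq1 hu1 hu2).tsum_eq, tsum_GY hq1 hu2 hu', sK_eq_tsum_lam 1 hq1]
    ring
  rw [e]
  exact h

theorem summable_norm_Yf {q u : 𝕜} (hq1 : ‖q‖ < 1) (hu1 : ‖q‖ < ‖u‖) (hu2 : ‖u‖ * ‖q‖ < 1) :
    Summable fun d => ‖coeff d (Weq.Yf u u⁻¹ (1 - u)⁻¹)‖ * ‖q‖ ^ d :=
  (ns_GY hq1 hu2 (norm_inv_mul_lt hu1)).summable_norm_coeff
    (fun d => coeff d (Weq.Yf u u⁻¹ (1 - u)⁻¹)) (fun d hd => by
      rw [Weq.coeff_Yf, if_neg hd, yCoeff_eq_sum])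

end Final

end Fermat.Agent.GZ.Tate.T2.Lambert
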