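/-
GATE-Z (S15) / [MOD-beta] / GZ-MODB-T2C (helper64), part 2: the evaluations of `T2/Lambert.lean`
in helper71's vocabulary `Weq.evalPS` / `Weq.AbsConv` (`GZ/Tate/Weq/Eval.lean`), and the Lambert
series `s_k(q)`, `a₄(q)`, `a₆(q)` of `GZ/Tate/Defs.lean` as evaluations of the integral formal
series `Weq.sf k`, `Weq.a4f`, `Weq.a6f`.

Complete normed field `𝕜` (no ultrametric hypothesis), `‖q‖ < 1`:

* `absConv_Xf`, `evalPS_Xf`, `absConv_Yf`, `evalPS_Yf`  (annulus `‖q‖ < ‖u‖`, `‖u‖ ‖q‖ < 1`, `q ≠ 0`);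
* `hasSum_sf`, `absConv_sf`, `evalPS_sf`   : `evalPS (map ℤ→𝕜 (sf k)) q = sK k q`;
* `absConv_a4f`, `evalPS_a4f`              : `evalPS (map ℤ→𝕜 a4f) q = a4 q`;
* `absConv_a6f`, `evalPS_a6f`              : `evalPS (map ℤ→𝕜 a6f) q = a6 q`.
-/
import Mathlib
import Fermat.Agent.GZ.Tate.T2.Lambert
import Fermat.Agent.GZ.Tate.Weq.Eval

set_option autoImplicit false

noncomputable section

namespace Fermat.Agent.GZ.Tate.T2.Lambert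

open PowerSeries

variable {𝕜 : Type*} [NormedField 𝕜] [CompleteSpace 𝕜]

theorem absConv_of_summable_norm {f : 𝕜⟦X⟧} {q : 𝕜}
    (h : Summable fun d => ‖coeff d f‖ * ‖q‖ ^ d) : Weq.AbsConv f q := by
  unfold Weq.AbsConv
  simpa only [norm_mul, norm_pow] using h

/-! ### `X`, `Y` -/

theorem absConv_Xf {q u : 𝕜} (hq1 : ‖q‖ < 1) (hu1 : ‖q‖ < ‖u‖) (hu2 : ‖u‖ * ‖q‖ < 1) :
    Weq.AbsConv (Weq.Xf u u⁻¹ (1 - u)⁻¹) q :=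
  absConv_of_summable_norm (summable_norm_Xf hq1 hu1 hu2)

theorem absConv_Yf {q u : 𝕜} (hq1 : ‖q‖ < 1) (hu1 : ‖q‖ < ‖u‖) (hu2 : ‖u‖ * ‖q‖ < 1) :
    Weq.AbsConv (Weq.Yf u u⁻¹ (1 - u)⁻¹) q :=
  absConv_of_summable_norm (summable_norm_Yf hq1 hu1 hu2)

theorem evalPS_Xf {q u : 𝕜} (hq0 : q ≠ 0) (hq1 : ‖q‖ < 1) (hu1 : ‖q‖ < ‖u‖)
    (hu2 : ‖u‖ * ‖q‖ < 1) : Weq.evalPS (Weq.Xf u u⁻¹ (1 - u)⁻¹) q = X q u :=
  (hasSum_Xf hq0 hq1 hu1 hu2).tsum_eq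

theorem evalPS_Yf {q u : 𝕜} (hq0 : q ≠ 0) (hq1 : ‖q‖ < 1) (hu1 : ‖q‖ < ‖u‖)
    (hu2 : ‖u‖ * ‖q‖ < 1) : Weq.evalPS (Weq.Yf u u⁻¹ (1 - u)⁻¹) q = Y q u :=
  (hasSum_Yf hq0 hq1 hu1 hu2).tsum_eq

/-! ### `s_k` -/

theorem coeff_map_sf (k d : ℕ) :
    coeff d (PowerSeries.map (Int.castRingHom 𝕜) (Weq.sf k)) = ∑ m ∈ d.divisors, gS (𝕜 := 𝕜) k m := by
  rw [coeff_map, Weq.sf, coeff_mk, eq_intCast, Int.cast_sum]
  refine Finset.sum_congr rfl fun m _ => ?_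
  rw [gS, Int.cast_pow, Int.cast_natCast]

theorem hasSum_sf (k : ℕ) {q : 𝕜} (hq1 : ‖q‖ < 1) :
    HasSum (fun d => coeff d (PowerSeries.map (Int.castRingHom 𝕜) (Weq.sf k)) * q ^ d) (sK k q) := by
  have h := (ns_gS (𝕜 := 𝕜) k hq1).hasSum_coeff 0
    (fun d => coeff d (PowerSeries.map (Int.castRingHom 𝕜) (Weq.sf k)))
    (by rw [coeff_map_sf]; simp) (fun d _ => coeff_map_sf k d)
  rw [zero_add, ← sK_eq_tsum_lam k hq1] at h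
  exact h

theorem absConv_sf (k : ℕ) {q : 𝕜} (hq1 : ‖q‖ < 1) :
    Weq.AbsConv (PowerSeries.map (Int.castRingHom 𝕜) (Weq.sf k)) q :=
  absConv_of_summable_norm ((ns_gS (𝕜 := 𝕜) k hq1).summable_norm_coeff
    (fun d => coeff d (PowerSeries.map (Int.castRingHom 𝕜) (Weq.sf k))) (fun d _ => coeff_map_sf k d))

theorem evalPS_sf (k : ℕ) {q : 𝕜} (hq1 : ‖q‖ < 1) :
    Weq.evalPS (PowerSeries.map (Int.castRingHom 𝕜) (Weq.sf k)) q = sK k q :=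
  (hasSum_sf k hq1).tsum_eq

/-! ### `a₄` -/

theorem map_a4f : PowerSeries.map (Int.castRingHom 𝕜) Weq.a4f =
    C (-5 : 𝕜) * PowerSeries.map (Int.castRingHom 𝕜) (Weq.sf 3) := by
  rw [Weq.a4f, map_mul, map_neg, map_ofNat, map_neg, map_ofNat]

theorem absConv_a4f {q : 𝕜} (hq1 : ‖q‖ < 1) :
    Weq.AbsConv (PowerSeries.map (Int.castRingHom 𝕜) Weq.a4f) q := by
  rw [map_a4f]
  exact (Weq.absConv_C _ q).mul (absConv_sf 3 hq1)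

theorem evalPS_a4f {q : 𝕜} (hq1 : ‖q‖ < 1) :
    Weq.evalPS (PowerSeries.map (Int.castRingHom 𝕜) Weq.a4f) q = a4 q := by
  rw [map_a4f, Weq.evalPS_mul (Weq.absConv_C _ q) (absConv_sf 3 hq1), Weq.evalPS_C, evalPS_sf 3 hq1,
    a4]

/-! ### `a₆` -/

/-- `m ↦ (5 m³ + 7 m⁵)/12`. -/
def g6 (m : ℕ) : 𝕜 := (a6Coeff m : 𝕜)

theorem a6Coeff_le (n : ℕ) : a6Coeff n ≤ n ^ 5 := by
  unfold a6Coeff
  apply Nat.div_le_of_le_mul
  rcases Nat.eq_zero_or_pos n with rfl | hn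
  · simp
  · have h : n ^ 3 ≤ n ^ 5 := Nat.pow_le_pow_right hn (by norm_num)
    omega

theorem ns_g6 {q : 𝕜} (hq1 : ‖q‖ < 1) : NS (g6 (𝕜 := 𝕜)) q := by
  refine NS.of_le 5 (a := 1) zero_le_one hq1 (by rwa [one_mul]) fun m => ?_
  rw [g6, one_pow, mul_one]
  refine (norm_natCast_le' _).trans ?_
  exact_mod_cast a6Coeff_le (m + 1)

theorem tsum_a6Term {q : 𝕜} (hq1 : ‖q‖ < 1) : ∑' n, a6Term q n = ∑' c, lam (g6 (𝕜 := 𝕜)) q c :=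
  ((ns_g6 hq1).hasSum_cols hq1).tsum_eq

theorem coeff_map_a6f (d : ℕ) :
    coeff d (PowerSeries.map (Int.castRingHom 𝕜) Weq.a6f) =
      ∑ m ∈ d.divisors, (fun m => (-1 : 𝕜) * g6 m) m := by
  rw [coeff_map, Weq.a6f, map_neg, coeff_mk, eq_intCast, Int.cast_neg, Int.cast_sum,
    ← Finset.sum_neg_distrib]
  refine Finset.sum_congr rfl fun m _ => ?_
  show -(((Weq.a6C m : ℕ) : ℤ) : 𝕜) = (-1 : 𝕜) * ((a6Coeff m : ℕ) : 𝕜)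
  rw [Int.cast_natCast, neg_one_mul]
  rfl

theorem hasSum_a6f {q : 𝕜} (hq1 : ‖q‖ < 1) :
    HasSum (fun d => coeff d (PowerSeries.map (Int.castRingHom 𝕜) Weq.a6f) * q ^ d) (a6 q) := by
  have h := ((ns_g6 (𝕜 := 𝕜) hq1).const_mul (-1)).hasSum_coeff 0
    (fun d => coeff d (PowerSeries.map (Int.castRingHom 𝕜) Weq.a6f))
    (by rw [coeff_map_a6f]; simp) (fun d _ => coeff_map_a6f d)
  rw [zero_add, (ns_g6 hq1).tsum_const_mul, ← tsum_a6Term hq1, neg_one_mul] at h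
  exact h

theorem absConv_a6f {q : 𝕜} (hq1 : ‖q‖ < 1) :
    Weq.AbsConv (PowerSeries.map (Int.castRingHom 𝕜) Weq.a6f) q :=
  absConv_of_summable_norm (((ns_g6 (𝕜 := 𝕜) hq1).const_mul (-1)).summable_norm_coeff
    (fun d => coeff d (PowerSeries.map (Int.castRingHom 𝕜) Weq.a6f)) (fun d _ => coeff_map_a6f d))

theorem evalPS_a6f {q : 𝕜} (hq1 : ‖q‖ < 1) :
    Weq.evalPS (PowerSeries.map (Int.castRingHom 𝕜) Weq.a6f) q = a6 q :=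
  (hasSum_a6f hq1).tsum_eq

end Fermat.Agent.GZ.Tate.T2.Lambert
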