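/-
GATE-Z (S15) / [MOD-beta] leaf (T2), sub-leaf A (helper21): the ADDITION THEOREM for Mathlib's
Weierstrass `℘` of an arbitrary `PeriodPair`, by Liouville's theorem (template of
`PeriodPair.relation_eq_zero`), in a form with no division and no zero counting.  Mathlib only.

* `colDet L z w = (℘ z - ℘ w)(-℘'(z+w) - ℘' w) - (℘(z+w) - ℘ w)(℘' z - ℘' w)` is the determinant
  expressing that `(℘ z, ℘' z)`, `(℘ w, ℘' w)`, `(℘(z+w), -℘'(z+w))` are collinear;
* `colDet_eq_zero` : `z, w, z + w ∉ Λ ⟹ colDet L z w = 0`.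
  Proof: for fixed `w ∉ Λ` the function `z ↦ colDet L z w` is `Λ`-periodic with possible poles only
  on `Λ ∪ (-w + Λ)`; at `z = 0` the polar part is `z⁻³ (2(φ(z) - φ(0)) - z(φ'(z) + φ'(0)))`,
  `φ = ℘(· + w)`, which is regular (`exists_trapezoid`); the involution `z ↦ -z - w` changes the sign
  of the determinant, so the singularity at `-w` is removable too; the entire extension is bounded,
  hence constant, and the same involution shows that the constant is its own negative.
* `weierstrassP_add_of_ne` : if `℘ z`, `℘ w`, `℘ (z+w)` are pairwise distinct,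
  `4 (℘ z - ℘ w)² (℘ z + ℘ w + ℘ (z+w)) = (℘' z - ℘' w)²`  (divided differences of the cubic
  `4x³ - g₂x - g₃ - (line)²`; `g₂`, `g₃` drop out).
-/
import Mathlib

set_option autoImplicit false

noncomputable section

namespace Fermat.Agent.GZ.Tate.T2.WpAdd

open Complex Filter Topology PeriodPair

/-- **trapezoid rule**: `2(φ(z) - φ(0)) - z(φ'(z) + φ'(0))` vanishes to order `≥ 3` at `0`. -/
theorem exists_trapezoid {φ : ℂ → ℂ} (hφ : AnalyticAt ℂ φ 0) :
    ∃ m : ℂ → ℂ, AnalyticAt ℂ m 0 ∧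
      ∀ᶠ z in 𝓝 0, 2 * (φ z - φ 0) - z * (deriv φ z + deriv φ 0) = z ^ 3 * m z := by
  set M : ℂ → ℂ := fun z => 2 * (φ z - φ 0) - z * (deriv φ z + deriv φ 0) with hM
  have hφ1 : AnalyticAt ℂ (deriv φ) 0 := hφ.deriv
  have hφ2 : AnalyticAt ℂ (deriv (deriv φ)) 0 := hφ1.deriv
  have hφ3 : AnalyticAt ℂ (deriv (deriv (deriv φ))) 0 := hφ2.deriv
  have hM_an : AnalyticAt ℂ M 0 := by
    rw [hM]; fun_prop
  -- first derivative near `0`
  have hd1 : ∀ᶠ z in 𝓝 0, HasDerivAt M (deriv φ z - deriv φ 0 - z * deriv (deriv φ) z) z := by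
    filter_upwards [hφ.eventually_analyticAt, hφ1.eventually_analyticAt] with z hz hz1
    have h0 : HasDerivAt φ (deriv φ z) z := hz.differentiableAt.hasDerivAt
    have h1 : HasDerivAt (deriv φ) (deriv (deriv φ) z) z := hz1.differentiableAt.hasDerivAt
    have := ((h0.sub_const (φ 0)).const_mul 2).sub
      ((hasDerivAt_id z).mul (h1.add_const (deriv φ 0)))
    refine this.congr_deriv ?_
    simp only [id]
    ring
  have hd1' : deriv M =ᶠ[𝓝 0] fun z => deriv φ z - deriv φ 0 - z * deriv (deriv φ) z := by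
    filter_upwards [hd1] with z hz using hz.deriv
  have hd2 : HasDerivAt (fun z => deriv φ z - deriv φ 0 - z * deriv (deriv φ) z) 0 0 := by
    have h1 : HasDerivAt (deriv φ) (deriv (deriv φ) 0) 0 := hφ1.differentiableAt.hasDerivAt
    have h2 : HasDerivAt (deriv (deriv φ)) (deriv (deriv (deriv φ)) 0) 0 :=
      hφ2.differentiableAt.hasDerivAt
    have := (h1.sub_const (deriv φ 0)).sub ((hasDerivAt_id (0 : ℂ)).mul h2)
    refine this.congr_deriv ?_
    simp only [id]
    ring
  have h3 : ((3 : ℕ) : ℕ∞) ≤ analyticOrderAt M 0 := by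
    rw [natCast_le_analyticOrderAt_iff_iteratedDeriv_eq_zero hM_an]
    intro i hi
    interval_cases i
    · simp [hM]
    · rw [iteratedDeriv_one, hd1.self_of_nhds.deriv]
      simp
    · rw [iteratedDeriv_succ, iteratedDeriv_one, hd1'.deriv_eq, hd2.deriv]
  obtain ⟨g, hg, hgM⟩ := (natCast_le_analyticOrderAt hM_an).mp h3
  refine ⟨g, hg, ?_⟩
  filter_upwards [hgM] with z hz
  simpa [hM] using hz

variable (L : PeriodPair)

/-- the collinearity determinant of `(℘ z, ℘' z)`, `(℘ w, ℘' w)`, `(℘ (z+w), -℘' (z+w))`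
(second row subtracted from the other two). -/
def colDet (z w : ℂ) : ℂ :=
  (℘[L] z - ℘[L] w) * (-℘'[L] (z + w) - ℘'[L] w)
    - (℘[L] (z + w) - ℘[L] w) * (℘'[L] z - ℘'[L] w)

theorem colDet_add_coe (z w : ℂ) (l : L.lattice) : colDet L (z + l) w = colDet L z w := by
  unfold colDet
  rw [show z + l + w = (z + w) + l by ring, L.weierstrassP_add_coe, L.weierstrassP_add_coe,
    L.derivWeierstrassP_add_coe, L.derivWeierstrassP_add_coe]

theorem colDet_neg_sub (z w : ℂ) : colDet L (-z - w) w = -colDet L z w := by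
  unfold colDet
  rw [show -z - w + w = -z by ring, show -z - w = -(z + w) by ring]
  simp only [weierstrassP_neg, derivWeierstrassP_neg]
  ring

theorem analyticAt_colDet {z w : ℂ} (hz : z ∉ L.lattice) (hzw : z + w ∉ L.lattice) : AnalyticAt ℂ (fun z => colDet L z w) z := by
  have h1 : AnalyticAt ℂ ℘[L] z := L.analyticOnNhd_weierstrassP z hz
  have h2 : AnalyticAt ℂ ℘'[L] z := L.analyticOnNhd_derivWeierstrassP z hz
  have h3 : AnalyticAt ℂ (fun z => ℘[L] (z + w)) z :=
    (L.analyticOnNhd_weierstrassP (z + w) hzw).comp (f := fun z => z + w) (by fun_prop)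
  have h4 : AnalyticAt ℂ (fun z => ℘'[L] (z + w)) z :=
    (L.analyticOnNhd_derivWeierstrassP (z + w) hzw).comp (f := fun z => z + w) (by fun_prop)
  unfold colDet
  fun_prop

/-- the singularity of `colDet L · w` at `0` is removable. -/
theorem exists_analyticAt_zero {w : ℂ} (hw : w ∉ L.lattice) :
    ∃ g : ℂ → ℂ, AnalyticAt ℂ g 0 ∧ ∀ᶠ z in 𝓝[≠] 0, colDet L z w = g z := by
  have hPw : AnalyticAt ℂ ℘[L] (0 + w) := by
    rw [zero_add]; exact L.analyticOnNhd_weierstrassP w hw
  have hP'w : AnalyticAt ℂ ℘'[L] (0 + w) := by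
    rw [zero_add]; exact L.analyticOnNhd_derivWeierstrassP w hw
  set φ : ℂ → ℂ := fun z => ℘[L] (z + w) with hφ
  have hφ_an : AnalyticAt ℂ φ 0 := hPw.comp (f := fun z => z + w) (by fun_prop)
  have hφ'_an : AnalyticAt ℂ (fun z => ℘'[L] (z + w)) 0 :=
    hP'w.comp (f := fun z => z + w) (by fun_prop)
  have hderiv : ∀ z, deriv φ z = ℘'[L] (z + w) := by
    intro z
    rw [hφ, deriv_comp_add_const, L.deriv_weierstrassP]
  obtain ⟨m, hm, hmM⟩ := exists_trapezoid hφ_an
  have hP0 : AnalyticAt ℂ ℘[L - (0 : ℂ)] 0 := L.analyticAt_weierstrassPExcept 0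
  have hP0' : AnalyticAt ℂ ℘'[L - (0 : ℂ)] 0 := L.analyticAt_derivWeierstrassPExcept 0
  refine ⟨fun z => m z + (℘[L - (0 : ℂ)] z - ℘[L] w) * (-℘'[L] (z + w) - ℘'[L] w)
      - (℘'[L - (0 : ℂ)] z - ℘'[L] w) * (℘[L] (z + w) - ℘[L] w), ?_, ?_⟩
  · fun_prop
  · filter_upwards [mem_nhdsWithin_of_mem_nhds hmM, self_mem_nhdsWithin] with z hz (hz0 : z ≠ 0)
    have e1 : ℘[L] z = ℘[L - (0 : ℂ)] z + 1 / z ^ 2 := by
      have := L.weierstrassPExcept_def (0 : L.lattice) z
      simp only [ZeroMemClass.coe_zero, sub_zero] at this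
      rw [this]; simp
    have e2 : ℘'[L] z = ℘'[L - (0 : ℂ)] z - 2 / z ^ 3 := by
      have := L.derivWeierstrassPExcept_def (0 : L.lattice) z
      simp only [ZeroMemClass.coe_zero, sub_zero] at this
      rw [this]; ring
    rw [hderiv z, hderiv 0, zero_add] at hz
    simp only [hφ, zero_add] at hz
    unfold colDet
    rw [e1, e2]
    field_simp
    linear_combination hz

open Classical in
/-- the entire extension of `colDet L · w`, with the value `c` at lattice points and `-c` at the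
points of `-w + Λ`. -/
def colFun (w c : ℂ) (z : ℂ) : ℂ :=
  if z ∈ L.lattice then c else if z + w ∈ L.lattice then -c else colDet L z w

theorem colFun_add_coe (w c z : ℂ) (l : L.lattice) : colFun L w c (z + l) = colFun L w c z := by
  have h1 : z + l ∈ L.lattice ↔ z ∈ L.lattice := L.lattice.add_mem_iff_left l.2
  have h2 : z + l + w ∈ L.lattice ↔ z + w ∈ L.lattice := by
    rw [show z + l + w = (z + w) + l by ring]; exact L.lattice.add_mem_iff_left l.2
  unfold colFun
  by_cases hz : z ∈ L.lattice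
  · rw [if_pos hz, if_pos (h1.2 hz)]
  · rw [if_neg hz, if_neg (mt h1.1 hz)]
    by_cases hzw : z + w ∈ L.lattice
    · rw [if_pos hzw, if_pos (h2.2 hzw)]
    · rw [if_neg hzw, if_neg (mt h2.1 hzw), colDet_add_coe]

theorem colFun_sub_coe (w c z : ℂ) (l : L.lattice) : colFun L w c (z - l) = colFun L w c z := by
  rw [← colFun_add_coe L w c (z - l) l, sub_add_cancel]

theorem colFun_neg_sub {w : ℂ} (hw : w ∉ L.lattice) (c z : ℂ) :
    colFun L w c (-z - w) = -colFun L w c z := by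
  have h1 : -z - w ∈ L.lattice ↔ z + w ∈ L.lattice := by
    rw [show -z - w = -(z + w) by ring, neg_mem_iff]
  by_cases hz : z ∈ L.lattice
  · have hzw : z + w ∉ L.lattice := fun h => hw (by simpa using L.lattice.sub_mem h hz)
    simp [colFun, h1, hz, hzw]
  · by_cases hzw : z + w ∈ L.lattice
    · simp [colFun, h1, hz, hzw]
    · simp [colFun, h1, hz, hzw, colDet_neg_sub]

theorem eventually_add_notMem {x w : ℂ} (hxw : x + w ∉ L.lattice) :
    ∀ᶠ z in 𝓝 x, z + w ∉ L.lattice := by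
  have hc : ContinuousAt (fun z : ℂ => z + w) x := by fun_prop
  exact hc.eventually (L.isClosed_lattice.isOpen_compl.mem_nhds hxw)

theorem analyticAt_colFun_zero {w : ℂ} (hw : w ∉ L.lattice) {g : ℂ → ℂ} (hg : AnalyticAt ℂ g 0)
    (hgd : ∀ᶠ z in 𝓝[≠] 0, colDet L z w = g z) : AnalyticAt ℂ (colFun L w (g 0)) 0 := by
  refine hg.congr ?_
  have h1 : ∀ᶠ z in 𝓝 (0 : ℂ), z ∈ ((L.lattice : Set ℂ) \ {(0 : ℂ)})ᶜ :=
    L.compl_lattice_sdiff_singleton_mem_nhds 0
  have h2 : ∀ᶠ z in 𝓝 (0 : ℂ), z + w ∉ L.lattice :=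
    eventually_add_notMem L (by simpa using hw)
  rw [eventually_nhdsWithin_iff] at hgd
  filter_upwards [h1, h2, hgd] with z hz1 hz2 hz3
  by_cases hz0 : z = 0
  · subst hz0; simp [colFun]
  · have hzL : z ∉ L.lattice := fun h => hz1 ⟨h, hz0⟩
    simp [colFun, hzL, hz2, hz3 hz0]

theorem analyticAt_colFun_of_mem {w c : ℂ} (h0 : AnalyticAt ℂ (colFun L w c) 0) {x : ℂ}
    (hx : x ∈ L.lattice) : AnalyticAt ℂ (colFun L w c) x := by
  lift x to L.lattice using hx
  have h := h0
  rw [← sub_self x.1] at h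
  have h' := h.comp (f := fun z : ℂ => z - x.1) (by fun_prop)
  refine h'.congr (Eventually.of_forall fun z => ?_)
  simp [Function.comp, colFun_sub_coe]

theorem analyticAt_colFun {w : ℂ} (hw : w ∉ L.lattice) {c : ℂ}
    (h0 : AnalyticAt ℂ (colFun L w c) 0) (x : ℂ) : AnalyticAt ℂ (colFun L w c) x := by
  by_cases hx : x ∈ L.lattice
  · exact analyticAt_colFun_of_mem L h0 hx
  · by_cases hxw : x + w ∈ L.lattice
    · have hx' : -x - w ∈ L.lattice := by
        rw [show -x - w = -(x + w) by ring]; exact neg_mem hxw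
      have h1 : AnalyticAt ℂ (colFun L w c) (-x - w) := analyticAt_colFun_of_mem L h0 hx'
      have h2 : AnalyticAt ℂ (fun z => -colFun L w c (-z - w)) x :=
        (h1.comp (f := fun z : ℂ => -z - w) (by fun_prop)).neg
      refine h2.congr (Eventually.of_forall fun z => ?_)
      show -colFun L w c (-z - w) = colFun L w c z
      rw [colFun_neg_sub L hw, neg_neg]
    · refine (analyticAt_colDet L hx hxw).congr ?_
      filter_upwards [L.isClosed_lattice.isOpen_compl.mem_nhds hx,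
        eventually_add_notMem L hxw] with z hz hzw
      have hz' : z ∉ L.lattice := hz
      simp [colFun, hz', hzw]

theorem colFun_eq_zero {w : ℂ} (hw : w ∉ L.lattice) {c : ℂ}
    (h0 : AnalyticAt ℂ (colFun L w c) 0) (z : ℂ) : colFun L w c z = 0 := by
  have hd : Differentiable ℂ (colFun L w c) :=
    fun x => (analyticAt_colFun L hw h0 x).differentiableAt
  have hbdd := (IsZLattice.isCompact_range_of_periodic L.lattice _ hd.continuous
    fun z l hl => by lift l to L.lattice using hl; simp [colFun_add_coe]).isBounded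
  have hconst := hd.apply_eq_apply_of_bounded hbdd
  have h1 := colFun_neg_sub L hw c z
  rw [hconst (-z - w) z] at h1
  exact self_eq_neg.mp h1

/-- **collinearity of `P(z)`, `P(w)`, `-P(z+w)`** on the Weierstrass cubic (determinant form, no
division, no hypothesis of genericity). -/
theorem colDet_eq_zero {z w : ℂ} (hz : z ∉ L.lattice) (hw : w ∉ L.lattice)
    (hzw : z + w ∉ L.lattice) : colDet L z w = 0 := by
  obtain ⟨g, hg, hgd⟩ := exists_analyticAt_zero L hw
  have := colFun_eq_zero L hw (analyticAt_colFun_zero L hw hg hgd) z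
  simpa [colFun, hz, hzw] using this

/-- **the addition theorem** for `℘`, denominators cleared, when the three `℘`-values are pairwise
distinct: `4 (℘ z - ℘ w)² (℘ z + ℘ w + ℘ (z+w)) = (℘' z - ℘' w)²`. -/
theorem weierstrassP_add_of_ne {z w : ℂ} (hz : z ∉ L.lattice) (hw : w ∉ L.lattice)
    (hzw : z + w ∉ L.lattice) (h12 : ℘[L] z ≠ ℘[L] w) (h13 : ℘[L] z ≠ ℘[L] (z + w))
    (h23 : ℘[L] w ≠ ℘[L] (z + w)) :
    4 * (℘[L] z - ℘[L] w) ^ 2 * (℘[L] z + ℘[L] w + ℘[L] (z + w)) = (℘'[L] z - ℘'[L] w) ^ 2 := by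
  have hcol := colDet_eq_zero L hz hw hzw
  have e1 := L.derivWeierstrassP_sq z hz
  have e2 := L.derivWeierstrassP_sq w hw
  have e3 := L.derivWeierstrassP_sq (z + w) hzw
  unfold colDet at hcol
  generalize ℘[L] z = a₁ at *
  generalize ℘[L] w = a₂ at *
  generalize ℘[L] (z + w) = a₃ at *
  generalize ℘'[L] z = b₁ at *
  generalize ℘'[L] w = b₂ at *
  generalize ℘'[L] (z + w) = b₃ at *
  have hd : a₁ - a₂ ≠ 0 := sub_ne_zero.2 h12
  have hd13 : a₁ - a₃ ≠ 0 := sub_ne_zero.2 h13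
  have hd23 : a₂ - a₃ ≠ 0 := sub_ne_zero.2 h23
  set m := (b₁ - b₂) / (a₁ - a₂) with hm
  have hm1 : b₁ = b₂ + m * (a₁ - a₂) := by rw [hm]; field_simp; ring
  have hm3 : -b₃ = b₂ + m * (a₃ - a₂) := by
    rw [hm]; field_simp; linear_combination hcol
  have e3' : (-b₃) ^ 2 = 4 * a₃ ^ 3 - L.g₂ * a₃ - L.g₃ := by rw [neg_sq]; exact e3
  rw [hm1] at e1
  rw [hm3] at e3'
  have key : (m ^ 2 - 4 * (a₁ + a₂ + a₃)) * ((a₁ - a₂) * (a₂ - a₃) * (a₁ - a₃)) = 0 := by
    linear_combination (a₂ - a₃) * e1 - (a₁ - a₃) * e2 + (a₁ - a₂) * e3'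
  have hm2 : m ^ 2 = 4 * (a₁ + a₂ + a₃) := by
    have := mul_eq_zero.1 key
    rcases this with h | h
    · exact sub_eq_zero.1 h
    · exact absurd h (mul_ne_zero (mul_ne_zero hd hd23) hd13)
  have : b₁ - b₂ = m * (a₁ - a₂) := by rw [hm1]; ring
  rw [this, mul_pow, hm2]
  ring

end Fermat.Agent.GZ.Tate.T2.WpAdd
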