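/-
GATE-Z (S15) / [MOD-beta] leaf (T2), sub-leaf D, file 0 (helper21): the two addition relations
`ColRel`, `SumRel` for the TATE functions `X q u`, `Y q u` over `ℂ`, from the addition theorem of
Mathlib's `℘` (`T2/WpAdd.lean`) and the bridge `℘ ↔ X`, `℘' ↔ X + 2Y` of sub-leaf B, which enters
here as the hypothesis `Bridge` (to be discharged by `T2/WpY.lean`).

* `Bridge` : for `T : ℍ`, `|Im z| < Im T`, `z ∉ ℤ`, `q = e(T)`, `u = e(z)`: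
  `X q u = ℘ z / (2πi)² - 1/12` and `X q u + 2 Y q u = ℘' z / (2πi)³` for the period pair `(1, T)`;
* `rel_complex` : `Bridge` ⟹ for `q u v : ℂ`, `0 < ‖q‖ < 1`, `u`, `v`, `u v` in the open annulus
  `‖q‖ < ‖·‖ < ‖q‖⁻¹` and `≠ 1`: `ColRel` holds, and `SumRel` holds if the three `X`-values are
  pairwise distinct.
-/
import Fermat.Agent.GZ.Tate.T2.WpAdd
import Fermat.Agent.GZ.Tate.T2.Rel
import Fermat.Agent.DS.P1.WpRows

set_option autoImplicit false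

noncomputable section

namespace Fermat.Agent.GZ.Tate.T2.ComplexAdd

open Complex PeriodPair
open UpperHalfPlane hiding I
open scoped Real
open Fermat.Agent.DS.P1.WpRows (pairOne)
open Fermat.Agent.GZ.Tate (X Y)

/-- the export of sub-leaf B (`T2/WpY.lean`), as a hypothesis. -/
def Bridge : Prop :=
  ∀ (T : ℍ) (z : ℂ), |z.im| < T.im → (∀ n : ℤ, z ≠ n) →
    X (cexp (2 * π * I * T)) (cexp (2 * π * I * z))
        = ℘[pairOne T] z / (2 * π * I) ^ 2 - 1 / 12 ∧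
    X (cexp (2 * π * I * T)) (cexp (2 * π * I * z))
        + 2 * Y (cexp (2 * π * I * T)) (cexp (2 * π * I * z))
        = ℘'[pairOne T] z / (2 * π * I) ^ 3

/-- a point of the open strip `|Im z| < Im T` which is not an integer is not in `ℤ + ℤ T`. -/
theorem notMem_lattice {T : ℍ} {z : ℂ} (hz : |z.im| < T.im) (hzZ : ∀ n : ℤ, z ≠ n) :
    z ∉ (pairOne T).lattice := by
  intro hmem
  obtain ⟨m, n, hmn⟩ := PeriodPair.mem_lattice.1 hmem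
  have hω₁ : (pairOne T).ω₁ = 1 := rfl
  have hω₂ : (pairOne T).ω₂ = (T : ℂ) := rfl
  rw [hω₁, hω₂, mul_one] at hmn
  have him : z.im = n * T.im := by
    rw [← hmn]
    simp
  have hT : 0 < T.im := T.im_pos
  have hn : n = 0 := by
    by_contra hn
    have h1 : (1 : ℝ) ≤ |(n : ℝ)| := by
      have : (1 : ℤ) ≤ |n| := Int.one_le_abs hn
      exact_mod_cast this
    have : T.im ≤ |z.im| := by
      rw [him, abs_mul, abs_of_pos hT]
      nlinarith [abs_nonneg (n : ℝ)]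
    linarith
  rw [hn] at hmn
  apply hzZ m
  rw [← hmn]
  simp

/-- every nonzero complex number is `e(z)` with `Im z = -log ‖u‖ / 2π`. -/
theorem exists_param {u : ℂ} (hu : u ≠ 0) :
    ∃ z : ℂ, cexp (2 * π * I * z) = u ∧ z.im = -Real.log ‖u‖ / (2 * π) := by
  have hpi : (π : ℂ) ≠ 0 := by exact_mod_cast Real.pi_ne_zero
  have h2 : (2 * (π : ℂ) * I) ≠ 0 := mul_ne_zero (mul_ne_zero (by norm_num) hpi) I_ne_zero
  refine ⟨Complex.log u / (2 * π * I), ?_, ?_⟩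
  · rw [mul_div_cancel₀ _ h2, Complex.exp_log hu]
  · have : Complex.log u / (2 * π * I) = -(Complex.log u * I) / (2 * π) := by
      field_simp
      rw [I_sq]
      ring
    rw [this]
    have h2π : ((2 * π : ℝ) : ℂ) = 2 * (π : ℂ) := by push_cast; ring
    rw [← h2π, Complex.div_ofReal_im]
    simp [Complex.log_re]

theorem abs_im_lt {q u : ℂ} (hq0 : q ≠ 0) (hu0 : u ≠ 0) (h1 : ‖q‖ < ‖u‖)
    (h2 : ‖u‖ * ‖q‖ < 1) :
    |(-Real.log ‖u‖ / (2 * π))| < -Real.log ‖q‖ / (2 * π) := by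
  have hq : 0 < ‖q‖ := norm_pos_iff.2 hq0
  have hu : 0 < ‖u‖ := norm_pos_iff.2 hu0
  have hπ : 0 < 2 * π := by positivity
  have hl1 : Real.log ‖q‖ < Real.log ‖u‖ := Real.log_lt_log hq h1
  have hl2 : Real.log ‖u‖ < -Real.log ‖q‖ := by
    rw [← Real.log_inv]
    apply Real.log_lt_log hu
    rw [lt_inv_comm₀ hu hq]
    rw [inv_eq_one_div, lt_div_iff₀ hu]
    linarith [mul_comm ‖u‖ ‖q‖]
  have a1 := div_lt_div_of_pos_right hl1 hπ
  have a2 := div_lt_div_of_pos_right hl2 hπ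
  have e1 : -Real.log ‖u‖ / (2 * π) = -(Real.log ‖u‖ / (2 * π)) := neg_div _ _
  have e2 : -Real.log ‖q‖ / (2 * π) = -(Real.log ‖q‖ / (2 * π)) := neg_div _ _
  rw [e2] at a2
  rw [abs_lt, e1, e2]
  constructor <;> linarith

/-- the algebra: collinearity in `℘`-coordinates ⟹ `ColRel` in Tate coordinates. -/
theorem colRel_of_wp {c a₁ a₂ a₃ b₁ b₂ b₃ x₁ y₁ x₂ y₂ x₃ y₃ : ℂ}
    (hx₁ : x₁ = a₁ / c ^ 2 - 1 / 12) (hy₁ : x₁ + 2 * y₁ = b₁ / c ^ 3)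
    (hx₂ : x₂ = a₂ / c ^ 2 - 1 / 12) (hy₂ : x₂ + 2 * y₂ = b₂ / c ^ 3)
    (hx₃ : x₃ = a₃ / c ^ 2 - 1 / 12) (hy₃ : x₃ + 2 * y₃ = b₃ / c ^ 3)
    (hcol : (a₁ - a₂) * (-b₃ - b₂) - (a₃ - a₂) * (b₁ - b₂) = 0) :
    ColRel x₁ y₁ x₂ y₂ x₃ y₃ := by
  have e₁ : y₁ = (b₁ / c ^ 3 - x₁) / 2 := by linear_combination (1 / 2 : ℂ) * hy₁
  have e₂ : y₂ = (b₂ / c ^ 3 - x₂) / 2 := by linear_combination (1 / 2 : ℂ) * hy₂
  have e₃ : y₃ = (b₃ / c ^ 3 - x₃) / 2 := by linear_combination (1 / 2 : ℂ) * hy₃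
  unfold ColRel
  rw [e₁, e₂, e₃, hx₁, hx₂, hx₃]
  linear_combination (-1 / (2 * c ^ 5)) * hcol

/-- the algebra: the `℘`-addition formula ⟹ `SumRel` in Tate coordinates. -/
theorem sumRel_of_wp {c a₁ a₂ a₃ b₁ b₂ x₁ y₁ x₂ y₂ x₃ : ℂ}
    (hx₁ : x₁ = a₁ / c ^ 2 - 1 / 12) (hy₁ : x₁ + 2 * y₁ = b₁ / c ^ 3)
    (hx₂ : x₂ = a₂ / c ^ 2 - 1 / 12) (hy₂ : x₂ + 2 * y₂ = b₂ / c ^ 3)
    (hx₃ : x₃ = a₃ / c ^ 2 - 1 / 12)
    (hadd : 4 * (a₁ - a₂) ^ 2 * (a₁ + a₂ + a₃) = (b₁ - b₂) ^ 2) :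
    SumRel x₁ y₁ x₂ y₂ x₃ := by
  have e₁ : y₁ = (b₁ / c ^ 3 - x₁) / 2 := by linear_combination (1 / 2 : ℂ) * hy₁
  have e₂ : y₂ = (b₂ / c ^ 3 - x₂) / 2 := by linear_combination (1 / 2 : ℂ) * hy₂
  unfold SumRel
  rw [e₁, e₂, hx₁, hx₂, hx₃]
  linear_combination (1 / (4 * c ^ 6)) * hadd

/-- **the addition relations of the Tate functions over `ℂ`** (modulo sub-leaf B). -/
theorem rel_complex (hB : Bridge) {q u v : ℂ} (hq0 : q ≠ 0) (hq1 : ‖q‖ < 1)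
    (hu1 : ‖q‖ < ‖u‖) (hu2 : ‖u‖ * ‖q‖ < 1) (hu : u ≠ 1)
    (hv1 : ‖q‖ < ‖v‖) (hv2 : ‖v‖ * ‖q‖ < 1) (hv : v ≠ 1)
    (huv1 : ‖q‖ < ‖u * v‖) (huv2 : ‖u * v‖ * ‖q‖ < 1) (huv : u * v ≠ 1) :
    ColRel (X q u) (Y q u) (X q v) (Y q v) (X q (u * v)) (Y q (u * v)) ∧
      (X q u ≠ X q v → X q u ≠ X q (u * v) → X q v ≠ X q (u * v) →
        SumRel (X q u) (Y q u) (X q v) (Y q v) (X q (u * v))) := by
  have hqpos : 0 < ‖q‖ := norm_pos_iff.2 hq0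
  have hu0 : u ≠ 0 := norm_pos_iff.1 (hqpos.trans hu1)
  have hv0 : v ≠ 0 := norm_pos_iff.1 (hqpos.trans hv1)
  have huv0 : u * v ≠ 0 := mul_ne_zero hu0 hv0
  obtain ⟨t, ht, htim⟩ := exists_param hq0
  obtain ⟨z, hz, hzim⟩ := exists_param hu0
  obtain ⟨w, hw, hwim⟩ := exists_param hv0
  have htpos : 0 < t.im := by
    rw [htim]
    have : Real.log ‖q‖ < 0 := Real.log_neg hqpos hq1
    have hπ : 0 < 2 * π := by positivity
    exact div_pos (by linarith) hπ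
  set T : ℍ := ⟨t, htpos⟩ with hT
  have hTc : (T : ℂ) = t := rfl
  have hTim : T.im = -Real.log ‖q‖ / (2 * π) := htim
  have hzw : cexp (2 * π * I * (z + w)) = u * v := by
    rw [mul_add, Complex.exp_add, hz, hw]
  have hzwim : (z + w).im = -Real.log ‖u * v‖ / (2 * π) := by
    rw [Complex.add_im, hzim, hwim, norm_mul,
      Real.log_mul (norm_pos_iff.2 hu0).ne' (norm_pos_iff.2 hv0).ne']
    ring
  have sz : |z.im| < T.im := by rw [hzim, hTim]; exact abs_im_lt hq0 hu0 hu1 hu2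
  have sw : |w.im| < T.im := by rw [hwim, hTim]; exact abs_im_lt hq0 hv0 hv1 hv2
  have szw : |(z + w).im| < T.im := by
    rw [hzwim, hTim]; exact abs_im_lt hq0 huv0 huv1 huv2
  have key : ∀ {s r : ℂ}, cexp (2 * π * I * s) = r → r ≠ 1 → ∀ n : ℤ, s ≠ n := by
    intro s r hs hr n hn
    apply hr
    rw [← hs, hn, show 2 * (π : ℂ) * I * (n : ℂ) = n * (2 * π * I) by ring,
      Complex.exp_int_mul_two_pi_mul_I]
  have nz := key hz hu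
  have nw := key hw hv
  have nzw := key hzw huv
  obtain ⟨bx₁, by₁⟩ := hB T z sz nz
  obtain ⟨bx₂, by₂⟩ := hB T w sw nw
  obtain ⟨bx₃, by₃⟩ := hB T (z + w) szw nzw
  rw [hTc, ht] at bx₁ by₁ bx₂ by₂ bx₃ by₃
  rw [hz] at bx₁ by₁
  rw [hw] at bx₂ by₂
  rw [hzw] at bx₃ by₃
  have lz := notMem_lattice sz nz
  have lw := notMem_lattice sw nw
  have lzw := notMem_lattice szw nzw
  have hcol := WpAdd.colDet_eq_zero (pairOne T) lz lw lzw
  unfold WpAdd.colDet at hcol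
  refine ⟨colRel_of_wp bx₁ by₁ bx₂ by₂ bx₃ by₃ hcol, fun h12 h13 h23 => ?_⟩
  have a12 : ℘[pairOne T] z ≠ ℘[pairOne T] w := by
    intro h; apply h12; rw [bx₁, bx₂, h]
  have a13 : ℘[pairOne T] z ≠ ℘[pairOne T] (z + w) := by
    intro h; apply h13; rw [bx₁, bx₃, h]
  have a23 : ℘[pairOne T] w ≠ ℘[pairOne T] (z + w) := by
    intro h; apply h23; rw [bx₂, bx₃, h]
  exact sumRel_of_wp bx₁ by₁ bx₂ by₂ bx₃
    (WpAdd.weierstrassP_add_of_ne (pairOne T) lz lw lzw a12 a13 a23)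

end Fermat.Agent.GZ.Tate.T2.ComplexAdd
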