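/-
GATE-Z (S15) / [MOD-beta] leaf (T2), sub-leaf D, file 2 (helper21): **THE TRANSFER** `ℂ ⟹ K`.

Hypotheses (sub-leaves B and C, discharged in `T2/Main.lean`):
* `ComplexAdd.Bridge` : `℘ ↔ X`, `℘' ↔ X + 2Y` over `ℂ` for the period pair `(1, T)`;
* `Lambert 𝕜` : on the open annulus `‖q‖ < ‖u‖ < ‖q‖⁻¹`, `u ≠ 1`, the formal series
  `Weq.Xf u u⁻¹ (1-u)⁻¹`, `Weq.Yf ..` converge absolutely at `q` to `X q u`, `Y q u`
  (needed for `𝕜 = ℂ` and for `𝕜 = K`).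

Results:
* `formal_col`, `formal_sum` : `ColRel`, `SumRel` for the six universal series
  `X₁ Y₁ X₂ Y₂ X₃ Y₃ ∈ R₀⟦X⟧` over the universal two-point ring `R₀` of `T2/Universal2.lean`
  (embedding `R₀ ↪ ℂ`, the addition theorem of `T2/ComplexAdd.lean` at every small `q ≠ 0`, the
  identity theorem `Weq.eq_zero_of_evalPS_eq_zero'`; for `SumRel` the relation is first multiplied by
  `(X₁-X₂)(X₂-X₃)(X₁-X₃)`, a nonzero element of the domain `R₀⟦X⟧`, so that no genericity is needed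
  over `ℂ`);
* `rel_of_annulus` : `ColRel ∧ SumRel` for `X q u, Y q u, ...` over ANY complete normed field `K`
  with `Lambert K`, for `u`, `v`, `u v` in the open annulus;
* `rel_of_isAdm` : the same for ALL `IsAdm q u`, `IsAdm q v`, `IsAdm q (u * v)` (shift by powers of
  `q`, `X_zpow_mul`, `Y_zpow_mul`) — this is the binder `hgen` of `T2/Hom.lean`.
-/
import Fermat.Agent.GZ.Tate.T2.ComplexAdd
import Fermat.Agent.GZ.Tate.T2.Universal2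
import Fermat.Agent.GZ.Tate.Weq.Universal
import Fermat.Agent.GZ.Tate.Conv

set_option autoImplicit false

noncomputable section

namespace Fermat.Agent.GZ.Tate.T2.Transfer

open PowerSeries
open Fermat.Agent.GZ.Tate (X Y IsAdm)
open Fermat.Agent.GZ.Tate.Weq (Xf Yf evalPS AbsConv)
open Fermat.Agent.GZ.Tate.T2.Univ

/-! ### evaluation bookkeeping -/

section EvalAt

variable {𝕜 : Type*} [NormedField 𝕜]

/-- `f` converges absolutely at `q` with sum `a`. -/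
def EvalAt (q : 𝕜) (f : 𝕜⟦X⟧) (a : 𝕜) : Prop := AbsConv f q ∧ evalPS f q = a

variable [CompleteSpace 𝕜] {q : 𝕜} {f g : 𝕜⟦X⟧} {a b : 𝕜}

theorem EvalAt.add (hf : EvalAt q f a) (hg : EvalAt q g b) : EvalAt q (f + g) (a + b) :=
  ⟨hf.1.add hg.1, by rw [Weq.evalPS_add hf.1 hg.1, hf.2, hg.2]⟩

theorem EvalAt.sub (hf : EvalAt q f a) (hg : EvalAt q g b) : EvalAt q (f - g) (a - b) :=
  ⟨hf.1.sub hg.1, by rw [Weq.evalPS_sub hf.1 hg.1, hf.2, hg.2]⟩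

theorem EvalAt.mul (hf : EvalAt q f a) (hg : EvalAt q g b) : EvalAt q (f * g) (a * b) :=
  ⟨hf.1.mul hg.1, by rw [Weq.evalPS_mul hf.1 hg.1, hf.2, hg.2]⟩

theorem EvalAt.pow (hf : EvalAt q f a) (n : ℕ) : EvalAt q (f ^ n) (a ^ n) :=
  ⟨hf.1.pow n, by rw [Weq.evalPS_pow hf.1, hf.2]⟩

theorem evalAt_zero (q : 𝕜) : EvalAt q (0 : 𝕜⟦X⟧) 0 := by
  have h := Weq.absConv_C (0 : 𝕜) q
  have h' := Weq.evalPS_C (0 : 𝕜) q
  rw [map_zero] at h h'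
  exact ⟨h, h'⟩

omit [CompleteSpace 𝕜] in
theorem absConv_at_zero (f : 𝕜⟦X⟧) : AbsConv f 0 := by
  unfold AbsConv
  apply summable_of_ne_finset_zero (s := {0})
  intro d hd
  have hd' : d ≠ 0 := by simpa using hd
  rw [zero_pow hd', mul_zero, norm_zero]

end EvalAt

/-! ### the two expressions -/

section Expr

variable {R : Type*} [CommRing R]

/-- `ColRel` as an expression. -/
def colExpr (x₁ y₁ x₂ y₂ x₃ y₃ : R) : R :=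
  (x₁ - x₂) * (y₃ + x₃ + y₁) + (y₁ - y₂) * (x₃ - x₁)

/-- `SumRel` as an expression. -/
def sumExpr (x₁ y₁ x₂ y₂ x₃ : R) : R :=
  (x₁ - x₂) ^ 2 * (x₁ + x₂ + x₃) - ((y₁ - y₂) ^ 2 + (y₁ - y₂) * (x₁ - x₂))

/-- the discriminant-like product `(x₁ - x₂)(x₂ - x₃)(x₁ - x₃)`. -/
def dExpr (x₁ x₂ x₃ : R) : R := (x₁ - x₂) * (x₂ - x₃) * (x₁ - x₃)

theorem colRel_iff {x₁ y₁ x₂ y₂ x₃ y₃ : R} :
    ColRel x₁ y₁ x₂ y₂ x₃ y₃ ↔ colExpr x₁ y₁ x₂ y₂ x₃ y₃ = 0 := Iff.rfl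

theorem sumRel_iff {x₁ y₁ x₂ y₂ x₃ : R} :
    SumRel x₁ y₁ x₂ y₂ x₃ ↔ sumExpr x₁ y₁ x₂ y₂ x₃ = 0 := by
  unfold SumRel sumExpr
  rw [sub_eq_zero]

variable {S : Type*} [CommRing S] (φ : R →+* S)

theorem map_colExpr (x₁ y₁ x₂ y₂ x₃ y₃ : R) :
    φ (colExpr x₁ y₁ x₂ y₂ x₃ y₃) = colExpr (φ x₁) (φ y₁) (φ x₂) (φ y₂) (φ x₃) (φ y₃) := by
  simp only [colExpr, map_add, map_mul, map_sub]

theorem map_sumExpr (x₁ y₁ x₂ y₂ x₃ : R) :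
    φ (sumExpr x₁ y₁ x₂ y₂ x₃) = sumExpr (φ x₁) (φ y₁) (φ x₂) (φ y₂) (φ x₃) := by
  simp only [sumExpr, map_add, map_mul, map_sub, map_pow]

theorem map_dExpr (x₁ x₂ x₃ : R) : φ (dExpr x₁ x₂ x₃) = dExpr (φ x₁) (φ x₂) (φ x₃) := by
  simp only [dExpr, map_mul, map_sub]

end Expr

section EvalExpr

variable {𝕜 : Type*} [NormedField 𝕜] [CompleteSpace 𝕜] {q : 𝕜}
  {f₁ g₁ f₂ g₂ f₃ g₃ : 𝕜⟦X⟧} {x₁ y₁ x₂ y₂ x₃ y₃ : 𝕜}

theorem EvalAt.colExpr (hf₁ : EvalAt q f₁ x₁) (hg₁ : EvalAt q g₁ y₁) (hf₂ : EvalAt q f₂ x₂)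
    (hg₂ : EvalAt q g₂ y₂) (hf₃ : EvalAt q f₃ x₃) (hg₃ : EvalAt q g₃ y₃) :
    EvalAt q (colExpr f₁ g₁ f₂ g₂ f₃ g₃) (colExpr x₁ y₁ x₂ y₂ x₃ y₃) :=
  ((hf₁.sub hf₂).mul ((hg₃.add hf₃).add hg₁)).add ((hg₁.sub hg₂).mul (hf₃.sub hf₁))

theorem EvalAt.sumExpr (hf₁ : EvalAt q f₁ x₁) (hg₁ : EvalAt q g₁ y₁) (hf₂ : EvalAt q f₂ x₂)
    (hg₂ : EvalAt q g₂ y₂) (hf₃ : EvalAt q f₃ x₃) :
    EvalAt q (sumExpr f₁ g₁ f₂ g₂ f₃) (sumExpr x₁ y₁ x₂ y₂ x₃) :=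
  (((hf₁.sub hf₂).pow 2).mul ((hf₁.add hf₂).add hf₃)).sub
    (((hg₁.sub hg₂).pow 2).add ((hg₁.sub hg₂).mul (hf₁.sub hf₂)))

theorem EvalAt.dExpr (hf₁ : EvalAt q f₁ x₁) (hf₂ : EvalAt q f₂ x₂) (hf₃ : EvalAt q f₃ x₃) :
    EvalAt q (dExpr f₁ f₂ f₃) (dExpr x₁ x₂ x₃) :=
  ((hf₁.sub hf₂).mul (hf₂.sub hf₃)).mul (hf₁.sub hf₃)

end EvalExpr

/-! ### the hypothesis of sub-leaf C -/

/-- the export of sub-leaf C (`Weq/Lambert`), as a hypothesis: on the open annulus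
`‖q‖ < ‖u‖ < ‖q‖⁻¹`, `u ≠ 1`, the formal series `Xf`, `Yf` converge absolutely to `X q u`, `Y q u`. -/
def Lambert (𝕜 : Type*) [NormedField 𝕜] : Prop :=
  ∀ q u : 𝕜, q ≠ 0 → ‖q‖ < 1 → ‖q‖ < ‖u‖ → ‖u‖ * ‖q‖ < 1 → u ≠ 1 →
    EvalAt q (Xf u u⁻¹ (1 - u)⁻¹) (X q u) ∧ EvalAt q (Yf u u⁻¹ (1 - u)⁻¹) (Y q u)

/-! ### the six universal series -/

/-- `X(u)` over `R₀`. -/
def X₁ : R₀⟦X⟧ := Xf U U' dU
/-- `Y(u)` over `R₀`. -/
def Y₁ : R₀⟦X⟧ := Yf U U' dU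
/-- `X(v)` over `R₀`. -/
def X₂ : R₀⟦X⟧ := Xf V V' dV
/-- `Y(v)` over `R₀`. -/
def Y₂ : R₀⟦X⟧ := Yf V V' dV
/-- `X(uv)` over `R₀`. -/
def X₃ : R₀⟦X⟧ := Xf (U * V) (U' * V') dUV
/-- `Y(uv)` over `R₀`. -/
def Y₃ : R₀⟦X⟧ := Yf (U * V) (U' * V') dUV

section MapField

variable {F : Type*} [Field F] (φ : R₀ →+* F)

theorem map_U' : φ U' = (φ U)⁻¹ := by
  have := congrArg φ U_mul_U'
  rw [map_mul, map_one] at this
  exact eq_inv_of_mul_eq_one_right this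

theorem map_V' : φ V' = (φ V)⁻¹ := by
  have := congrArg φ V_mul_V'
  rw [map_mul, map_one] at this
  exact eq_inv_of_mul_eq_one_right this

theorem map_dU : φ dU = (1 - φ U)⁻¹ := by
  have := congrArg φ one_sub_U_mul
  rw [map_mul, map_one, map_sub, map_one] at this
  exact eq_inv_of_mul_eq_one_right this

theorem map_dV : φ dV = (1 - φ V)⁻¹ := by
  have := congrArg φ one_sub_V_mul
  rw [map_mul, map_one, map_sub, map_one] at this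
  exact eq_inv_of_mul_eq_one_right this

theorem map_dUV : φ dUV = (1 - φ U * φ V)⁻¹ := by
  have := congrArg φ one_sub_UV_mul
  rw [map_mul, map_one, map_sub, map_one, map_mul] at this
  exact eq_inv_of_mul_eq_one_right this

theorem map_U_ne_zero : φ U ≠ 0 := (isUnit_U.map φ).ne_zero

theorem map_V_ne_zero : φ V ≠ 0 := (isUnit_V.map φ).ne_zero

theorem map_U_ne_one : φ U ≠ 1 := by
  have := (isUnit_one_sub_U.map φ).ne_zero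
  rw [map_sub, map_one] at this
  exact fun h => this (by rw [h, sub_self])

theorem map_V_ne_one : φ V ≠ 1 := by
  have := (isUnit_one_sub_V.map φ).ne_zero
  rw [map_sub, map_one] at this
  exact fun h => this (by rw [h, sub_self])

theorem map_UV_ne_one : φ U * φ V ≠ 1 := by
  have := (isUnit_one_sub_UV.map φ).ne_zero
  rw [map_sub, map_one, map_mul] at this
  exact fun h => this (by rw [h, sub_self])

theorem map_X₁ : map φ X₁ = Xf (φ U) (φ U)⁻¹ (1 - φ U)⁻¹ := by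
  rw [X₁, Weq.map_Xf, map_U', map_dU]

theorem map_Y₁ : map φ Y₁ = Yf (φ U) (φ U)⁻¹ (1 - φ U)⁻¹ := by
  rw [Y₁, Weq.map_Yf, map_U', map_dU]

theorem map_X₂ : map φ X₂ = Xf (φ V) (φ V)⁻¹ (1 - φ V)⁻¹ := by
  rw [X₂, Weq.map_Xf, map_V', map_dV]

theorem map_Y₂ : map φ Y₂ = Yf (φ V) (φ V)⁻¹ (1 - φ V)⁻¹ := by
  rw [Y₂, Weq.map_Yf, map_V', map_dV]

theorem map_X₃ : map φ X₃ = Xf (φ U * φ V) (φ U * φ V)⁻¹ (1 - φ U * φ V)⁻¹ := by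
  rw [X₃, Weq.map_Xf, map_mul, map_mul, map_U', map_V', map_dUV, mul_inv]

theorem map_Y₃ : map φ Y₃ = Yf (φ U * φ V) (φ U * φ V)⁻¹ (1 - φ U * φ V)⁻¹ := by
  rw [Y₃, Weq.map_Yf, map_mul, map_mul, map_U', map_V', map_dUV, mul_inv]

end MapField

/-! ### radii -/

section Radius

variable {𝕜 : Type*} [NormedField 𝕜]

/-- `min ‖a‖ ‖a‖⁻¹`. -/
def rad (a : 𝕜) : ℝ := min ‖a‖ ‖a‖⁻¹

theorem rad_pos {a : 𝕜} (ha : a ≠ 0) : 0 < rad a :=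
  lt_min (norm_pos_iff.2 ha) (inv_pos.2 (norm_pos_iff.2 ha))

theorem lt_of_lt_rad {q a : 𝕜} (ha : a ≠ 0) (h : ‖q‖ < rad a) : ‖q‖ < ‖a‖ ∧ ‖a‖ * ‖q‖ < 1 := by
  have hpos : 0 < ‖a‖ := norm_pos_iff.2 ha
  refine ⟨h.trans_le (min_le_left _ _), ?_⟩
  have h2 : ‖q‖ < ‖a‖⁻¹ := h.trans_le (min_le_right _ _)
  calc ‖a‖ * ‖q‖ < ‖a‖ * ‖a‖⁻¹ := mul_lt_mul_of_pos_left h2 hpos
    _ = 1 := mul_inv_cancel₀ hpos.ne'

/-- the common radius for `u`, `v`, `u v`. -/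
def rad3 (u v : 𝕜) : ℝ := min 1 (min (rad u) (min (rad v) (rad (u * v))))

theorem rad3_pos {u v : 𝕜} (hu : u ≠ 0) (hv : v ≠ 0) : 0 < rad3 u v :=
  lt_min one_pos (lt_min (rad_pos hu) (lt_min (rad_pos hv) (rad_pos (mul_ne_zero hu hv))))

theorem lt_of_lt_rad3 {q u v : 𝕜} (hu : u ≠ 0) (hv : v ≠ 0) (h : ‖q‖ < rad3 u v) :
    ‖q‖ < 1 ∧ (‖q‖ < ‖u‖ ∧ ‖u‖ * ‖q‖ < 1) ∧ (‖q‖ < ‖v‖ ∧ ‖v‖ * ‖q‖ < 1) ∧
      (‖q‖ < ‖u * v‖ ∧ ‖u * v‖ * ‖q‖ < 1) := by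
  have h1 : ‖q‖ < 1 := h.trans_le (min_le_left _ _)
  have h2 : ‖q‖ < min (rad u) (min (rad v) (rad (u * v))) := h.trans_le (min_le_right _ _)
  have h3 : ‖q‖ < rad u := h2.trans_le (min_le_left _ _)
  have h4 : ‖q‖ < min (rad v) (rad (u * v)) := h2.trans_le (min_le_right _ _)
  have h5 : ‖q‖ < rad v := h4.trans_le (min_le_left _ _)
  have h6 : ‖q‖ < rad (u * v) := h4.trans_le (min_le_right _ _)
  exact ⟨h1, lt_of_lt_rad hu h3, lt_of_lt_rad hv h5, lt_of_lt_rad (mul_ne_zero hu hv) h6⟩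

end Radius

/-- the six evaluations. -/
theorem evalAt_six {𝕜 : Type*} [NormedField 𝕜] (hL : Lambert 𝕜) {q u v : 𝕜} (hq0 : q ≠ 0)
    (hq1 : ‖q‖ < 1) (hu1 : ‖q‖ < ‖u‖) (hu2 : ‖u‖ * ‖q‖ < 1) (hu : u ≠ 1)
    (hv1 : ‖q‖ < ‖v‖) (hv2 : ‖v‖ * ‖q‖ < 1) (hv : v ≠ 1)
    (huv1 : ‖q‖ < ‖u * v‖) (huv2 : ‖u * v‖ * ‖q‖ < 1) (huv : u * v ≠ 1) :
    (EvalAt q (Xf u u⁻¹ (1 - u)⁻¹) (X q u) ∧ EvalAt q (Yf u u⁻¹ (1 - u)⁻¹) (Y q u)) ∧
    (EvalAt q (Xf v v⁻¹ (1 - v)⁻¹) (X q v) ∧ EvalAt q (Yf v v⁻¹ (1 - v)⁻¹) (Y q v)) ∧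
    (EvalAt q (Xf (u * v) (u * v)⁻¹ (1 - u * v)⁻¹) (X q (u * v)) ∧
      EvalAt q (Yf (u * v) (u * v)⁻¹ (1 - u * v)⁻¹) (Y q (u * v))) :=
  ⟨hL q u hq0 hq1 hu1 hu2 hu, hL q v hq0 hq1 hv1 hv2 hv, hL q (u * v) hq0 hq1 huv1 huv2 huv⟩

theorem map_injective_of_injective {R S : Type*} [CommRing R] [CommRing S] (φ : R →+* S)
    (h : Function.Injective φ) : Function.Injective (PowerSeries.map φ) := by
  intro f g hfg
  ext n
  apply h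
  rw [← coeff_map, ← coeff_map, hfg]

/-! ### the formal identities -/

/-- **formal collinearity** in `R₀⟦X⟧`. -/
theorem formal_col (hB : ComplexAdd.Bridge) (hL : Lambert ℂ) :
    colExpr X₁ Y₁ X₂ Y₂ X₃ Y₃ = 0 := by
  obtain ⟨ι, hι⟩ := exists_embedding
  apply map_injective_of_injective ι hι
  rw [map_zero, map_colExpr, map_X₁, map_Y₁, map_X₂, map_Y₂, map_X₃, map_Y₃]
  have hu0 := map_U_ne_zero ι
  have hv0 := map_V_ne_zero ι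
  have hu := map_U_ne_one ι
  have hv := map_V_ne_one ι
  have huv := map_UV_ne_one ι
  set u := ι U
  set v := ι V
  have hsix : ∀ q : ℂ, q ≠ 0 → ‖q‖ < rad3 u v → _ := fun q hq0 hq => by
    obtain ⟨hq1, ⟨hu1, hu2⟩, ⟨hv1, hv2⟩, ⟨huv1, huv2⟩⟩ := lt_of_lt_rad3 hu0 hv0 hq
    exact And.intro (evalAt_six hL hq0 hq1 hu1 hu2 hu hv1 hv2 hv huv1 huv2 huv)
      (ComplexAdd.rel_complex hB hq0 hq1 hu1 hu2 hu hv1 hv2 hv huv1 huv2 huv)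
  apply Weq.eq_zero_of_evalPS_eq_zero' (rad3_pos hu0 hv0)
  · intro q hq
    by_cases hq0 : q = 0
    · rw [hq0]; exact absConv_at_zero _
    · obtain ⟨⟨⟨a1, b1⟩, ⟨a2, b2⟩, ⟨a3, b3⟩⟩, -⟩ := hsix q hq0 hq
      exact (EvalAt.colExpr a1 b1 a2 b2 a3 b3).1
  · intro q hq0 hq
    obtain ⟨⟨⟨a1, b1⟩, ⟨a2, b2⟩, ⟨a3, b3⟩⟩, hrel⟩ := hsix q hq0 hq
    rw [(EvalAt.colExpr a1 b1 a2 b2 a3 b3).2]
    exact hrel.1

/-! ### non-vanishing of the discriminant-like product -/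

theorem algebraMap_P2_injective : Function.Injective (algebraMap P2 R₀) :=
  IsLocalization.injective R₀ (powers_le_nonZeroDivisors_of_noZeroDivisors f₀_ne_zero)

theorem U_ne_V : U ≠ V := by
  intro h
  have h' : (MvPolynomial.X 0 : P2) = MvPolynomial.X 1 := algebraMap_P2_injective h
  have := congrArg (MvPolynomial.eval (![1, 0] : Fin 2 → ℤ)) h'
  simp at this

theorem one_sub_U_mul_V_sq_ne : 1 - U * V ^ 2 ≠ 0 := by
  intro h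
  have e : (1 : R₀) - U * V ^ 2
      = algebraMap P2 R₀ (1 - MvPolynomial.X 0 * MvPolynomial.X 1 ^ 2) := by
    simp only [U, V, map_sub, map_one, map_mul, map_pow]
  rw [e] at h
  have h' : (1 - MvPolynomial.X 0 * MvPolynomial.X 1 ^ 2 : P2) = 0 :=
    algebraMap_P2_injective (by rw [h, map_zero])
  have := congrArg (MvPolynomial.eval (![0, 0] : Fin 2 → ℤ)) h'
  simp at this

theorem one_sub_U_sq_mul_V_ne : 1 - U ^ 2 * V ≠ 0 := by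
  intro h
  have e : (1 : R₀) - U ^ 2 * V
      = algebraMap P2 R₀ (1 - MvPolynomial.X 0 ^ 2 * MvPolynomial.X 1) := by
    simp only [U, V, map_sub, map_one, map_mul, map_pow]
  rw [e] at h
  have h' : (1 - MvPolynomial.X 0 ^ 2 * MvPolynomial.X 1 : P2) = 0 :=
    algebraMap_P2_injective (by rw [h, map_zero])
  have := congrArg (MvPolynomial.eval (![0, 0] : Fin 2 → ℤ)) h'
  simp at this

/-- `a/(1-a)² = b/(1-b)²` forces `a = b` or `a b = 1`. -/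
theorem eq_or_mul_eq_one_of_F_eq {F : Type*} [Field F] {a b : F} (ha : a ≠ 1) (hb : b ≠ 1)
    (h : a * ((1 - a)⁻¹) ^ 2 = b * ((1 - b)⁻¹) ^ 2) : a = b ∨ a * b = 1 := by
  have ha' : 1 - a ≠ 0 := sub_ne_zero.2 (Ne.symm ha)
  have hb' : 1 - b ≠ 0 := sub_ne_zero.2 (Ne.symm hb)
  have h' : a * (1 - b) ^ 2 = b * (1 - a) ^ 2 := by
    field_simp at h
    linear_combination h
  have h0 : (a - b) * (1 - a * b) = 0 := by linear_combination h'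
  rcases mul_eq_zero.1 h0 with h1 | h1
  · exact Or.inl (sub_eq_zero.1 h1)
  · exact Or.inr (sub_eq_zero.1 h1).symm

theorem constantCoeff_Xf {R : Type*} [CommRing R] (u u' w : R) :
    constantCoeff (Xf u u' w) = u * w ^ 2 := by
  rw [← coeff_zero_eq_constantCoeff_apply, Weq.coeff_Xf, if_pos rfl]

theorem dExpr_ne_zero : dExpr X₁ X₂ X₃ ≠ 0 := by
  obtain ⟨ι, hι⟩ := exists_embedding
  have hu0 := map_U_ne_zero ι
  have hv0 := map_V_ne_zero ι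
  have hu := map_U_ne_one ι
  have hv := map_V_ne_one ι
  have huv := map_UV_ne_one ι
  have key : ∀ {f g : R₀⟦X⟧}, ι (constantCoeff f) ≠ ι (constantCoeff g) → f - g ≠ 0 := by
    intro f g hne h
    apply hne
    rw [sub_eq_zero.1 h]
  have c1 : ι (constantCoeff X₁) = ι U * ((1 - ι U)⁻¹) ^ 2 := by
    rw [X₁, constantCoeff_Xf, map_mul, map_pow, map_dU]
  have c2 : ι (constantCoeff X₂) = ι V * ((1 - ι V)⁻¹) ^ 2 := by
    rw [X₂, constantCoeff_Xf, map_mul, map_pow, map_dV]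
  have c3 : ι (constantCoeff X₃) = (ι U * ι V) * ((1 - ι U * ι V)⁻¹) ^ 2 := by
    rw [X₃, constantCoeff_Xf, map_mul, map_pow, map_dUV, map_mul]
  unfold dExpr
  refine mul_ne_zero (mul_ne_zero (key ?_) (key ?_)) (key ?_)
  · rw [c1, c2]
    intro h
    rcases eq_or_mul_eq_one_of_F_eq hu hv h with h1 | h1
    · exact U_ne_V (hι h1)
    · exact huv h1
  · rw [c2, c3]
    intro h
    rcases eq_or_mul_eq_one_of_F_eq hv huv h with h1 | h1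
    · apply hu
      have : ι V * 1 = ι V * ι U := by rw [mul_one, mul_comm]; exact h1
      exact (mul_left_cancel₀ hv0 this).symm
    · apply one_sub_U_mul_V_sq_ne
      apply hι
      rw [map_zero, map_sub, map_one, map_mul, map_pow, sub_eq_zero]
      rw [← h1]; ring
  · rw [c1, c3]
    intro h
    rcases eq_or_mul_eq_one_of_F_eq hu huv h with h1 | h1
    · apply hv
      have : ι U * 1 = ι U * ι V := by rw [mul_one]; exact h1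
      exact (mul_left_cancel₀ hu0 this).symm
    · apply one_sub_U_sq_mul_V_ne
      apply hι
      rw [map_zero, map_sub, map_one, map_mul, map_pow, sub_eq_zero]
      rw [← h1]; ring

/-- **formal sum relation** in `R₀⟦X⟧`. -/
theorem formal_sum (hB : ComplexAdd.Bridge) (hL : Lambert ℂ) :
    sumExpr X₁ Y₁ X₂ Y₂ X₃ = 0 := by
  have hprod : sumExpr X₁ Y₁ X₂ Y₂ X₃ * dExpr X₁ X₂ X₃ = 0 := by
    obtain ⟨ι, hι⟩ := exists_embedding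
    apply map_injective_of_injective ι hι
    rw [map_zero, map_mul, map_sumExpr, map_dExpr, map_X₁, map_Y₁, map_X₂, map_Y₂, map_X₃]
    have hu0 := map_U_ne_zero ι
    have hv0 := map_V_ne_zero ι
    have hu := map_U_ne_one ι
    have hv := map_V_ne_one ι
    have huv := map_UV_ne_one ι
    set u := ι U
    set v := ι V
    have hsix : ∀ q : ℂ, q ≠ 0 → ‖q‖ < rad3 u v → _ := fun q hq0 hq => by
      obtain ⟨hq1, ⟨hu1, hu2⟩, ⟨hv1, hv2⟩, ⟨huv1, huv2⟩⟩ := lt_of_lt_rad3 hu0 hv0 hq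
      exact And.intro (evalAt_six hL hq0 hq1 hu1 hu2 hu hv1 hv2 hv huv1 huv2 huv)
        (ComplexAdd.rel_complex hB hq0 hq1 hu1 hu2 hu hv1 hv2 hv huv1 huv2 huv)
    apply Weq.eq_zero_of_evalPS_eq_zero' (rad3_pos hu0 hv0)
    · intro q hq
      by_cases hq0 : q = 0
      · rw [hq0]; exact absConv_at_zero _
      · obtain ⟨⟨⟨a1, b1⟩, ⟨a2, b2⟩, ⟨a3, -⟩⟩, -⟩ := hsix q hq0 hq
        exact ((EvalAt.sumExpr a1 b1 a2 b2 a3).mul (EvalAt.dExpr a1 a2 a3)).1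
    · intro q hq0 hq
      obtain ⟨⟨⟨a1, b1⟩, ⟨a2, b2⟩, ⟨a3, -⟩⟩, hrel⟩ := hsix q hq0 hq
      rw [((EvalAt.sumExpr a1 b1 a2 b2 a3).mul (EvalAt.dExpr a1 a2 a3)).2]
      by_cases h12 : X q u = X q v
      · unfold dExpr; rw [h12, sub_self, zero_mul, zero_mul, mul_zero]
      by_cases h13 : X q u = X q (u * v)
      · unfold dExpr; rw [h13, sub_self, mul_zero, mul_zero]
      by_cases h23 : X q v = X q (u * v)
      · unfold dExpr; rw [h23, sub_self, mul_zero, zero_mul, mul_zero]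
      rw [sumRel_iff.1 (hrel.2 h12 h13 h23), zero_mul]
  rcases mul_eq_zero.1 hprod with h | h
  · exact h
  · exact absurd h dExpr_ne_zero

/-! ### specialisation to a complete normed field -/

section Specialise

variable {K : Type*} [NormedField K] [CompleteSpace K]

/-- **the addition relations on the open annulus** `‖q‖ < ‖u‖, ‖v‖, ‖u v‖ < ‖q‖⁻¹`. -/
theorem rel_of_annulus (hB : ComplexAdd.Bridge) (hLC : Lambert ℂ) (hLK : Lambert K) {q u v : K}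
    (hq0 : q ≠ 0) (hq1 : ‖q‖ < 1) (hu1 : ‖q‖ < ‖u‖) (hu2 : ‖u‖ * ‖q‖ < 1) (hu : u ≠ 1)
    (hv1 : ‖q‖ < ‖v‖) (hv2 : ‖v‖ * ‖q‖ < 1) (hv : v ≠ 1)
    (huv1 : ‖q‖ < ‖u * v‖) (huv2 : ‖u * v‖ * ‖q‖ < 1) (huv : u * v ≠ 1) :
    ColRel (X q u) (Y q u) (X q v) (Y q v) (X q (u * v)) (Y q (u * v)) ∧
      SumRel (X q u) (Y q u) (X q v) (Y q v) (X q (u * v)) := by
  have hqpos : 0 < ‖q‖ := norm_pos_iff.2 hq0
  have hu0 : u ≠ 0 := norm_pos_iff.1 (hqpos.trans hu1)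
  have hv0 : v ≠ 0 := norm_pos_iff.1 (hqpos.trans hv1)
  obtain ⟨φ, hφU, -, -, hφV, -, -, -⟩ := exists_hom (S := K) (u := u) (u' := u⁻¹)
    (du := (1 - u)⁻¹) (v := v) (v' := v⁻¹) (dv := (1 - v)⁻¹) (duv := (1 - u * v)⁻¹)
    (mul_inv_cancel₀ hu0) (mul_inv_cancel₀ (sub_ne_zero.2 (Ne.symm hu)))
    (mul_inv_cancel₀ hv0) (mul_inv_cancel₀ (sub_ne_zero.2 (Ne.symm hv)))
    (mul_inv_cancel₀ (sub_ne_zero.2 (Ne.symm huv)))
  obtain ⟨⟨a1, b1⟩, ⟨a2, b2⟩, ⟨a3, b3⟩⟩ :=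
    evalAt_six hLK hq0 hq1 hu1 hu2 hu hv1 hv2 hv huv1 huv2 huv
  have hc := congrArg (PowerSeries.map φ) (formal_col hB hLC)
  rw [map_zero, map_colExpr, map_X₁, map_Y₁, map_X₂, map_Y₂, map_X₃, map_Y₃, hφU, hφV] at hc
  have hs := congrArg (PowerSeries.map φ) (formal_sum hB hLC)
  rw [map_zero, map_sumExpr, map_X₁, map_Y₁, map_X₂, map_Y₂, map_X₃, hφU, hφV] at hs
  have ec := EvalAt.colExpr a1 b1 a2 b2 a3 b3
  rw [hc] at ec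
  have es := EvalAt.sumExpr a1 b1 a2 b2 a3
  rw [hs] at es
  exact ⟨colRel_iff.2 (ec.2.symm.trans (evalAt_zero q).2),
    sumRel_iff.2 (es.2.symm.trans (evalAt_zero q).2)⟩

omit [CompleteSpace K] in
/-- every nonzero `u` has a `q`-shift in the half-open annulus `‖q‖ < ‖·‖ ≤ 1`. -/
theorem exists_shift {q : K} (hq0 : q ≠ 0) (hq1 : ‖q‖ < 1) {u : K} (hu : u ≠ 0) :
    ∃ n : ℤ, ‖q‖ < ‖q ^ n * u‖ ∧ ‖q ^ n * u‖ ≤ 1 := by
  have hqpos : 0 < ‖q‖ := norm_pos_iff.2 hq0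
  have hupos : 0 < ‖u‖ := norm_pos_iff.2 hu
  have hy : 1 < ‖q‖⁻¹ := (one_lt_inv₀ hqpos).2 hq1
  obtain ⟨n, hn1, hn2⟩ := exists_mem_Ioc_zpow hupos hy
  refine ⟨n + 1, ?_, ?_⟩
  · rw [norm_mul, norm_zpow]
    have e : ‖q‖ ^ (n + 1) = (‖q‖⁻¹ ^ (n + 1))⁻¹ := by rw [inv_zpow, inv_inv]
    have hpos : 0 < ‖q‖⁻¹ ^ (n + 1) := zpow_pos (inv_pos.2 hqpos) _
    rw [e, inv_mul_eq_div, lt_div_iff₀ hpos]
    calc ‖q‖ * ‖q‖⁻¹ ^ (n + 1) = ‖q‖⁻¹ ^ n := by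
          rw [zpow_add_one₀ (inv_ne_zero hqpos.ne'), mul_comm, mul_assoc,
            inv_mul_cancel₀ hqpos.ne', mul_one]
      _ < ‖u‖ := hn1
  · rw [norm_mul, norm_zpow]
    have e : ‖q‖ ^ (n + 1) = (‖q‖⁻¹ ^ (n + 1))⁻¹ := by rw [inv_zpow, inv_inv]
    have hpos : 0 < ‖q‖⁻¹ ^ (n + 1) := zpow_pos (inv_pos.2 hqpos) _
    rw [e, inv_mul_eq_div, div_le_one hpos]
    exact hn2

/-- **the addition relations for ALL admissible `u`, `v`, `u v`** — the binder `hgen` of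
`T2/Hom.lean` (without its genericity hypothesis). -/
theorem rel_of_isAdm (hB : ComplexAdd.Bridge) (hLC : Lambert ℂ) (hLK : Lambert K) {q : K}
    (hq0 : q ≠ 0) (hq1 : ‖q‖ < 1) {u v : K} (hu : IsAdm q u) (hv : IsAdm q v)
    (huv : IsAdm q (u * v)) :
    ColRel (X q u) (Y q u) (X q v) (Y q v) (X q (u * v)) (Y q (u * v)) ∧
      SumRel (X q u) (Y q u) (X q v) (Y q v) (X q (u * v)) := by
  have hqpos : 0 < ‖q‖ := norm_pos_iff.2 hq0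
  have hqinv : 1 < ‖q‖⁻¹ := (one_lt_inv₀ hqpos).2 hq1
  -- reduction: it suffices to find shifts in the open annulus
  have red : ∀ m n : ℤ, (‖q‖ < ‖q ^ m * u‖ ∧ ‖q ^ m * u‖ * ‖q‖ < 1) →
      (‖q‖ < ‖q ^ n * v‖ ∧ ‖q ^ n * v‖ * ‖q‖ < 1) →
      (‖q‖ < ‖q ^ m * u * (q ^ n * v)‖ ∧ ‖q ^ m * u * (q ^ n * v)‖ * ‖q‖ < 1) →
      ColRel (X q u) (Y q u) (X q v) (Y q v) (X q (u * v)) (Y q (u * v)) ∧
        SumRel (X q u) (Y q u) (X q v) (Y q v) (X q (u * v)) := by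
    intro m n h1 h2 h3
    have e : q ^ m * u * (q ^ n * v) = q ^ (m + n) * (u * v) := by
      rw [zpow_add₀ hq0]; ring
    have h := rel_of_annulus hB hLC hLK hq0 hq1 h1.1 h1.2 (hu.2 m) h2.1 h2.2 (hv.2 n) h3.1 h3.2
      (by rw [e]; exact huv.2 (m + n))
    rw [e, X_zpow_mul hq0, X_zpow_mul hq0, X_zpow_mul hq0, Y_zpow_mul hq0, Y_zpow_mul hq0,
      Y_zpow_mul hq0] at h
    exact h
  have le_one_imp : ∀ {a : K}, ‖a‖ ≤ 1 → ‖a‖ * ‖q‖ < 1 := by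
    intro a ha
    calc ‖a‖ * ‖q‖ ≤ 1 * ‖q‖ := mul_le_mul_of_nonneg_right ha hqpos.le
      _ < 1 := by rw [one_mul]; exact hq1
  obtain ⟨m, hm1, hm2⟩ := exists_shift hq0 hq1 hu.1
  obtain ⟨n, hn1, hn2⟩ := exists_shift hq0 hq1 hv.1
  by_cases hcase : ‖q‖ < ‖q ^ m * u * (q ^ n * v)‖
  · refine red m n ⟨hm1, le_one_imp hm2⟩ ⟨hn1, le_one_imp hn2⟩ ⟨hcase, le_one_imp ?_⟩
    rw [norm_mul]
    exact mul_le_one₀ hm2 (norm_nonneg _) hn2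
  · rw [not_lt] at hcase
    -- both shifted norms are `< 1`; replace `n` by `n - 1`
    have hmlt : ‖q ^ m * u‖ < 1 := by
      by_contra hge
      have h1 : ‖q ^ m * u‖ = 1 := le_antisymm hm2 (not_lt.1 hge)
      rw [norm_mul, h1, one_mul] at hcase
      exact absurd hn1 (not_lt.2 hcase)
    have hnlt : ‖q ^ n * v‖ < 1 := by
      by_contra hge
      have h1 : ‖q ^ n * v‖ = 1 := le_antisymm hn2 (not_lt.1 hge)
      rw [norm_mul, h1, mul_one] at hcase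
      exact absurd hm1 (not_lt.2 hcase)
    have e1 : q ^ (n - 1) * v = q⁻¹ * (q ^ n * v) := by
      rw [zpow_sub_one₀ hq0]; ring
    have hnorm : ‖q ^ (n - 1) * v‖ = ‖q‖⁻¹ * ‖q ^ n * v‖ := by
      rw [e1, norm_mul, norm_inv]
    have hprod : ‖q ^ m * u * (q ^ (n - 1) * v)‖ = ‖q‖⁻¹ * ‖q ^ m * u * (q ^ n * v)‖ := by
      rw [norm_mul (q ^ m * u) (q ^ (n - 1) * v), hnorm, norm_mul (q ^ m * u) (q ^ n * v)]; ring
    refine red m (n - 1) ⟨hm1, le_one_imp hm2⟩ ⟨?_, ?_⟩ ⟨?_, ?_⟩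
    · rw [hnorm]
      calc ‖q‖ < 1 := hq1
        _ = ‖q‖⁻¹ * ‖q‖ := (inv_mul_cancel₀ hqpos.ne').symm
        _ < ‖q‖⁻¹ * ‖q ^ n * v‖ := mul_lt_mul_of_pos_left hn1 (inv_pos.2 hqpos)
    · rw [hnorm]
      calc ‖q‖⁻¹ * ‖q ^ n * v‖ * ‖q‖ = ‖q ^ n * v‖ * (‖q‖⁻¹ * ‖q‖) := by ring
        _ = ‖q ^ n * v‖ := by rw [inv_mul_cancel₀ hqpos.ne', mul_one]
        _ < 1 := hnlt
    · rw [hprod, norm_mul (q ^ m * u) (q ^ n * v)]
      calc ‖q‖ = ‖q‖⁻¹ * (‖q‖ * ‖q‖) := by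
            rw [← mul_assoc, inv_mul_cancel₀ hqpos.ne', one_mul]
        _ < ‖q‖⁻¹ * (‖q ^ m * u‖ * ‖q ^ n * v‖) :=
          mul_lt_mul_of_pos_left (mul_lt_mul'' hm1 hn1 hqpos.le hqpos.le) (inv_pos.2 hqpos)
    · rw [hprod]
      calc ‖q‖⁻¹ * ‖q ^ m * u * (q ^ n * v)‖ * ‖q‖
          = ‖q ^ m * u * (q ^ n * v)‖ * (‖q‖⁻¹ * ‖q‖) := by ring
        _ = ‖q ^ m * u * (q ^ n * v)‖ := by rw [inv_mul_cancel₀ hqpos.ne', mul_one]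
        _ ≤ ‖q‖ := hcase
        _ < 1 := hq1

end Specialise

end Fermat.Agent.GZ.Tate.T2.Transfer
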