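/-
GATE-Z (S15) / [MOD-beta] leaf (T2), MAIN (helper21): **the addition theorem on the Tate curve**,
modulo EXACTLY ONE named binder, `ComplexAdd.Bridge` (= `Weq.WpYAt`, helper29's sub-leaf B:
`X = ℘/(2πi)² - 1/12`, `X + 2Y = ℘'/(2πi)³` over `ℂ`).

* `lambert 𝕜` : `Transfer.Lambert 𝕜` for every complete normed field (from helper64's
  `T2/Lambert2.lean`);
* `hgen` : the binder `hgen` of `T2/Hom.lean` (helper43), for every complete normed field `K`:
  `IsAdm q u → IsAdm q v → IsAdm q (u * v) → X q u ≠ X q v → ColRel .. ∧ SumRel ..`;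
* `tateP_mul`, `exists_hom` : for `K` complete ultrametric, `hns` (nonsingularity, = helper71's
  `Weq.nonsingular_of`): `Hom.tateP q hns : Kˣ → E_q(K)` is a group homomorphism with kernel `q^ℤ`.
-/
import Fermat.Agent.GZ.Tate.T2.Transfer
import Fermat.Agent.GZ.Tate.T2.Lambert2
import Fermat.Agent.GZ.Tate.T2.Hom

set_option autoImplicit false

noncomputable section

namespace Fermat.Agent.GZ.Tate.T2.Main

open Fermat.Agent.GZ.Tate (X Y IsAdm tateCurve)
open WeierstrassCurve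

/-- sub-leaf C, discharged. -/
theorem lambert (𝕜 : Type*) [NormedField 𝕜] [CompleteSpace 𝕜] : Transfer.Lambert 𝕜 :=
  fun _ _ hq0 hq1 hu1 hu2 _ =>
    ⟨⟨Lambert.absConv_Xf hq1 hu1 hu2, Lambert.evalPS_Xf hq0 hq1 hu1 hu2⟩,
      ⟨Lambert.absConv_Yf hq1 hu1 hu2, Lambert.evalPS_Yf hq0 hq1 hu1 hu2⟩⟩

section Field

variable {K : Type*} [NormedField K] [CompleteSpace K]

/-- **the two addition relations for all admissible `u`, `v`, `u v`** (no genericity needed). -/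
theorem rel (hB : ComplexAdd.Bridge) {q : K} (hq0 : q ≠ 0) (hq1 : ‖q‖ < 1) {u v : K}
    (hu : IsAdm q u) (hv : IsAdm q v) (huv : IsAdm q (u * v)) :
    ColRel (X q u) (Y q u) (X q v) (Y q v) (X q (u * v)) (Y q (u * v)) ∧
      SumRel (X q u) (Y q u) (X q v) (Y q v) (X q (u * v)) :=
  Transfer.rel_of_isAdm hB (lambert ℂ) (lambert K) hq0 hq1 hu hv huv

/-- the binder `hgen` of `T2/Hom.lean`, VERBATIM. -/
theorem hgen (hB : ComplexAdd.Bridge) {q : K} (hq0 : q ≠ 0) (hq1 : ‖q‖ < 1) :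
    ∀ u v : K, IsAdm q u → IsAdm q v → IsAdm q (u * v) → X q u ≠ X q v →
      ColRel (X q u) (Y q u) (X q v) (Y q v) (X q (u * v)) (Y q (u * v)) ∧
        SumRel (X q u) (Y q u) (X q v) (Y q v) (X q (u * v)) :=
  fun _ _ hu hv huv _ => rel hB hq0 hq1 hu hv huv

end Field

section Ultrametric

variable {K : Type*} [NormedField K] [IsUltrametricDist K] [CompleteSpace K] [DecidableEq K]

/-- **T2**: `P(u v) = P(u) + P(v)` for ALL `u v : Kˣ`. -/
theorem tateP_mul (hB : ComplexAdd.Bridge) (q : K)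
    (hns : ∀ u : K, IsAdm q u → (tateCurve q).toAffine.Nonsingular (X q u) (Y q u))
    (hq0 : q ≠ 0) (hq1 : ‖q‖ < 1) (u v : Kˣ) :
    Hom.tateP q hns (u * v) = Hom.tateP q hns u + Hom.tateP q hns v :=
  Hom.tateP_mul q hns (hgen hB hq0 hq1) hq0 hq1 u v

/-- **T2 + T3 seam**: the Tate parametrisation is a homomorphism `Kˣ → E_q(K)` with kernel `q^ℤ`. -/
theorem exists_hom (hB : ComplexAdd.Bridge) (q : K)
    (hns : ∀ u : K, IsAdm q u → (tateCurve q).toAffine.Nonsingular (X q u) (Y q u))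
    (hq0 : q ≠ 0) (hq1 : ‖q‖ < 1) :
    ∃ P : Kˣ → (tateCurve q).toAffine.Point,
      (∀ u v, P (u * v) = P u + P v) ∧
      (∀ u, P u = 0 ↔ u ∈ Subgroup.zpowers (Units.mk0 q hq0)) ∧
      ∀ (u : Kˣ) (h : IsAdm q (u : K)), P u = Affine.Point.some (X q u) (Y q u) (hns u h) :=
  Hom.exists_hom q hns (hgen hB hq0 hq1) hq0 hq1

end Ultrametric

end Fermat.Agent.GZ.Tate.T2.Main
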