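/-
GATE-Z (S15) / [MOD-beta] leaf (T2), FINAL (helper21): **the Tate parametrisation
`Kˣ → E_q(K)` is a group homomorphism with kernel `q^ℤ`** — BINDER-FREE, for every complete
ultrametric normed field `K` and `0 < ‖q‖ < 1`.

Inputs (all on main): `T2/Main.lean` (T2 modulo `ComplexAdd.Bridge`), `Weq/Closed.lean` (helper71:
`wpYAt`, `nonsingular`), `T2/Hom.lean` (helper43).

* `bridge : ComplexAdd.Bridge`;
* `rel`, `hgen` : the two addition relations for all admissible `u`, `v`, `u v`;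
* `tateP q hq0 hq1 : Kˣ → (tateCurve q).toAffine.Point`, `tateP_of_isAdm`, `tateP_eq_zero_iff`,
  **`tateP_mul`**, `tateP_hom : Kˣ →* Multiplicative (E_q(K))`-free form `exists_hom`.
-/
import Fermat.Agent.GZ.Tate.T2.Main
import Fermat.Agent.GZ.Tate.Weq.Closed

set_option autoImplicit false

noncomputable section

namespace Fermat.Agent.GZ.Tate.T2.Final

open Fermat.Agent.GZ.Tate (X Y IsAdm tateCurve)
open WeierstrassCurve

universe v

/-- sub-leaf B, discharged (helper71's twin `Weq.wpYAt`; helper29's `WpY.wpY_at` is the same). -/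
theorem bridge : ComplexAdd.Bridge := Weq.wpYAt

section Field

variable {K : Type*} [NormedField K] [CompleteSpace K]

/-- **the two addition relations for all admissible `u`, `v`, `u v`**, any complete normed field. -/
theorem rel {q : K} (hq0 : q ≠ 0) (hq1 : ‖q‖ < 1) {u v : K}
    (hu : IsAdm q u) (hv : IsAdm q v) (huv : IsAdm q (u * v)) :
    ColRel (X q u) (Y q u) (X q v) (Y q v) (X q (u * v)) (Y q (u * v)) ∧
      SumRel (X q u) (Y q u) (X q v) (Y q v) (X q (u * v)) :=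
  Main.rel bridge hq0 hq1 hu hv huv

end Field

section Ultrametric

variable {K : Type v} [NormedField K] [IsUltrametricDist K] [CompleteSpace K]

/-- nonsingularity of `(X q u, Y q u)` (helper71). -/
theorem hns {q : K} (hq0 : q ≠ 0) (hq1 : ‖q‖ < 1) :
    ∀ u : K, IsAdm q u → (tateCurve q).toAffine.Nonsingular (X q u) (Y q u) :=
  fun u hu => Weq.nonsingular hq0 hq1 u hu

/-- **the Tate parametrisation** `P : Kˣ → E_q(K)`, `P u = (X q u, Y q u)` off `q^ℤ`, `0` on `q^ℤ`. -/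
def tateP (q : K) (hq0 : q ≠ 0) (hq1 : ‖q‖ < 1) : Kˣ → (tateCurve q).toAffine.Point :=
  Hom.tateP q (hns hq0 hq1)

theorem tateP_of_isAdm {q : K} (hq0 : q ≠ 0) (hq1 : ‖q‖ < 1) {u : Kˣ} (h : IsAdm q (u : K)) :
    tateP q hq0 hq1 u = Affine.Point.some (X q u) (Y q u) (hns hq0 hq1 u h) :=
  Hom.tateP_of_isAdm q (hns hq0 hq1) h

/-- `P u = O ⟺ u ∈ q^ℤ`. -/
theorem tateP_eq_zero_iff {q : K} (hq0 : q ≠ 0) (hq1 : ‖q‖ < 1) (u : Kˣ) :
    tateP q hq0 hq1 u = 0 ↔ u ∈ Subgroup.zpowers (Units.mk0 q hq0) :=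
  Hom.tateP_eq_zero_iff q (hns hq0 hq1) hq0 u

variable [DecidableEq K]

/-- **T2, binder-free**: `P(u v) = P(u) + P(v)` for ALL `u v : Kˣ`. -/
theorem tateP_mul {q : K} (hq0 : q ≠ 0) (hq1 : ‖q‖ < 1) (u v : Kˣ) :
    tateP q hq0 hq1 (u * v) = tateP q hq0 hq1 u + tateP q hq0 hq1 v :=
  Main.tateP_mul bridge q (hns hq0 hq1) hq0 hq1 u v

/-- the contract of `T3/Plug.lean` (`hmul`, `hker`), binder-free. -/
theorem exists_hom {q : K} (hq0 : q ≠ 0) (hq1 : ‖q‖ < 1) :
    ∃ P : Kˣ → (tateCurve q).toAffine.Point,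
      (∀ u v, P (u * v) = P u + P v) ∧
      (∀ u, P u = 0 ↔ u ∈ Subgroup.zpowers (Units.mk0 q hq0)) ∧
      ∀ (u : Kˣ) (h : IsAdm q (u : K)),
        P u = Affine.Point.some (X q u) (Y q u) (hns hq0 hq1 u h) :=
  ⟨tateP q hq0 hq1, tateP_mul hq0 hq1, tateP_eq_zero_iff hq0 hq1,
    fun _ h => tateP_of_isAdm hq0 hq1 h⟩

end Ultrametric

end Fermat.Agent.GZ.Tate.T2.Final
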