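/-
GATE-F (S44) / GF-ETATE slice (i) (helper43): the Tate parametrisation is EQUIVARIANT under
isometric ring homomorphisms.

`K`, `K'` complete ultrametric normed fields, `σ : K →+* K'` with `‖σ x‖ = ‖x‖` (a decomposition
group element extended by continuity to the completion; or the inclusion of a complete subfield).
Everything is on the coordinate level (no `Point.map`), so that a consumer can use its own action
on points:

* `map_tsum`               : `σ (∑' i, f i) = ∑' i, σ (f i)` (no summability hypothesis);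
* `map_xTerm`, `map_yTerm`, `map_sK`, `map_a4`, `map_a6`, `map_X`, `map_Y`;
* `isAdm_map_iff`          : `IsAdm (σ q) (σ u) ↔ IsAdm q u`;
* `map_tateCurve`          : `(tateCurve q).map σ = tateCurve (σ q)`;
* `nonsingular_map_iff`    : nonsingularity of `(x, y)` on `E_q` ⟺ of `(σ x, σ y)` on `E_{σ q}`;
* `tateP_map_eq_zero_iff`, `tateP_map_some` : `tateP (σ q) (σ u)` is "`σ (tateP q u)`".
-/
import Fermat.Agent.GZ.Tate.T2.Hom

set_option autoImplicit false

noncomputable section

namespace Fermat.Agent.GZ.Tate.T2.Equivar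

open WeierstrassCurve Fermat.Agent.GZ.Tate Fermat.Agent.GZ.Tate.T2.Hom

variable {K K' : Type*} [NormedField K] [NormedField K']

section Basic

variable (σ : K →+* K') (hσ : ∀ x, ‖σ x‖ = ‖x‖)

include hσ

theorem isometry : Isometry σ :=
  AddMonoidHomClass.isometry_of_norm σ hσ

theorem continuous : Continuous σ := (isometry σ hσ).continuous

/-- `σ` commutes with `tsum` (no summability needed). -/
theorem map_tsum [CompleteSpace K] {ι : Type*} (f : ι → K) :
    σ (∑' i, f i) = ∑' i, σ (f i) :=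
  (isometry σ hσ).isClosedEmbedding.map_tsum f (g := σ)

omit hσ in
theorem map_xTerm (w : K) : σ (xTerm w) = xTerm (σ w) := by
  simp only [xTerm, map_div₀, map_pow, map_sub, map_one]

omit hσ in
theorem map_yTerm (w : K) : σ (yTerm w) = yTerm (σ w) := by
  simp only [yTerm, map_div₀, map_pow, map_sub, map_one]

omit hσ in
theorem map_sTerm (k : ℕ) (q : K) (n : ℕ) : σ (sTerm k q n) = sTerm k (σ q) n := by
  simp only [sTerm, map_div₀, map_mul, map_pow, map_sub, map_one, map_natCast]

omit hσ in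
theorem map_a6Term (q : K) (n : ℕ) : σ (a6Term q n) = a6Term (σ q) n := by
  simp only [a6Term, map_div₀, map_mul, map_pow, map_sub, map_one, map_natCast]

variable [CompleteSpace K]

theorem map_sK (k : ℕ) (q : K) : σ (sK k q) = sK k (σ q) := by
  unfold sK
  rw [map_tsum σ hσ]
  exact tsum_congr fun n => map_sTerm σ k q n

theorem map_a4 (q : K) : σ (a4 q) = a4 (σ q) := by
  unfold a4
  rw [map_mul, map_sK σ hσ, map_neg, map_ofNat]

theorem map_a6 (q : K) : σ (a6 q) = a6 (σ q) := by
  unfold a6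
  rw [map_neg, map_tsum σ hσ]
  congr 1
  exact tsum_congr fun n => map_a6Term σ q n

theorem map_X (q u : K) : σ (X q u) = X (σ q) (σ u) := by
  unfold X
  rw [map_sub, map_mul, map_sK σ hσ, map_tsum σ hσ]
  congr 1
  · exact tsum_congr fun n => by rw [map_xTerm, map_mul, map_zpow₀]
  · rw [map_ofNat]

theorem map_Y (q u : K) : σ (Y q u) = Y (σ q) (σ u) := by
  unfold Y
  rw [map_add, map_sK σ hσ, map_tsum σ hσ]
  congr 1
  exact tsum_congr fun n => by rw [map_yTerm, map_mul, map_zpow₀]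

omit hσ [CompleteSpace K] in
theorem isAdm_map_iff (q u : K) : IsAdm (σ q) (σ u) ↔ IsAdm q u := by
  unfold IsAdm
  have hinj : Function.Injective σ := σ.injective
  constructor
  · rintro ⟨h0, h1⟩
    refine ⟨fun h => h0 (by rw [h, map_zero]), fun n hn => h1 n ?_⟩
    rw [← map_zpow₀, ← map_mul, hn, map_one]
  · rintro ⟨h0, h1⟩
    refine ⟨fun h => h0 (hinj (by rw [h, map_zero])), fun n hn => h1 n (hinj ?_)⟩
    rw [map_mul, map_zpow₀, hn, map_one]

theorem map_tateCurve (q : K) : (tateCurve q).map σ = tateCurve (σ q) := by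
  unfold tateCurve
  ext <;> simp [WeierstrassCurve.map, map_a4 σ hσ, map_a6 σ hσ]

/-- nonsingularity is transported by `σ`. -/
theorem nonsingular_map_iff (q x y : K) :
    (tateCurve (σ q)).toAffine.Nonsingular (σ x) (σ y) ↔
      (tateCurve q).toAffine.Nonsingular x y := by
  rw [← map_tateCurve σ hσ]
  exact WeierstrassCurve.Affine.map_nonsingular (W := (tateCurve q).toAffine) (f := σ)
    σ.injective x y

end Basic

section Param

variable [IsUltrametricDist K] [IsUltrametricDist K'] [CompleteSpace K]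
variable (σ : K →+* K') (hσ : ∀ x, ‖σ x‖ = ‖x‖)
variable (q : K)
variable (hns : ∀ u : K, IsAdm q u → (tateCurve q).toAffine.Nonsingular (X q u) (Y q u))
variable (hns' : ∀ u : K', IsAdm (σ q) u →
  (tateCurve (σ q)).toAffine.Nonsingular (X (σ q) u) (Y (σ q) u))

include hσ

omit [IsUltrametricDist K] [IsUltrametricDist K'] [CompleteSpace K] hσ in
/-- `tateP (σ q) (σ u) = 0 ⟺ tateP q u = 0`. -/
theorem tateP_map_eq_zero_iff (u : Kˣ) :
    tateP (σ q) hns' (Units.map (σ : K →* K') u) = 0 ↔ tateP q hns u = 0 := by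
  rw [tateP_eq_zero_iff_not_isAdm, tateP_eq_zero_iff_not_isAdm, Units.coe_map]
  exact not_congr (isAdm_map_iff σ q u)

omit [IsUltrametricDist K] [IsUltrametricDist K'] in
/-- `tateP (σ q) (σ u) = "σ (tateP q u)"`: if `tateP q u = (x, y)` then
`tateP (σ q) (σ u) = (σ x, σ y)`. -/
theorem tateP_map_some (u : Kˣ) {x y : K} {h : (tateCurve q).toAffine.Nonsingular x y}
    (hP : tateP q hns u = Affine.Point.some x y h) :
    ∃ h' : (tateCurve (σ q)).toAffine.Nonsingular (σ x) (σ y),
      tateP (σ q) hns' (Units.map (σ : K →* K') u) = Affine.Point.some (σ x) (σ y) h' := by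
  have hadm : IsAdm q (u : K) := by
    by_contra hna
    rw [tateP_of_not_isAdm q hns hna] at hP
    exact Affine.Point.some_ne_zero _ hP.symm
  rw [tateP_of_isAdm q hns hadm] at hP
  injection hP with hx hy
  have hadm' : IsAdm (σ q) ((Units.map (σ : K →* K') u : K'ˣ) : K') := by
    rw [Units.coe_map]; exact (isAdm_map_iff σ q u).2 hadm
  refine ⟨(nonsingular_map_iff σ hσ q x y).2 h, ?_⟩
  rw [tateP_of_isAdm (σ q) hns' hadm']
  apply some_congr
  · rw [Units.coe_map]
    show X (σ q) (σ (u : K)) = σ x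
    rw [← map_X σ hσ, hx]
  · rw [Units.coe_map]
    show Y (σ q) (σ (u : K)) = σ y
    rw [← map_Y σ hσ, hy]

omit [IsUltrametricDist K] [IsUltrametricDist K'] in
/-- coordinate form: the coordinates of `tateP (σ q) (σ u)` for admissible `u`. -/
theorem tateP_map_of_isAdm (hns : ∀ u : K, IsAdm q u →
      (tateCurve q).toAffine.Nonsingular (X q u) (Y q u)) {u : Kˣ} (hadm : IsAdm q (u : K)) :
    ∃ h' : (tateCurve (σ q)).toAffine.Nonsingular (σ (X q u)) (σ (Y q u)),
      tateP (σ q) hns' (Units.map (σ : K →* K') u) =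
        Affine.Point.some (σ (X q u)) (σ (Y q u)) h' :=
  tateP_map_some σ hσ q hns hns' u (tateP_of_isAdm q hns hadm)

end Param

/-! ### endomorphisms fixing `q`: the action on the parameter and on the torsion -/

section Fix

variable [IsUltrametricDist K] [CompleteSpace K]
variable (σ : K →+* K) (hσ : ∀ x, ‖σ x‖ = ‖x‖)
variable (q : K) (hq : σ q = q)
variable (hns : ∀ u : K, IsAdm q u → (tateCurve q).toAffine.Nonsingular (X q u) (Y q u))

include hq

omit [IsUltrametricDist K] [CompleteSpace K] in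
theorem isAdm_map_fix_iff (u : K) : IsAdm q (σ u) ↔ IsAdm q u := by
  have := isAdm_map_iff σ q u
  rwa [hq] at this

include hσ

omit [IsUltrametricDist K] in
theorem map_X_fix (u : K) : σ (X q u) = X q (σ u) := by
  rw [map_X σ hσ, hq]

omit [IsUltrametricDist K] in
theorem map_Y_fix (u : K) : σ (Y q u) = Y q (σ u) := by
  rw [map_Y σ hσ, hq]

omit [IsUltrametricDist K] in
theorem nonsingular_map_fix_iff (x y : K) :
    (tateCurve q).toAffine.Nonsingular (σ x) (σ y) ↔ (tateCurve q).toAffine.Nonsingular x y := by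
  have := nonsingular_map_iff σ hσ q x y
  rwa [hq] at this

omit [IsUltrametricDist K] [CompleteSpace K] hσ in
/-- `tateP (σ u) = 0 ⟺ tateP u = 0`. -/
theorem tateP_map_fix_eq_zero_iff (u : Kˣ) :
    tateP q hns (Units.map (σ : K →* K) u) = 0 ↔ tateP q hns u = 0 := by
  rw [tateP_eq_zero_iff_not_isAdm, tateP_eq_zero_iff_not_isAdm, Units.coe_map]
  exact not_congr (isAdm_map_fix_iff σ q hq u)

omit [IsUltrametricDist K] in
/-- **`σ (P(u)) = P(σ u)`**: if `tateP u = (x, y)` then `tateP (σ u) = (σ x, σ y)`. -/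
theorem tateP_map_fix_some (u : Kˣ) {x y : K} {h : (tateCurve q).toAffine.Nonsingular x y}
    (hP : tateP q hns u = Affine.Point.some x y h) :
    ∃ h' : (tateCurve q).toAffine.Nonsingular (σ x) (σ y),
      tateP q hns (Units.map (σ : K →* K) u) = Affine.Point.some (σ x) (σ y) h' := by
  have hadm : IsAdm q (u : K) := by
    by_contra hna
    rw [tateP_of_not_isAdm q hns hna] at hP
    exact Affine.Point.some_ne_zero _ hP.symm
  rw [tateP_of_isAdm q hns hadm] at hP
  injection hP with hx hy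
  have hadm' : IsAdm q ((Units.map (σ : K →* K) u : Kˣ) : K) := by
    rw [Units.coe_map]; exact (isAdm_map_fix_iff σ q hq u).2 hadm
  refine ⟨(nonsingular_map_fix_iff σ hσ q hq x y).2 h, ?_⟩
  rw [tateP_of_isAdm q hns hadm']
  apply some_congr
  · rw [Units.coe_map]
    show X q (σ (u : K)) = σ x
    rw [← map_X_fix σ hσ q hq, hx]
  · rw [Units.coe_map]
    show Y q (σ (u : K)) = σ y
    rw [← map_Y_fix σ hσ q hq, hy]

/-! #### the torsion -/

variable [DecidableEq K]
variable (hgen : ∀ u v : K, IsAdm q u → IsAdm q v → IsAdm q (u * v) → X q u ≠ X q v →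
  ColRel (X q u) (Y q u) (X q v) (Y q v) (X q (u * v)) (Y q (u * v)) ∧
    SumRel (X q u) (Y q u) (X q v) (Y q v) (X q (u * v)))

omit hσ hq [IsUltrametricDist K] [CompleteSpace K] [DecidableEq K] in
/-- a parameter with `u ^ p ∈ q^ℤ` is multiplied by a `p`-th root of unity. -/
theorem map_param_of_pow_mem (hq0 : q ≠ 0) (hq : σ q = q) {p : ℕ} (hp : 0 < p) {ζ : Kˣ}
    (hζ : IsPrimitiveRoot (ζ : K) p) (u : Kˣ)
    (hu : u ^ p ∈ Subgroup.zpowers (Units.mk0 q hq0)) :
    ∃ j : ℕ, j < p ∧ Units.map (σ : K →* K) u = ζ ^ j * u := by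
  obtain ⟨m, hm⟩ := Subgroup.mem_zpowers_iff.mp hu
  have hm' : (u : K) ^ p = q ^ m := by
    have := congrArg (fun w : Kˣ => (w : K)) hm
    simp only [Units.val_zpow_eq_zpow_val, Units.val_mk0, Units.val_pow_eq_pow_val] at this
    exact this.symm
  have h1 : (σ (u : K) / (u : K)) ^ p = 1 := by
    rw [div_pow, ← map_pow, hm', map_zpow₀, hq, div_self (zpow_ne_zero _ hq0)]
  have : NeZero p := ⟨hp.ne'⟩
  obtain ⟨j, hj, hj'⟩ := hζ.eq_pow_of_pow_eq_one h1
  refine ⟨j, hj, ?_⟩
  apply Units.ext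
  rw [Units.coe_map, Units.val_mul, Units.val_pow_eq_pow_val, hj']
  show σ (u : K) = _
  rw [div_mul_cancel₀ _ u.ne_zero]

include hgen in
omit hσ in
/-- **the action on the `p`-torsion of `E_q`**: for `P = tateP u` with `p • P = 0`,
`σ u = ζ^j u`, so that "`σ P = P + tateP (ζ^j)`": `σ` is trivial on `E_q[p]` modulo the line
`⟨tateP ζ⟩`. -/
theorem tateP_map_fix_torsion (hq0 : q ≠ 0) (hq1 : ‖q‖ < 1) {p : ℕ} (hp : 0 < p) {ζ : Kˣ}
    (hζ : IsPrimitiveRoot (ζ : K) p) (u : Kˣ) (hu : p • tateP q hns u = 0) :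
    ∃ j : ℕ, j < p ∧ Units.map (σ : K →* K) u = ζ ^ j * u ∧
      tateP q hns (Units.map (σ : K →* K) u) = tateP q hns (ζ ^ j) + tateP q hns u := by
  have hmul := tateP_mul q hns hgen hq0 hq1
  have hpow : ∀ (n : ℕ) (w : Kˣ), tateP q hns (w ^ n) = n • tateP q hns w := by
    intro n w
    induction n with
    | zero =>
      rw [pow_zero, zero_smul]
      exact (tateP_eq_zero_iff q hns hq0 1).2 (Subgroup.one_mem _)
    | succ n ih => rw [pow_succ, hmul, ih, succ_nsmul]
  have hmem : u ^ p ∈ Subgroup.zpowers (Units.mk0 q hq0) := by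
    rw [← tateP_eq_zero_iff q hns hq0, hpow, hu]
  obtain ⟨j, hj, hju⟩ := map_param_of_pow_mem σ q hq0 hq hp hζ u hmem
  exact ⟨j, hj, hju, by rw [hju, hmul]⟩

omit hσ hq [IsUltrametricDist K] [CompleteSpace K] [DecidableEq K] in
/-- `σ` permutes the primitive `p`-th roots of unity. -/
theorem map_zeta {p : ℕ} (hp : 0 < p) {ζ : Kˣ} (hζ : IsPrimitiveRoot (ζ : K) p) :
    ∃ a : ℕ, a < p ∧ a.Coprime p ∧ Units.map (σ : K →* K) ζ = ζ ^ a := by
  have hσζ : IsPrimitiveRoot (σ (ζ : K)) p := hζ.map_of_injective σ.injective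
  have : NeZero p := ⟨hp.ne'⟩
  obtain ⟨a, ha, hcop, hpow⟩ := hζ.isPrimitiveRoot_iff.1 hσζ
  refine ⟨a, ha, hcop, ?_⟩
  apply Units.ext
  rw [Units.coe_map, Units.val_pow_eq_pow_val, hpow]
  rfl

end Fix

end Fermat.Agent.GZ.Tate.T2.Equivar
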