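/-
GATE-Z (S15) / [MOD-beta] T2, sub-leaf B (helper29): **the Tate functions over `ℂ` are `℘`, `℘'`**.

For `T ∈ ℍ`, `|Im z| < Im T`, `z ∉ ℤ`, `q = e(T)`, `u = e(z)` (`e(w) = exp(2πi w)`):

* `X_eq`            : `Tate.X q u = ℘[pairOne T] z / (2πi)² - 1/12`;
* `X_add_two_Y_eq`  : `Tate.X q u + 2 * Tate.Y q u = ℘'[pairOne T] z / (2πi)³`;
* `wpY_at`          : both together (= the binder `Weq.WpYAt` of `GZ/Tate/Weq/Complex.lean`);
* `Y_eq`            : `Tate.Y q u` in closed form;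
* `hasSum_xTerm_zpow`, `hasSum_xyTerm_zpow`, `hasSum_yTerm_zpow`, `summable_xTerm_zpow`,
  `summable_yTerm_zpow` : the `ℤ`-indexed series of `Tate.X`, `Tate.Y` converge over `ℂ`
  (with their values);
* `lambert` : `∑_{n ≥ 1} q^n / (1 - q^n)² = s₁(q)` for `‖q‖ < 1`;
* `cubeSum_closed` : `-2 ∑_m (w + m)⁻³ = (2πi)³ (x/(1-x)² + 2x²/(1-x)³)`, `x = e(w)`, `w ∉ ℤ`;
* `hasSum_sq_mul_geometric` : `∑ k² x^k = x (1 + x)/(1 - x)³`.

On `DS/P1/WpRows` (row sums `∑_m (w+m)⁻²`, the period pair `(1, T)`) and helper72's `GZ/Tate/Defs`.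
-/
import Mathlib
import Fermat.Agent.GZ.Tate.Defs
import Fermat.Agent.DS.P1.WpRows

set_option autoImplicit false

noncomputable section

namespace Fermat.Agent.GZ.Tate.T2.WpY

open Complex PeriodPair Filter Topology
open UpperHalfPlane hiding I
open scoped Real
open Fermat.Agent.DS.P1.WpRows Fermat.Agent.GZ.Tate

/-! ### `(2πi)²` and the closed form of the row sum -/

theorem two_pi_I_ne_zero : (2 * (π : ℂ) * I) ≠ 0 := by
  have hpi : (π : ℂ) ≠ 0 := by exact_mod_cast Real.pi_ne_zero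
  exact mul_ne_zero (mul_ne_zero (by norm_num) hpi) I_ne_zero

theorem two_pi_I_sq : (2 * (π : ℂ) * I) ^ 2 = -(4 * π ^ 2) := by
  rw [mul_pow, mul_pow, I_sq]; ring

/-- `∑_m (w + m)⁻² = (2πi)² · e(w) / (1 - e(w))²` for `w ∉ ℤ` -/
theorem rowSum_eq_xTerm {w : ℂ} (hw : ∀ n : ℤ, w ≠ n) :
    rowSum w = (2 * π * I) ^ 2 * xTerm (cexp (2 * π * I * w)) := by
  rw [rowSum_closed hw, two_pi_I_sq, xTerm]

/-! ### The Lambert identity `∑ q^n / (1 - q^n)² = ∑ n q^n / (1 - q^n)` -/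

theorem norm_pow_lt_one {q : ℂ} (hq : ‖q‖ < 1) (n : ℕ+) : ‖q ^ (n : ℕ)‖ < 1 := by
  rw [norm_pow]
  exact pow_lt_one₀ (norm_nonneg _) hq n.ne_zero

theorem hq_max_one {q : ℂ} (hq : ‖q‖ < 1) : ‖q‖ * max 1 ‖(1 : ℂ)‖ < 1 := by
  rw [norm_one, max_self, mul_one]; exact hq

/-- the double series `∑_{n,k ≥ 1} k q^{nk}`, summed by rows `n` -/
theorem hasSum_xTerm_pow {q : ℂ} (hq : ‖q‖ < 1) :
    HasSum (fun n : ℕ+ => xTerm (q ^ (n : ℕ)))
      (∑' c : ℕ+ × ℕ+, (c.2 : ℂ) * (q ^ (c.1 : ℕ) * 1) ^ (c.2 : ℕ)) := by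
  have hS := summable_pair (q := q) (x := 1) (hq_max_one hq)
  refine hS.hasSum.prod_fiberwise fun n => ?_
  have h := hasSum_geomE (norm_pow_lt_one hq n)
  simpa [xTerm, mul_one] using h

/-- the same double series summed by columns `k` -/
theorem hasSum_sTerm_pnat {q : ℂ} (hq : ‖q‖ < 1) :
    HasSum (fun k : ℕ+ => (k : ℂ) * (q ^ (k : ℕ) / (1 - q ^ (k : ℕ))))
      (∑' c : ℕ+ × ℕ+, (c.2 : ℂ) * (q ^ (c.1 : ℕ) * 1) ^ (c.2 : ℕ)) := by
  have hS := summable_pair (q := q) (x := 1) (hq_max_one hq)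
  have hS' : Summable (fun c : ℕ+ × ℕ+ => (c.1 : ℂ) * (q ^ (c.2 : ℕ) * 1) ^ (c.1 : ℕ)) :=
    (Equiv.prodComm ℕ+ ℕ+).summable_iff.mpr hS
  have hval : ∑' c : ℕ+ × ℕ+, (c.1 : ℂ) * (q ^ (c.2 : ℕ) * 1) ^ (c.1 : ℕ) =
      ∑' c : ℕ+ × ℕ+, (c.2 : ℂ) * (q ^ (c.1 : ℕ) * 1) ^ (c.2 : ℕ) :=
    (Equiv.prodComm ℕ+ ℕ+).tsum_eq (fun c : ℕ+ × ℕ+ => (c.2 : ℂ) * (q ^ (c.1 : ℕ) * 1) ^ (c.2 : ℕ))
  rw [← hval]
  refine hS'.hasSum.prod_fiberwise fun k => ?_
  -- `∑_{n ≥ 1} k (q^n)^k = k q^k / (1 - q^k)`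
  have hk := norm_pow_lt_one hq k
  have hg : HasSum (fun n : ℕ => (q ^ (k : ℕ)) ^ n) (1 - q ^ (k : ℕ))⁻¹ :=
    hasSum_geometric_of_norm_lt_one hk
  have hg1 : HasSum (fun n : ℕ => (q ^ (k : ℕ)) ^ (n + 1)) (q ^ (k : ℕ) / (1 - q ^ (k : ℕ))) := by
    have := hg.mul_left (q ^ (k : ℕ))
    rw [← div_eq_mul_inv] at this
    refine this.congr_fun fun n => ?_
    rw [pow_succ]; ring
  have hg2 : HasSum (fun n : ℕ+ => (q ^ (k : ℕ)) ^ (n : ℕ)) (q ^ (k : ℕ) / (1 - q ^ (k : ℕ))) :=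
    (hasSum_pnat_iff_hasSum_succ (f := fun n : ℕ => (q ^ (k : ℕ)) ^ n)).mpr hg1
  refine (hg2.mul_left (k : ℂ)).congr_fun fun n => ?_
  show (k : ℂ) * (q ^ (n : ℕ) * 1) ^ (k : ℕ) = (k : ℂ) * (q ^ (k : ℕ)) ^ (n : ℕ)
  rw [mul_one, ← pow_mul, ← pow_mul, Nat.mul_comm]

/-- **Lambert**: `∑_{n ≥ 1} q^n / (1 - q^n)² = s₁(q)` -/
theorem lambert {q : ℂ} (hq : ‖q‖ < 1) : ∑' n : ℕ+, xTerm (q ^ (n : ℕ)) = sK 1 q := by
  rw [(hasSum_xTerm_pow hq).tsum_eq, ← (hasSum_sTerm_pnat hq).tsum_eq, sK]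
  rw [tsum_pnat_eq_tsum_succ (f := fun k : ℕ => (k : ℂ) * (q ^ k / (1 - q ^ k)))]
  refine tsum_congr fun n => ?_
  rw [sTerm, pow_one]
  push_cast
  ring

/-! ### Cube row sums -/

/-- `C w = ∑_{m ∈ ℤ} 1 / (w + m)³` -/
def cubeSum (w : ℂ) : ℂ := ∑' m : ℤ, 1 / (w + m) ^ 3

theorem summable_cubeSum (w : ℂ) : Summable fun m : ℤ => 1 / (w + m) ^ 3 := by
  have h := EisensteinSeries.linear_right_summable w 1 (k := 3) (by norm_num)
  refine h.congr fun m => ?_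
  simp [zpow_ofNat]

theorem hasSum_cubeSum (w : ℂ) : HasSum (fun m : ℤ => 1 / (w + m) ^ 3) (cubeSum w) :=
  (summable_cubeSum w).hasSum

theorem hasSum_cubeSum_sub (w : ℂ) : HasSum (fun m : ℤ => 1 / (w - m) ^ 3) (cubeSum w) := by
  have h := (Equiv.neg ℤ).hasSum_iff.mpr (hasSum_cubeSum w)
  refine h.congr_fun fun m => ?_
  simp [sub_eq_add_neg]

theorem cubeSum_neg (w : ℂ) : cubeSum (-w) = -cubeSum w := by
  have h := (hasSum_cubeSum_sub w).neg
  have h2 : HasSum (fun m : ℤ => 1 / (-w + m) ^ 3) (-cubeSum w) := by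
    refine h.congr_fun fun m => ?_
    rw [show (-w + (m : ℂ)) = -(w - m) by ring, Odd.neg_pow (by decide), one_div, one_div,
      inv_neg]
  exact (hasSum_cubeSum (-w)).unique h2

/-- `∑ k² x^k = x (1 + x) / (1 - x)³` -/
theorem hasSum_sq_mul_geometric {x : ℂ} (hx : ‖x‖ < 1) :
    HasSum (fun k : ℕ => (k : ℂ) ^ 2 * x ^ k) (x * (1 + x) / (1 - x) ^ 3) := by
  have h2 := hasSum_choose_mul_geometric_of_norm_lt_one 2 hx
  have h1 := hasSum_choose_mul_geometric_of_norm_lt_one 1 hx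
  have h0 := hasSum_geometric_of_norm_lt_one hx
  have h := ((h2.mul_left 2).sub (h1.mul_left 3)).add h0
  have hne : 1 - x ≠ 0 := by
    intro h3
    have : x = 1 := by linear_combination -h3
    rw [this, norm_one] at hx
    exact lt_irrefl _ hx
  have hval : 2 * (1 / (1 - x) ^ (2 + 1)) - 3 * (1 / (1 - x) ^ (1 + 1)) + (1 - x)⁻¹ =
      x * (1 + x) / (1 - x) ^ 3 := by
    field_simp
    ring
  rw [← hval]
  refine h.congr_fun fun n => ?_
  rw [Nat.cast_choose_two, Nat.choose_one_right]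
  push_cast
  ring

theorem hasSum_sq_mul_geometric_pnat {x : ℂ} (hx : ‖x‖ < 1) :
    HasSum (fun k : ℕ+ => (k : ℂ) ^ 2 * x ^ (k : ℕ)) (x * (1 + x) / (1 - x) ^ 3) := by
  have h := hasSum_sq_mul_geometric hx
  have h2 := (hasSum_nat_add_iff' (f := fun k : ℕ => (k : ℂ) ^ 2 * x ^ k) 1).mpr h
  simp only [Finset.range_one, Finset.sum_singleton, Nat.cast_zero, ne_eq, OfNat.ofNat_ne_zero,
    not_false_eq_true, zero_pow, zero_mul, sub_zero] at h2
  exact (hasSum_pnat_iff_hasSum_succ (f := fun k : ℕ => (k : ℂ) ^ 2 * x ^ k)).mpr h2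

/-- `x/(1-x)² + 2 x²/(1-x)³ = x (1 + x)/(1 - x)³` -/
theorem xTerm_add_two_yTerm (x : ℂ) : xTerm x + 2 * yTerm x = x * (1 + x) / (1 - x) ^ 3 := by
  by_cases hx : 1 - x = 0
  · simp [xTerm, yTerm, hx]
  · rw [xTerm, yTerm]
    field_simp
    ring

theorem xyTerm_inv {x : ℂ} (hx : x ≠ 0) :
    xTerm x⁻¹ + 2 * yTerm x⁻¹ = -(xTerm x + 2 * yTerm x) := by
  rw [xTerm_add_two_yTerm, xTerm_add_two_yTerm]
  by_cases h1 : 1 - x = 0
  · have : x = 1 := by linear_combination -h1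
    subst this
    simp
  · have h2 : x - 1 ≠ 0 := fun h => h1 (by linear_combination -h)
    have h3 : 1 - x⁻¹ = (x - 1) / x := by field_simp
    rw [h3]
    field_simp
    ring

theorem two_pi_I_cube : (2 * (π : ℂ) * I) ^ 3 = -(8 * π ^ 3 * I) := by
  rw [mul_pow, mul_pow, show I ^ 3 = I ^ 2 * I by ring, I_sq]; ring

theorem cubeSum_closed_of_im_pos {w : ℂ} (hw : 0 < w.im) :
    -2 * cubeSum w = (2 * π * I) ^ 3 *
      (xTerm (cexp (2 * π * I * w)) + 2 * yTerm (cexp (2 * π * I * w))) := by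
  have h := EisensteinSeries.qExpansion_identity_pnat (k := 2) (by norm_num) ⟨w, hw⟩
  rw [show (2 + 1 : ℕ) = 3 from rfl] at h
  have hx := norm_cexp_lt_one hw
  have hs := (hasSum_sq_mul_geometric_pnat hx).tsum_eq
  rw [cubeSum, xTerm_add_two_yTerm, ← hs]
  change -2 * ∑' m : ℤ, 1 / (((⟨w, hw⟩ : ℍ) : ℂ) + m) ^ 3 = _
  rw [h]
  simp only [Nat.factorial_two, Nat.cast_ofNat]
  have : (-2 * (π : ℂ) * I) ^ 3 = -(2 * π * I) ^ 3 := by ring
  rw [this]
  ring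

theorem continuousAt_cubeSum {w₀ : ℂ} (hw₀ : ∀ n : ℤ, w₀ ≠ n) : ContinuousAt cubeSum w₀ := by
  obtain ⟨ε, hε, hle⟩ := exists_pos_le_norm_add_int hw₀
  have hkey : ∀ m : ℤ, ∀ w ∈ Metric.ball w₀ (ε / 2), ‖w₀ + m‖ / 2 ≤ ‖w + m‖ := by
    intro m w hw
    rw [Metric.mem_ball, dist_eq_norm] at hw
    have h1 : ‖w₀ + m‖ ≤ ‖w + m‖ + ‖w - w₀‖ := by
      have : w₀ + m = (w + m) - (w - w₀) := by ring
      rw [this]; exact norm_sub_le _ _
    have := hle m
    linarith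
  have hcont : ContinuousOn cubeSum (Metric.ball w₀ (ε / 2)) := by
    refine continuousOn_tsum (u := fun m : ℤ => 8 * ‖1 / (w₀ + m) ^ 3‖) (fun m => ?_)
      ((summable_cubeSum w₀).norm.mul_left 8) (fun m w hw => ?_)
    · refine ContinuousOn.div continuousOn_const (by fun_prop) (fun w hw => ?_)
      have h1 := hkey m w hw
      have h2 := hle m
      have : 0 < ‖w + m‖ := by linarith
      exact pow_ne_zero 3 (norm_pos_iff.mp this)
    · have h1 := hkey m w hw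
      have h2 := hle m
      have hpos : 0 < ‖w₀ + m‖ := by linarith
      rw [norm_div, norm_div, norm_one, norm_pow, norm_pow]
      rw [show 8 * (1 / ‖w₀ + (m : ℂ)‖ ^ 3) = 1 / (‖w₀ + (m : ℂ)‖ / 2) ^ 3 by field_simp; ring]
      apply one_div_le_one_div_of_le (by positivity)
      exact pow_le_pow_left₀ (by positivity) h1 3
  exact hcont.continuousAt (Metric.ball_mem_nhds _ (by positivity))

/-- `-2 ∑_m (w + m)⁻³ = (2πi)³ (xTerm + 2 yTerm)(e(w))` for `w ∉ ℤ` -/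
theorem cubeSum_closed {w : ℂ} (hw : ∀ n : ℤ, w ≠ n) :
    -2 * cubeSum w = (2 * π * I) ^ 3 *
      (xTerm (cexp (2 * π * I * w)) + 2 * yTerm (cexp (2 * π * I * w))) := by
  rcases lt_trichotomy w.im 0 with h | h | h
  · have h' : 0 < (-w).im := by simpa using h
    have h1 := cubeSum_closed_of_im_pos h'
    have hu : cexp (2 * π * I * -w) = (cexp (2 * π * I * w))⁻¹ := by
      rw [← Complex.exp_neg]; congr 1; ring
    rw [hu, xyTerm_inv (Complex.exp_ne_zero _), cubeSum_neg] at h1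
    linear_combination -h1
  · -- the real case: continuity
    set F : ℂ → ℂ := fun v =>
      -2 * cubeSum v - (2 * π * I) ^ 3 *
        (xTerm (cexp (2 * π * I * v)) + 2 * yTerm (cexp (2 * π * I * v))) with hF
    have h1 : 1 - cexp (2 * π * I * w) ≠ 0 := sub_ne_zero.mpr (cexp_two_pi_I_mul_ne_one hw).symm
    have hc : ContinuousAt F w := by
      refine (continuousAt_const.mul (continuousAt_cubeSum hw)).sub (continuousAt_const.mul ?_)
      refine ContinuousAt.add ?_ (continuousAt_const.mul ?_)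
      · unfold xTerm
        exact ContinuousAt.div (by fun_prop) (by fun_prop) (pow_ne_zero 2 h1)
      · unfold yTerm
        exact ContinuousAt.div (by fun_prop) (by fun_prop) (pow_ne_zero 3 h1)
    have ht : Tendsto (fun t : ℝ => w + (t : ℂ) * I) (𝓝[>] 0) (𝓝 w) := by
      have : Continuous (fun t : ℝ => w + (t : ℂ) * I) := by fun_prop
      have h2 := this.tendsto 0
      simp only [ofReal_zero, zero_mul, add_zero] at h2
      exact h2.mono_left nhdsWithin_le_nhds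
    have hev : ∀ᶠ t : ℝ in 𝓝[>] 0, F (w + (t : ℂ) * I) = 0 := by
      filter_upwards [self_mem_nhdsWithin] with t ht0
      have him : 0 < (w + (t : ℂ) * I).im := by
        have : (w + (t : ℂ) * I).im = w.im + t := by simp
        rw [this, h]; simpa using ht0
      simp only [hF]
      rw [cubeSum_closed_of_im_pos him]
      ring
    have h0 : F w = 0 :=
      tendsto_nhds_unique (hc.tendsto.comp ht)
        (tendsto_const_nhds.congr' (hev.mono fun t ht => ht.symm))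
    simp only [hF] at h0
    linear_combination h0
  · exact cubeSum_closed_of_im_pos h

/-! ### The lattice sum for `℘'` by rows -/

theorem hasSum_derivWeierstrassP_prod (T : ℍ) (z : ℂ) :
    HasSum (fun y : ℤ × ℤ => -2 / (z - ((y.2 : ℂ) + y.1 * T)) ^ 3)
      ((pairOne T).derivWeierstrassP z) := by
  have h1 := (pairOne T).hasSum_derivWeierstrassP z
  have h2 := ((pairOne T).latticeEquivProd.symm.toEquiv).hasSum_iff.mpr h1
  have h3 := (Equiv.prodComm ℤ ℤ).hasSum_iff.mpr h2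
  refine h3.congr_fun fun y => ?_
  simp only [Function.comp_apply, Equiv.prodComm_apply, LinearEquiv.coe_toEquiv,
    latticeEquiv_symm_apply, Prod.fst_swap, Prod.snd_swap, pairOne_ω₁, pairOne_ω₂, mul_one]

theorem hasSum_cubeRow (T : ℍ) (z : ℂ) (n : ℤ) :
    HasSum (fun m : ℤ => -2 / (z - ((m : ℂ) + n * T)) ^ 3) (-2 * cubeSum (z - n * T)) := by
  refine ((hasSum_cubeSum_sub (z - n * T)).mul_left (-2)).congr_fun fun m => ?_
  rw [show z - ((m : ℂ) + n * T) = z - n * T - m by ring]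
  ring

theorem hasSum_cubeRows (T : ℍ) (z : ℂ) :
    HasSum (fun n : ℤ => -2 * cubeSum (z - n * T)) ((pairOne T).derivWeierstrassP z) :=
  (hasSum_derivWeierstrassP_prod T z).prod_fiberwise fun n => hasSum_cubeRow T z n

/-! ### The points `z - nT` -/

section Strip

variable {T : ℍ} {z : ℂ}

theorem im_sub_int_mul (T : ℍ) (z : ℂ) (n : ℤ) : (z - (n : ℂ) * T).im = z.im - n * T.im := by
  simp [Complex.sub_im, Complex.mul_im]

/-- `z - nT ∉ ℤ` -/
theorem sub_int_mul_ne_intCast (hz : |z.im| < T.im) (hzZ : ∀ n : ℤ, z ≠ n) (n m : ℤ) :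
    z - (n : ℂ) * T ≠ m := by
  obtain ⟨hz1, hz2⟩ := abs_lt.mp hz
  have hT := T.im_pos
  rcases lt_trichotomy n 0 with hn | hn | hn
  · intro h
    have him := congrArg Complex.im h
    rw [im_sub_int_mul] at him
    simp only [intCast_im] at him
    have hn1 : (n : ℝ) ≤ -1 := by exact_mod_cast Int.le_sub_one_of_lt hn
    nlinarith
  · subst hn
    simpa using hzZ m
  · intro h
    have him := congrArg Complex.im h
    rw [im_sub_int_mul] at him
    simp only [intCast_im] at him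
    have hn1 : (1 : ℝ) ≤ (n : ℝ) := by exact_mod_cast Int.add_one_le_of_lt hn
    nlinarith

/-- `nT ∉ ℤ` for `n ≠ 0` -/
theorem int_mul_ne_intCast (T : ℍ) {n : ℤ} (hn : n ≠ 0) (m : ℤ) : (n : ℂ) * T ≠ m := by
  intro h
  have him := congrArg Complex.im h
  have hTim : ((T : ℂ)).im = T.im := rfl
  simp only [Complex.mul_im, intCast_re, intCast_im, zero_mul, add_zero, hTim] at him
  rcases mul_eq_zero.mp him with h1 | h1
  · exact hn (by exact_mod_cast h1)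
  · exact T.im_pos.ne' h1

/-- `e(z - nT) = q^{-n} u` -/
theorem cexp_sub_int_mul (T : ℍ) (z : ℂ) (n : ℤ) :
    cexp (2 * π * I * (z - (n : ℂ) * T)) =
      cexp (2 * π * I * T) ^ (-n) * cexp (2 * π * I * z) := by
  rw [← Complex.exp_int_mul, ← Complex.exp_add]
  congr 1
  push_cast
  ring

theorem cexp_int_mul (T : ℍ) (n : ℤ) :
    cexp (2 * π * I * ((n : ℂ) * T)) = cexp (2 * π * I * T) ^ n := by
  rw [← Complex.exp_int_mul]
  congr 1
  ring

theorem norm_q_lt_one (T : ℍ) : ‖cexp (2 * π * I * T)‖ < 1 :=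
  norm_cexp_lt_one (by exact T.im_pos)

/-! ### The series of the constants `rowSum (nT)` -/

/-- `∑_{n ≥ 1} rowSum (nT) = (2πi)² s₁(q)` -/
theorem hasSum_rowSum_succ (T : ℍ) :
    HasSum (fun n : ℕ => rowSum (((n + 1 : ℕ) : ℂ) * T))
      ((2 * π * I) ^ 2 * sK 1 (cexp (2 * π * I * T))) := by
  have hq := norm_q_lt_one T
  have h1 : HasSum (fun n : ℕ+ => xTerm (cexp (2 * π * I * T) ^ (n : ℕ)))
      (sK 1 (cexp (2 * π * I * T))) := by
    rw [← lambert hq]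
    exact (hasSum_xTerm_pow hq).summable.hasSum
  have h2 := (hasSum_pnat_iff_hasSum_succ
    (f := fun n : ℕ => xTerm (cexp (2 * π * I * T) ^ n))).mp h1
  refine (h2.mul_left ((2 * π * I) ^ 2)).congr_fun fun n => ?_
  have hne : (((n + 1 : ℕ) : ℤ)) ≠ 0 := by exact_mod_cast Nat.succ_ne_zero n
  have h3 := rowSum_eq_xTerm (w := (((n + 1 : ℕ) : ℤ) : ℂ) * T)
    (fun m => int_mul_ne_intCast T hne m)
  rw [cexp_int_mul, zpow_natCast] at h3
  rw [← h3]
  push_cast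
  ring_nf

/-- `∑_{n ∈ ℤ} rowSum (nT) = π²/3 + 2 (2πi)² s₁(q)` -/
theorem hasSum_rowSum_int_mul (T : ℍ) :
    HasSum (fun n : ℤ => rowSum ((n : ℂ) * T))
      (π ^ 2 / 3 + (2 * π * I) ^ 2 * sK 1 (cexp (2 * π * I * T))
        + (2 * π * I) ^ 2 * sK 1 (cexp (2 * π * I * T))) := by
  have h1 := hasSum_rowSum_succ T
  have hnat : HasSum (fun n : ℕ => rowSum (((n : ℤ) : ℂ) * T))
      (π ^ 2 / 3 + (2 * π * I) ^ 2 * sK 1 (cexp (2 * π * I * T))) := by
    have h2 := (hasSum_nat_add_iff (f := fun n : ℕ => rowSum (((n : ℤ) : ℂ) * T)) 1).mp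
      (by simpa using h1)
    simp only [Finset.range_one, Finset.sum_singleton, Nat.cast_zero, Int.cast_zero, zero_mul,
      rowSum_zero] at h2
    rw [add_comm]
    exact h2
  have hneg : HasSum (fun n : ℕ => rowSum (((-((n : ℤ) + 1) : ℤ) : ℂ) * T))
      ((2 * π * I) ^ 2 * sK 1 (cexp (2 * π * I * T))) := by
    refine h1.congr_fun fun n => ?_
    rw [← rowSum_neg]
    congr 1
    push_cast
    ring
  exact HasSum.of_nat_of_neg_add_one hnat hneg

/-! ### The `ℤ`-indexed series of `X` -/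

/-- **the `ℤ`-series of `Tate.X` over `ℂ`** -/
theorem hasSum_xTerm_zpow (hz : |z.im| < T.im) (hzZ : ∀ n : ℤ, z ≠ n) :
    HasSum (fun n : ℤ => xTerm (cexp (2 * π * I * T) ^ n * cexp (2 * π * I * z)))
      ((pairOne T).weierstrassP z / (2 * π * I) ^ 2 - 1 / 12
        + 2 * sK 1 (cexp (2 * π * I * T))) := by
  have h1 := (hasSum_rowG T z).add (hasSum_rowSum_int_mul T)
  have h2 : HasSum (fun n : ℤ => (2 * π * I) ^ 2 *
      xTerm (cexp (2 * π * I * T) ^ (-n) * cexp (2 * π * I * z)))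
      ((pairOne T).weierstrassP z + (π ^ 2 / 3 + (2 * π * I) ^ 2 * sK 1 (cexp (2 * π * I * T))
        + (2 * π * I) ^ 2 * sK 1 (cexp (2 * π * I * T)))) := by
    refine h1.congr_fun fun n => ?_
    rw [← cexp_sub_int_mul, ← rowSum_eq_xTerm (sub_int_mul_ne_intCast hz hzZ n), rowG]
    ring
  have h3 := (Equiv.neg ℤ).hasSum_iff.mpr h2
  have h4 := h3.mul_left ((2 * π * I) ^ 2)⁻¹
  have hne : (2 * (π : ℂ) * I) ^ 2 ≠ 0 := pow_ne_zero 2 two_pi_I_ne_zero
  have hpi : (π : ℂ) ≠ 0 := by exact_mod_cast Real.pi_ne_zero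
  have h5 : HasSum (fun n : ℤ => xTerm (cexp (2 * π * I * T) ^ n * cexp (2 * π * I * z)))
      (((2 * π * I) ^ 2)⁻¹ * ((pairOne T).weierstrassP z +
        (π ^ 2 / 3 + (2 * π * I) ^ 2 * sK 1 (cexp (2 * π * I * T))
        + (2 * π * I) ^ 2 * sK 1 (cexp (2 * π * I * T))))) := by
    refine h4.congr_fun fun n => ?_
    simp only [Function.comp_apply, Equiv.neg_apply, neg_neg]
    rw [← mul_assoc, inv_mul_cancel₀ hne, one_mul]
  have hval : ((2 * π * I) ^ 2)⁻¹ * ((pairOne T).weierstrassP z +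
        (π ^ 2 / 3 + (2 * π * I) ^ 2 * sK 1 (cexp (2 * π * I * T))
        + (2 * π * I) ^ 2 * sK 1 (cexp (2 * π * I * T)))) =
      (pairOne T).weierstrassP z / (2 * π * I) ^ 2 - 1 / 12
        + 2 * sK 1 (cexp (2 * π * I * T)) := by
    rw [two_pi_I_sq]
    field_simp
    ring
  rw [← hval]
  exact h5

theorem summable_xTerm_zpow (hz : |z.im| < T.im) (hzZ : ∀ n : ℤ, z ≠ n) :
    Summable (fun n : ℤ => xTerm (cexp (2 * π * I * T) ^ n * cexp (2 * π * I * z))) :=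
  (hasSum_xTerm_zpow hz hzZ).summable

/-- **`X = ℘ / (2πi)² - 1/12`** -/
theorem X_eq (hz : |z.im| < T.im) (hzZ : ∀ n : ℤ, z ≠ n) :
    X (cexp (2 * π * I * T)) (cexp (2 * π * I * z)) =
      (pairOne T).weierstrassP z / (2 * π * I) ^ 2 - 1 / 12 := by
  rw [X, (hasSum_xTerm_zpow hz hzZ).tsum_eq]
  ring

/-! ### The `ℤ`-indexed series of `X + 2Y` and of `Y` -/

/-- **the `ℤ`-series of `Tate.X + 2 Tate.Y` over `ℂ`** -/
theorem hasSum_xyTerm_zpow (hz : |z.im| < T.im) (hzZ : ∀ n : ℤ, z ≠ n) :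
    HasSum (fun n : ℤ => xTerm (cexp (2 * π * I * T) ^ n * cexp (2 * π * I * z))
        + 2 * yTerm (cexp (2 * π * I * T) ^ n * cexp (2 * π * I * z)))
      ((pairOne T).derivWeierstrassP z / (2 * π * I) ^ 3) := by
  have h1 := hasSum_cubeRows T z
  have h2 : HasSum (fun n : ℤ => (2 * π * I) ^ 3 *
      (xTerm (cexp (2 * π * I * T) ^ (-n) * cexp (2 * π * I * z))
        + 2 * yTerm (cexp (2 * π * I * T) ^ (-n) * cexp (2 * π * I * z))))
      ((pairOne T).derivWeierstrassP z) := by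
    refine h1.congr_fun fun n => ?_
    rw [← cexp_sub_int_mul, ← cubeSum_closed (sub_int_mul_ne_intCast hz hzZ n)]
  have h3 := (Equiv.neg ℤ).hasSum_iff.mpr h2
  have h4 := h3.mul_left ((2 * π * I) ^ 3)⁻¹
  have hne : (2 * (π : ℂ) * I) ^ 3 ≠ 0 := pow_ne_zero 3 two_pi_I_ne_zero
  rw [div_eq_inv_mul]
  refine h4.congr_fun fun n => ?_
  simp only [Function.comp_apply, Equiv.neg_apply, neg_neg]
  rw [← mul_assoc, inv_mul_cancel₀ hne, one_mul]

theorem summable_yTerm_zpow (hz : |z.im| < T.im) (hzZ : ∀ n : ℤ, z ≠ n) :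
    Summable (fun n : ℤ => yTerm (cexp (2 * π * I * T) ^ n * cexp (2 * π * I * z))) := by
  have h := (((hasSum_xyTerm_zpow hz hzZ).summable.sub (summable_xTerm_zpow hz hzZ)).mul_left
    (1 / 2 : ℂ))
  refine h.congr fun n => ?_
  ring

/-- the `ℤ`-series of `Tate.Y` over `ℂ`, with its value -/
theorem hasSum_yTerm_zpow (hz : |z.im| < T.im) (hzZ : ∀ n : ℤ, z ≠ n) :
    HasSum (fun n : ℤ => yTerm (cexp (2 * π * I * T) ^ n * cexp (2 * π * I * z)))
      (1 / 2 * ((pairOne T).derivWeierstrassP z / (2 * π * I) ^ 3 -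
        ((pairOne T).weierstrassP z / (2 * π * I) ^ 2 - 1 / 12
          + 2 * sK 1 (cexp (2 * π * I * T))))) := by
  have h := (((hasSum_xyTerm_zpow hz hzZ).sub (hasSum_xTerm_zpow hz hzZ)).mul_left (1 / 2 : ℂ))
  refine h.congr_fun fun n => ?_
  ring

/-- **`X + 2Y = ℘' / (2πi)³`** -/
theorem X_add_two_Y_eq (hz : |z.im| < T.im) (hzZ : ∀ n : ℤ, z ≠ n) :
    X (cexp (2 * π * I * T)) (cexp (2 * π * I * z)) +
        2 * Y (cexp (2 * π * I * T)) (cexp (2 * π * I * z)) =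
      (pairOne T).derivWeierstrassP z / (2 * π * I) ^ 3 := by
  rw [X, Y, (hasSum_xTerm_zpow hz hzZ).tsum_eq, (hasSum_yTerm_zpow hz hzZ).tsum_eq]
  ring

/-- `Y` in closed form -/
theorem Y_eq (hz : |z.im| < T.im) (hzZ : ∀ n : ℤ, z ≠ n) :
    Y (cexp (2 * π * I * T)) (cexp (2 * π * I * z)) =
      1 / 2 * ((pairOne T).derivWeierstrassP z / (2 * π * I) ^ 3 -
        ((pairOne T).weierstrassP z / (2 * π * I) ^ 2 - 1 / 12)) := by
  have h1 := X_add_two_Y_eq hz hzZ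
  have h2 := X_eq hz hzZ
  linear_combination (1 / 2 : ℂ) * h1 - (1 / 2 : ℂ) * h2

/-- the two identities together: helper71's binder `Weq.WpYAt` verbatim -/
theorem wpY_at (T : ℍ) (z : ℂ) (hz : |z.im| < T.im) (hzZ : ∀ n : ℤ, z ≠ n) :
    X (cexp (2 * π * I * T)) (cexp (2 * π * I * z)) =
        (pairOne T).weierstrassP z / (2 * π * I) ^ 2 - 1 / 12 ∧
      X (cexp (2 * π * I * T)) (cexp (2 * π * I * z)) +
          2 * Y (cexp (2 * π * I * T)) (cexp (2 * π * I * z)) =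
        (pairOne T).derivWeierstrassP z / (2 * π * I) ^ 3 :=
  ⟨X_eq hz hzZ, X_add_two_Y_eq hz hzZ⟩

end Strip

end Fermat.Agent.GZ.Tate.T2.WpY
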