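/-
GATE-E (S59) / E7 pre-work + GZ-Tate (helper43): **decomposition-group equivariance WITH SIGN of a
Tate uniformisation**, field-generic.

`K` complete ultrametric of characteristic zero, `T : T4.TateUnif W K` (`T.C • W_K = tateCurve T.q`),
`φ : K →+* K` norm-preserving with `φ T.q = T.q` (e.g. the continuous extension to `ℂ_ℓ` of an
element of `Gal(ℚ̄_ℓ/ℚ_ℓ)` when `T.q ∈ ℚ_ℓ`).  Then `φ` fixes `W_K` and `tateCurve T.q`, so
`T.C.map φ` is another variable change `W_K → tateCurve T.q`; since `c₄ c₆ ≠ 0` on the Tate curve,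
`φ u = ± u` and

* `C_cases`         : `T.C.map φ = T.C` or `T.C.map φ = negVC (tateCurve T.q) * T.C` (`negVC` = `[-1]`);
* `sign T φ : ℤ`    : `1` or `-1`, `φ u = sign • u`  (`map_u`), multiplicative (`sign_comp`),
                      `= 1` as soon as `‖φ u - u‖ < ‖u‖` and `‖2‖ = 1` (`sign_eq_one_of_norm_lt`);
* `toTate_map_some` : `T.toTate (a, b) = tateP u ⟹ T.toTate (φ a, φ b) = sign T φ • tateP (φ u)`;
* `toTate_map_some_zpow`-type corollaries for torsion are left to the consumers
  (`T3/FinalN`, `T3/KummerN` describe `φ u` for `u = ζ^i t^k`).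

This generalises `GF/ETate/VarFix.map_C_eq` + `GF/ETate/Main.toTate_toK_smul` (inertia, sign `1`)
to the whole decomposition group: the sign is the quadratic character of the (possibly non-split)
multiplicative reduction.
-/
import Fermat.Agent.GZ.Tate.T2.Equivar
import Fermat.Agent.GZ.Tate.T4.Plug
import Fermat.Agent.GZ.Tate.T2.Final

set_option autoImplicit false
set_option linter.unusedSectionVars false

noncomputable section

namespace Fermat.Agent.GZ.Tate.T2.EquivarSign

open WeierstrassCurve Fermat.Agent.S05 Fermat.Agent.GZ.Tate Fermat.Agent.GZ.Tate.T2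
open Fermat.Agent.GZ.Tate.T2.Hom

/-! ### algebra of variable changes -/

section Algebra

variable {F : Type*} [Field F]

/-- the variable change `[-1]` of `E`: `(x, y) ↦ (x, -y - a₁ x - a₃)`. -/
def negVC (E : WeierstrassCurve F) : VariableChange F := ⟨-1, 0, -E.a₁, -E.a₃⟩

theorem negVC_u (E : WeierstrassCurve F) : ((negVC E).u : F) = -1 := by
  simp [negVC]

theorem negVC_u_inv (E : WeierstrassCurve F) : (((negVC E).u⁻¹ : Fˣ) : F) = -1 := by
  simp [negVC, inv_neg]

/-- `[-1]` fixes the curve. -/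
theorem negVC_smul (E : WeierstrassCurve F) : negVC E • E = E := by
  ext
  · rw [variableChange_a₁, negVC_u_inv]; simp only [negVC]; ring
  · rw [variableChange_a₂, negVC_u_inv]; simp only [negVC]; ring
  · rw [variableChange_a₃, negVC_u_inv]; simp only [negVC]; ring
  · rw [variableChange_a₄, negVC_u_inv]; simp only [negVC]; ring
  · rw [variableChange_a₆, negVC_u_inv]; simp only [negVC]; ring

theorem vcX_negVC_mul (E : WeierstrassCurve F) (C : VariableChange F) (x : F) :
    vcX (negVC E * C) x = vcX C x := by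
  simp only [vcX, VariableChange.mul_def, Units.val_mul, negVC_u]
  simp only [negVC]
  ring

theorem vcY_negVC_mul (E : WeierstrassCurve F) (C : VariableChange F) (x y : F) :
    vcY (negVC E * C) x y = vcY C x (E.toAffine.negY x y) := by
  simp only [vcY, VariableChange.mul_def, Units.val_mul, negVC_u, Affine.negY]
  simp only [negVC]
  ring

/-- a variable change is determined by its `u` and its effect on one curve (char. zero). -/
theorem eq_of_smul_eq_of_u_eq [CharZero F] (W : WeierstrassCurve F) {C C' : VariableChange F}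
    (h : C' • W = C • W) (hu : C'.u = C.u) : C' = C := by
  have h1 := congrArg WeierstrassCurve.a₁ h
  have h2 := congrArg WeierstrassCurve.a₂ h
  have h3 := congrArg WeierstrassCurve.a₃ h
  rw [variableChange_a₁, variableChange_a₁, hu] at h1
  rw [variableChange_a₂, variableChange_a₂, hu] at h2
  rw [variableChange_a₃, variableChange_a₃, hu] at h3
  have hu0 : ((C.u⁻¹ : Fˣ) : F) ≠ 0 := Units.ne_zero _
  have h2' : (2 : F) ≠ 0 := two_ne_zero
  have h3' : (3 : F) ≠ 0 := three_ne_zero
  have hs : C'.s = C.s := by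
    have := mul_left_cancel₀ hu0 h1
    have := add_left_cancel this
    exact mul_left_cancel₀ h2' this
  have hr : C'.r = C.r := by
    have := mul_left_cancel₀ (pow_ne_zero 2 hu0) h2
    rw [hs] at this
    have h4 : 3 * C'.r = 3 * C.r := by linear_combination this
    exact mul_left_cancel₀ h3' h4
  have ht : C'.t = C.t := by
    have := mul_left_cancel₀ (pow_ne_zero 3 hu0) h3
    rw [hr] at this
    have h4 : 2 * C'.t = 2 * C.t := by linear_combination this
    exact mul_left_cancel₀ h2' h4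
  ext
  · rw [hu]
  · exact hr
  · exact hs
  · exact ht

variable (σ : F →+* F)

theorem map_vcX (C : VariableChange F) (x : F) : σ (vcX C x) = vcX (C.map σ) (σ x) := by
  simp only [vcX, VariableChange.map, map_add, map_mul, map_pow, Units.coe_map, MonoidHom.coe_coe]

theorem map_vcY (C : VariableChange F) (x y : F) :
    σ (vcY C x y) = vcY (C.map σ) (σ x) (σ y) := by
  simp only [vcY, VariableChange.map, map_add, map_mul, map_pow, Units.coe_map, MonoidHom.coe_coe]

/-- `σ` fixes `W` and `E = C • W`, `c₄(E) c₆(E) ≠ 0` ⟹ `σ u = ± u`. -/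
theorem map_u_cases {W E : WeierstrassCurve F} {C : VariableChange F} (hC : C • W = E)
    (hW : W.map σ = W) (hE : E.map σ = E) (hc4 : E.c₄ ≠ 0) (hc6 : E.c₆ ≠ 0) :
    σ (C.u : F) = C.u ∨ σ (C.u : F) = -C.u := by
  have hu0 : (C.u : F) ≠ 0 := C.u.ne_zero
  have hσu0 : σ (C.u : F) ≠ 0 := (map_ne_zero σ).2 hu0
  have hWc4 : σ W.c₄ = W.c₄ := by
    have := WeierstrassCurve.map_c₄ W σ; rw [hW] at this; exact this.symm
  have hWc6 : σ W.c₆ = W.c₆ := by
    have := WeierstrassCurve.map_c₆ W σ; rw [hW] at this; exact this.symm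
  have hEc4 : σ E.c₄ = E.c₄ := by
    have := WeierstrassCurve.map_c₄ E σ; rw [hE] at this; exact this.symm
  have hEc6 : σ E.c₆ = E.c₆ := by
    have := WeierstrassCurve.map_c₆ E σ; rw [hE] at this; exact this.symm
  have e4 : (C.u : F) ^ 4 * E.c₄ = W.c₄ := by
    rw [← hC, variableChange_c₄, Units.val_inv_eq_inv_val, inv_pow, ← mul_assoc,
      mul_inv_cancel₀ (pow_ne_zero 4 hu0), one_mul]
  have e6 : (C.u : F) ^ 6 * E.c₆ = W.c₆ := by
    rw [← hC, variableChange_c₆, Units.val_inv_eq_inv_val, inv_pow, ← mul_assoc,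
      mul_inv_cancel₀ (pow_ne_zero 6 hu0), one_mul]
  have s4 : σ (C.u : F) ^ 4 = (C.u : F) ^ 4 := by
    have := congrArg σ e4
    rw [map_mul, map_pow, hEc4, hWc4, ← e4] at this
    exact mul_right_cancel₀ hc4 this
  have s6 : σ (C.u : F) ^ 6 = (C.u : F) ^ 6 := by
    have := congrArg σ e6
    rw [map_mul, map_pow, hEc6, hWc6, ← e6] at this
    exact mul_right_cancel₀ hc6 this
  have s2 : σ (C.u : F) ^ 2 = (C.u : F) ^ 2 := by
    have h : σ (C.u : F) ^ 2 * σ (C.u : F) ^ 4 = (C.u : F) ^ 2 * σ (C.u : F) ^ 4 := by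
      calc σ (C.u : F) ^ 2 * σ (C.u : F) ^ 4 = σ (C.u : F) ^ 6 := by ring
        _ = (C.u : F) ^ 6 := s6
        _ = (C.u : F) ^ 2 * (C.u : F) ^ 4 := by ring
        _ = (C.u : F) ^ 2 * σ (C.u : F) ^ 4 := by rw [s4]
    exact mul_right_cancel₀ (pow_ne_zero 4 hσu0) h
  have hfac : (σ (C.u : F) - C.u) * (σ (C.u : F) + C.u) = 0 := by
    have : (σ (C.u : F) - C.u) * (σ (C.u : F) + C.u) = σ (C.u : F) ^ 2 - (C.u : F) ^ 2 := by ring
    rw [this, s2, sub_self]
  rcases mul_eq_zero.1 hfac with h | h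
  · left; exact sub_eq_zero.1 h
  · right; exact eq_neg_of_add_eq_zero_left h

/-- **the two cases**: `C.map σ = C` or `C.map σ = [-1] * C`. -/
theorem map_C_cases [CharZero F] {W E : WeierstrassCurve F} {C : VariableChange F}
    (hC : C • W = E) (hW : W.map σ = W) (hE : E.map σ = E) (hc4 : E.c₄ ≠ 0) (hc6 : E.c₆ ≠ 0) :
    (σ (C.u : F) = C.u ∧ C.map σ = C) ∨ (σ (C.u : F) = -C.u ∧ C.map σ = negVC E * C) := by
  have hsm : (C.map σ) • W = C • W := by
    have h1 := WeierstrassCurve.map_variableChange W C σ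
    rw [hW, hC, hE, ← hC] at h1
    exact h1
  rcases map_u_cases σ hC hW hE hc4 hc6 with h | h
  · left
    refine ⟨h, eq_of_smul_eq_of_u_eq W hsm (Units.ext ?_)⟩
    exact h
  · right
    refine ⟨h, eq_of_smul_eq_of_u_eq W ?_ (Units.ext ?_)⟩
    · rw [hsm, mul_smul, hC, negVC_smul]
    · show σ (C.u : F) = ((negVC E * C).u : F)
      rw [h, VariableChange.mul_def]
      simp only [Units.val_mul, negVC_u]
      ring

end Algebra

/-! ### the Tate uniformisation -/

section Tate

variable {K : Type*} [NormedField K] [IsUltrametricDist K] [CompleteSpace K] [CharZero K]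
variable {W : WeierstrassCurve ℤ} (T : T4.TateUnif W K)
variable (φ : K →+* K)

omit [NormedField K] [IsUltrametricDist K] [CompleteSpace K] [CharZero K] in
/-- every ring endomorphism fixes the base change of an integral model. -/
theorem map_intCurve {K : Type*} [Field K] (W : WeierstrassCurve ℤ) (φ : K →+* K) :
    (W.map (Int.castRingHom K)).map φ = W.map (Int.castRingHom K) := by
  rw [WeierstrassCurve.map_map]
  congr 1
  exact RingHom.ext_int _ _

variable (hφ : ∀ x, ‖φ x‖ = ‖x‖) (hφq : φ T.q = T.q)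

include hφ hφq

omit [IsUltrametricDist K] [CharZero K] in
theorem map_tateCurve_fix : (tateCurve T.q).map φ = tateCurve T.q := by
  rw [Equivar.map_tateCurve φ hφ, hφq]

/-- `T.C.map φ = T.C` or `T.C.map φ = [-1] * T.C`. -/
theorem C_cases :
    (φ (T.C.u : K) = T.C.u ∧ T.C.map φ = T.C) ∨
      (φ (T.C.u : K) = -T.C.u ∧ T.C.map φ = negVC (tateCurve T.q) * T.C) := by
  have hc4 : (tateCurve T.q).c₄ ≠ 0 := by
    intro h
    have := T0.norm_pinned_c₄ T.q T.norm_q
    rw [h, norm_zero] at this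
    exact zero_ne_one this
  have hc6 : (tateCurve T.q).c₆ ≠ 0 := by
    intro h
    have := T0.norm_pinned_c₆ T.q T.norm_q
    rw [h, norm_zero] at this
    exact zero_ne_one this
  exact map_C_cases φ T.hC (map_intCurve W φ) (map_tateCurve_fix T φ hφ hφq) hc4 hc6

omit hφ hφq in
/-- **the sign** of `φ` on the Tate uniformisation `T`. -/
def sign [DecidableEq K] : ℤ := if φ (T.C.u : K) = T.C.u then 1 else -1

omit hφ hφq in
theorem sign_eq_or [DecidableEq K] : sign T φ = 1 ∨ sign T φ = -1 := by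
  unfold sign
  split_ifs
  · left; rfl
  · right; rfl

/-- `φ u = sign • u`. -/
theorem map_u [DecidableEq K] : φ (T.C.u : K) = (sign T φ : K) * T.C.u := by
  unfold sign
  split_ifs with h
  · rw [h, Int.cast_one, one_mul]
  · rcases C_cases T φ hφ hφq with ⟨h1, -⟩ | ⟨h1, -⟩
    · exact absurd h1 h
    · rw [h1, Int.cast_neg, Int.cast_one, neg_one_mul]

omit hφ hφq in
/-- the sign is `1` iff `φ` fixes `u`. -/
theorem sign_eq_one_iff [DecidableEq K] : sign T φ = 1 ↔ φ (T.C.u : K) = T.C.u := by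
  unfold sign
  split_ifs with h
  · exact ⟨fun _ => h, fun _ => rfl⟩
  · exact ⟨fun h1 => absurd h1 (by norm_num), fun h1 => absurd h1 h⟩

/-- the sign is `1` when `φ` moves `u` by less than `‖u‖` and `‖2‖ = 1` (inertia, odd residue
characteristic). -/
theorem sign_eq_one_of_norm_lt [DecidableEq K] (h2 : ‖(2 : K)‖ = 1)
    (hlt : ‖φ (T.C.u : K) - T.C.u‖ < ‖(T.C.u : K)‖) : sign T φ = 1 := by
  rw [sign_eq_one_iff]
  rcases C_cases T φ hφ hφq with ⟨h1, -⟩ | ⟨h1, -⟩
  · exact h1
  · exfalso
    rw [h1] at hlt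
    have : -(T.C.u : K) - T.C.u = -(2 * (T.C.u : K)) := by ring
    rw [this, norm_neg, norm_mul, h2, one_mul] at hlt
    exact lt_irrefl _ hlt

/-- the sign is multiplicative. -/
theorem sign_comp [DecidableEq K] (ψ : K →+* K) (hψ : ∀ x, ‖ψ x‖ = ‖x‖) (hψq : ψ T.q = T.q) :
    sign T (φ.comp ψ) = sign T φ * sign T ψ := by
  have hcomp : ∀ x, ‖(φ.comp ψ) x‖ = ‖x‖ := fun x => by
    rw [RingHom.comp_apply, hφ, hψ]
  have hcompq : (φ.comp ψ) T.q = T.q := by rw [RingHom.comp_apply, hψq, hφq]
  have h1 := map_u T (φ.comp ψ) hcomp hcompq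
  rw [RingHom.comp_apply, map_u T ψ hψ hψq, map_mul, map_intCast, map_u T φ hφ hφq] at h1
  have hu0 : (T.C.u : K) ≠ 0 := T.C.u.ne_zero
  have h2 : ((sign T (φ.comp ψ) : ℤ) : K) = ((sign T φ * sign T ψ : ℤ) : K) := by
    rw [Int.cast_mul]
    apply mul_right_cancel₀ hu0
    rw [← h1]
    ring
  exact Int.cast_injective h2

variable [DecidableEq K]

/-- **decomposition-group equivariance with sign**: if `T.toTate (a, b) = tateP u` then
`T.toTate (φ a, φ b) = sign T φ • tateP (φ u)`. -/
theorem toTate_map_some {a b : K}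
    (h : (W.map (Int.castRingHom K)).toAffine.Nonsingular a b) (u : Kˣ)
    (hP : T.toTate (.some a b h) = Final.tateP T.q T.q_ne T.norm_q u) :
    ∃ h' : (W.map (Int.castRingHom K)).toAffine.Nonsingular (φ a) (φ b),
      T.toTate (.some (φ a) (φ b) h') =
        sign T φ • Final.tateP T.q T.q_ne T.norm_q (Units.map (φ : K →* K) u) := by
  have hP' : (Affine.Point.some a b h : (W.map (Int.castRingHom K)).toAffine.Point) =
      T.toTate.symm (Final.tateP T.q T.q_ne T.norm_q u) := by
    rw [← hP, AddEquiv.symm_apply_apply]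
  have hadm : IsAdm T.q (u : K) := by
    by_contra hna
    have h0 : Final.tateP T.q T.q_ne T.norm_q u = 0 :=
      Hom.tateP_of_not_isAdm T.q (Final.hns T.q_ne T.norm_q) hna
    rw [h0, map_zero] at hP'
    exact Affine.Point.some_ne_zero _ hP'
  have hadm' : IsAdm T.q ((Units.map (φ : K →* K) u : Kˣ) : K) := by
    rw [Units.coe_map]
    exact (Equivar.isAdm_map_fix_iff φ T.q hφq u).2 hadm
  rw [Final.tateP_of_isAdm T.q_ne T.norm_q hadm] at hP'
  obtain ⟨h1, e1⟩ := T.toTate_symm_some (Final.hns T.q_ne T.norm_q u hadm)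
  rw [e1] at hP'
  have hab : a = vcX T.C (X T.q u) ∧ b = vcY T.C (X T.q u) (Y T.q u) := by
    injection hP' with hx hy
    exact ⟨hx, hy⟩
  have hXφ : X T.q ((Units.map (φ : K →* K) u : Kˣ) : K) = φ (X T.q u) := by
    rw [Units.coe_map]
    exact (Equivar.map_X_fix φ hφ T.q hφq u).symm
  have hYφ : Y T.q ((Units.map (φ : K →* K) u : Kˣ) : K) = φ (Y T.q u) := by
    rw [Units.coe_map]
    exact (Equivar.map_Y_fix φ hφ T.q hφq u).symm
  have hns' := Final.hns T.q_ne T.norm_q _ hadm'
  rw [Final.tateP_of_isAdm T.q_ne T.norm_q hadm']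
  have hφa : φ a = vcX (T.C.map φ) (φ (X T.q u)) := by rw [hab.1, map_vcX]
  have hφb : φ b = vcY (T.C.map φ) (φ (X T.q u)) (φ (Y T.q u)) := by rw [hab.2, map_vcY]
  rcases C_cases T φ hφ hφq with ⟨hu, hC⟩ | ⟨hu, hC⟩
  · -- sign `1`
    have hs : sign T φ = 1 := (sign_eq_one_iff T φ).2 hu
    rw [hs, one_zsmul]
    rw [hC, ← hXφ] at hφa
    rw [hC, ← hXφ, ← hYφ] at hφb
    obtain ⟨h2, e2⟩ := T.toTate_symm_some hns'
    have h' : (W.map (Int.castRingHom K)).toAffine.Nonsingular (φ a) (φ b) := by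
      rw [hφa, hφb]; exact h2
    refine ⟨h', ?_⟩
    rw [← AddEquiv.eq_symm_apply, e2]
    exact Hom.some_congr hφa hφb _ _
  · -- sign `-1`
    have hs : sign T φ = -1 := by
      rcases sign_eq_or T φ with h1 | h1
      · exfalso
        have h2 := (sign_eq_one_iff T φ).1 h1
        rw [hu] at h2
        have hu0 : (T.C.u : K) ≠ 0 := T.C.u.ne_zero
        have h3 : (2 : K) * T.C.u = 0 := by linear_combination -h2
        rcases mul_eq_zero.1 h3 with h4 | h4
        · exact two_ne_zero h4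
        · exact hu0 h4
      · exact h1
    rw [hs, neg_one_zsmul, Affine.Point.neg_some]
    rw [hC, vcX_negVC_mul, ← hXφ] at hφa
    rw [hC, vcY_negVC_mul, ← hXφ, ← hYφ] at hφb
    have hns'' : (tateCurve T.q).toAffine.Nonsingular
        (X T.q ((Units.map (φ : K →* K) u : Kˣ) : K))
        ((tateCurve T.q).toAffine.negY (X T.q ((Units.map (φ : K →* K) u : Kˣ) : K))
          (Y T.q ((Units.map (φ : K →* K) u : Kˣ) : K))) :=
      (Affine.nonsingular_neg _ _).2 hns'
    obtain ⟨h2, e2⟩ := T.toTate_symm_some hns''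
    have h' : (W.map (Int.castRingHom K)).toAffine.Nonsingular (φ a) (φ b) := by
      rw [hφa, hφb]; exact h2
    refine ⟨h', ?_⟩
    rw [← AddEquiv.eq_symm_apply, e2]
    exact Hom.some_congr hφa hφb _ _

end Tate

end Fermat.Agent.GZ.Tate.T2.EquivarSign
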