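/-
GATE-Z (S15) / [MOD-beta] / GZ-MODB-T2C (helper64), part 3: **the binder `Weq.LambertAt 𝕜` of
helper71's `GZ/Tate/Weq/Main.lean` is a theorem** for every complete normed field `𝕜`
(archimedean or not), from `T2/Lambert2.lean`.
-/
import Mathlib
import Fermat.Agent.GZ.Tate.T2.Lambert2
import Fermat.Agent.GZ.Tate.Weq.Main

set_option autoImplicit false

noncomputable section

namespace Fermat.Agent.GZ.Tate.T2.Lambert

open PowerSeries

/-- **`LambertAt` holds over every complete normed field.** -/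
theorem lambertAt (𝕜 : Type*) [NormedField 𝕜] [CompleteSpace 𝕜] : Weq.LambertAt 𝕜 := by
  intro q u hq0 hq1 hu1 hu2 _
  refine ⟨fun i => ?_, evalPS_Xf hq0 hq1 hu1 hu2, evalPS_Yf hq0 hq1 hu1 hu2, evalPS_a4f hq1,
    evalPS_a6f hq1⟩
  fin_cases i
  · exact absConv_Xf hq1 hu1 hu2
  · exact absConv_Yf hq1 hu1 hu2
  · exact absConv_a4f hq1
  · exact absConv_a6f hq1

end Fermat.Agent.GZ.Tate.T2.Lambert
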