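/-
GATE-Z (S15) / [MOD-beta] / GZ-MODB-T2C (helper64), part 4: **the binder `Transfer.Lambert 𝕜` of
helper21's `GZ/Tate/T2/Transfer.lean` is a theorem** for every complete normed field `𝕜`, and the
corresponding forms of `rel_of_isAdm` with the two Lambert binders discharged.
-/
import Mathlib
import Fermat.Agent.GZ.Tate.T2.Lambert2
import Fermat.Agent.GZ.Tate.T2.Transfer

set_option autoImplicit false

noncomputable section

namespace Fermat.Agent.GZ.Tate.T2.Lambert

open PowerSeries

/-- **`Transfer.Lambert` holds over every complete normed field.** -/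
theorem transferLambert (𝕜 : Type*) [NormedField 𝕜] [CompleteSpace 𝕜] : Transfer.Lambert 𝕜 := by
  intro q u hq0 hq1 hu1 hu2 _
  exact ⟨⟨absConv_Xf hq1 hu1 hu2, evalPS_Xf hq0 hq1 hu1 hu2⟩,
    ⟨absConv_Yf hq1 hu1 hu2, evalPS_Yf hq0 hq1 hu1 hu2⟩⟩

/-- `Transfer.rel_of_isAdm` with both Lambert binders discharged: the addition relations for all
admissible `u`, `v`, `u v` from the `ℂ`-bridge alone. -/
theorem rel_of_isAdm_of_bridge {K : Type*} [NormedField K] [IsUltrametricDist K] [CompleteSpace K]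
    (hB : ComplexAdd.Bridge) {q : K} (hq0 : q ≠ 0) (hq1 : ‖q‖ < 1) {u v : K}
    (hu : IsAdm q u) (hv : IsAdm q v) (huv : IsAdm q (u * v)) :
    ColRel (X q u) (Y q u) (X q v) (Y q v) (X q (u * v)) (Y q (u * v)) ∧
      SumRel (X q u) (Y q u) (X q v) (Y q v) (X q (u * v)) :=
  Transfer.rel_of_isAdm hB (transferLambert ℂ) (transferLambert K) hq0 hq1 hu hv huv

end Fermat.Agent.GZ.Tate.T2.Lambert
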