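/-
GATE-Z (S15) / [MOD-beta] leaf (T2), sub-leaf D, file 1 (helper21): the UNIVERSAL RING of two
points `u`, `v` of the Tate curve,
`R₀ = ℤ[U, V][1/(U V (1-U)(1-V)(1-UV))]`,
with its seven distinguished elements `U U' dU V V' dV dUV`
(`U U' = 1`, `(1-U) dU = 1`, `V V' = 1`, `(1-V) dV = 1`, `(1-UV) dUV = 1`),

* `exists_hom` : for every commutative ring `S` with seven elements satisfying the same five
  relations there is a ring homomorphism `R₀ → S` respecting them (SPECIALISATION);
* `exists_embedding` : `R₀` embeds into `ℂ` (via an algebraically independent pair), so an identity of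
  formal power series over `R₀` may be checked over `ℂ`.

Mathlib only.
-/
import Mathlib

set_option autoImplicit false

noncomputable section

namespace Fermat.Agent.GZ.Tate.T2.Univ

open MvPolynomial Cardinal

/-- `ℂ` contains two algebraically independent elements over `ℤ`. -/
theorem exists_algebraicIndependent_pair : ∃ x : Fin 2 → ℂ, AlgebraicIndependent ℤ x := by
  obtain ⟨s, hs⟩ := exists_isTranscendenceBasis ℤ ℂ
  have hcard : #ℂ = #s :=
    IsAlgClosed.cardinal_eq_cardinal_transcendence_basis_of_aleph0_lt' _ hs (by simp)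
      (by rw [Cardinal.mk_complex]; exact Cardinal.aleph0_lt_continuum)
  have hinf : Infinite s := by
    rw [Cardinal.infinite_iff, ← hcard, Cardinal.mk_complex]
    exact Cardinal.aleph0_le_continuum
  let f : Fin 2 ↪ s := (Fin.valEmbedding).trans (Infinite.natEmbedding s)
  exact ⟨_, hs.1.comp f f.injective⟩

/-- `ℤ[U, V]`. -/
abbrev P2 : Type := MvPolynomial (Fin 2) ℤ

/-- `U V (1-U)(1-V)(1-UV) ∈ ℤ[U,V]`. -/
def f₀ : P2 := X 0 * X 1 * (1 - X 0) * (1 - X 1) * (1 - X 0 * X 1)

/-- the universal ring `ℤ[U, V][1/f₀]`. -/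
abbrev R₀ : Type := Localization.Away f₀

/-- the universal `u`. -/
def U : R₀ := algebraMap P2 R₀ (X 0)

/-- the universal `v`. -/
def V : R₀ := algebraMap P2 R₀ (X 1)

theorem algebraMap_f₀ : algebraMap P2 R₀ f₀ = U * V * (1 - U) * (1 - V) * (1 - U * V) := by
  simp only [f₀, U, V, map_mul, map_sub, map_one]

theorem isUnit_prod : IsUnit (U * V * (1 - U) * (1 - V) * (1 - U * V)) := by
  rw [← algebraMap_f₀]
  exact IsLocalization.Away.algebraMap_isUnit f₀

theorem isUnit_U : IsUnit U := by
  have h := isUnit_prod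
  simp only [IsUnit.mul_iff] at h
  exact h.1.1.1.1

theorem isUnit_V : IsUnit V := by
  have h := isUnit_prod
  simp only [IsUnit.mul_iff] at h
  exact h.1.1.1.2

theorem isUnit_one_sub_U : IsUnit (1 - U) := by
  have h := isUnit_prod
  simp only [IsUnit.mul_iff] at h
  exact h.1.1.2

theorem isUnit_one_sub_V : IsUnit (1 - V) := by
  have h := isUnit_prod
  simp only [IsUnit.mul_iff] at h
  exact h.1.2

theorem isUnit_one_sub_UV : IsUnit (1 - U * V) := by
  have h := isUnit_prod
  simp only [IsUnit.mul_iff] at h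
  exact h.2

/-- `U⁻¹`. -/
def U' : R₀ := Ring.inverse U
/-- `V⁻¹`. -/
def V' : R₀ := Ring.inverse V
/-- `(1 - U)⁻¹`. -/
def dU : R₀ := Ring.inverse (1 - U)
/-- `(1 - V)⁻¹`. -/
def dV : R₀ := Ring.inverse (1 - V)
/-- `(1 - UV)⁻¹`. -/
def dUV : R₀ := Ring.inverse (1 - U * V)

theorem U_mul_U' : U * U' = 1 := Ring.mul_inverse_cancel _ isUnit_U
theorem V_mul_V' : V * V' = 1 := Ring.mul_inverse_cancel _ isUnit_V
theorem one_sub_U_mul : (1 - U) * dU = 1 := Ring.mul_inverse_cancel _ isUnit_one_sub_U
theorem one_sub_V_mul : (1 - V) * dV = 1 := Ring.mul_inverse_cancel _ isUnit_one_sub_V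
theorem one_sub_UV_mul : (1 - U * V) * dUV = 1 := Ring.mul_inverse_cancel _ isUnit_one_sub_UV

/-- uniqueness of inverses in a commutative ring. -/
theorem eq_of_mul_eq_one {S : Type*} [CommRing S] {a b c : S} (h1 : a * b = 1) (h2 : a * c = 1) :
    b = c := by
  calc b = b * (a * c) := by rw [h2, mul_one]
    _ = (a * b) * c := by ring
    _ = c := by rw [h1, one_mul]

/-- **specialisation**: seven elements of a commutative ring `S` with the five relations define a
ring homomorphism `R₀ → S`. -/
theorem exists_hom {S : Type*} [CommRing S] {u u' du v v' dv duv : S} (h1 : u * u' = 1)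
    (h2 : (1 - u) * du = 1) (h3 : v * v' = 1) (h4 : (1 - v) * dv = 1)
    (h5 : (1 - u * v) * duv = 1) :
    ∃ φ : R₀ →+* S, φ U = u ∧ φ U' = u' ∧ φ dU = du ∧ φ V = v ∧ φ V' = v' ∧ φ dV = dv ∧
      φ dUV = duv := by
  let g : P2 →+* S := eval₂Hom (Int.castRingHom S) ![u, v]
  have hg0 : g (X 0) = u := by simp [g]
  have hg1 : g (X 1) = v := by simp [g]
  have hgf : g f₀ = u * v * (1 - u) * (1 - v) * (1 - u * v) := by
    simp only [f₀, map_mul, map_sub, map_one, hg0, hg1]
  have hunit : IsUnit (g f₀) := by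
    rw [hgf]
    refine IsUnit.of_mul_eq_one (u' * v' * du * dv * duv) ?_
    calc u * v * (1 - u) * (1 - v) * (1 - u * v) * (u' * v' * du * dv * duv)
        = (u * u') * (v * v') * ((1 - u) * du) * ((1 - v) * dv) * ((1 - u * v) * duv) := by ring
      _ = 1 := by rw [h1, h2, h3, h4, h5]; ring
  let φ : R₀ →+* S := IsLocalization.Away.lift f₀ hunit
  have hφU : φ U = u := by
    show φ (algebraMap P2 R₀ (X 0)) = u
    rw [IsLocalization.Away.lift_eq, hg0]
  have hφV : φ V = v := by
    show φ (algebraMap P2 R₀ (X 1)) = v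
    rw [IsLocalization.Away.lift_eq, hg1]
  refine ⟨φ, hφU, ?_, ?_, hφV, ?_, ?_, ?_⟩
  · have := congrArg φ U_mul_U'
    rw [map_mul, map_one, hφU] at this
    exact eq_of_mul_eq_one this h1
  · have := congrArg φ one_sub_U_mul
    rw [map_mul, map_one, map_sub, map_one, hφU] at this
    exact eq_of_mul_eq_one this h2
  · have := congrArg φ V_mul_V'
    rw [map_mul, map_one, hφV] at this
    exact eq_of_mul_eq_one this h3
  · have := congrArg φ one_sub_V_mul
    rw [map_mul, map_one, map_sub, map_one, hφV] at this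
    exact eq_of_mul_eq_one this h4
  · have := congrArg φ one_sub_UV_mul
    rw [map_mul, map_one, map_sub, map_one, map_mul, hφU, hφV] at this
    exact eq_of_mul_eq_one this h5

theorem f₀_ne_zero : f₀ ≠ 0 := by
  intro h
  have := congrArg (eval (![2, 3] : Fin 2 → ℤ)) h
  simp [f₀] at this

instance : IsDomain R₀ :=
  IsLocalization.isDomain_localization (powers_le_nonZeroDivisors_of_noZeroDivisors f₀_ne_zero)

/-- **`R₀` embeds into `ℂ`.** -/
theorem exists_embedding : ∃ ι : R₀ →+* ℂ, Function.Injective ι := by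
  obtain ⟨x, hx⟩ := exists_algebraicIndependent_pair
  let g : P2 →+* ℂ := (aeval x : P2 →ₐ[ℤ] ℂ).toRingHom
  have hginj : Function.Injective g := hx
  have hunit : IsUnit (g f₀) := by
    rw [isUnit_iff_ne_zero]
    intro h
    exact f₀_ne_zero (hginj (by rw [h, map_zero]))
  refine ⟨IsLocalization.Away.lift f₀ hunit, ?_⟩
  unfold IsLocalization.Away.lift
  rw [IsLocalization.lift_injective_iff]
  intro a b
  have hinj : Function.Injective (algebraMap P2 R₀) :=
    IsLocalization.injective R₀ (powers_le_nonZeroDivisors_of_noZeroDivisors f₀_ne_zero)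
  exact ⟨fun h => congrArg g (hinj h), fun h => congrArg _ (hginj h)⟩

end Fermat.Agent.GZ.Tate.T2.Univ
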