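/-
GATE-Z (S15) / [MOD-beta] / T2 sub-leaf B, second seat (helper64): **the `q`-expansions of `℘` and
`℘'` in Tate's coordinates** = the binder `ComplexAdd.Bridge` (= `Weq.WpYAt`).

For `T ∈ ℍ`, `|Im z| < Im T`, `z ∉ ℤ`, `q = e(T)`, `u = e(z)`, `L = (1, T)`:
  `X q u = ℘[L] z / (2πi)² - 1/12`,      `X q u + 2 Y q u = ℘'[L] z / (2πi)³`.

* `℘` : helper21's `DS/P1/WpRows.hasSum_weierstrassP_rows` + the Lambert regrouping of
  `T2/Lambert.lean` (`X q u = xTerm u + ∑ lam (GX u u⁻¹) q`);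
* `℘'`: cube row sums `rowSum3 w = ∑_m (w + m)⁻³ = ((-2πi)³/2) F(e(w))`, `F = xTerm + 2 yTerm`
  (Mathlib `EisensteinSeries.qExpansion_identity_pnat`, oddness, continuity on the real line),
  `℘'(z) = -2 ∑_n rowSum3 (z - n T)` (Mathlib `hasSum_derivWeierstrassP`), and the `ℤ`-indexed sums
  `hasSum_int_xTerm`, `hasSum_int_yTerm` of `T2/Lambert.lean`.
-/
import Mathlib
import Fermat.Agent.DS.P1.WpRows
import Fermat.Agent.GZ.Tate.T2.Lambert

set_option autoImplicit false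

noncomputable section

namespace Fermat.Agent.GZ.Tate.T2.WpPrime

open Complex PeriodPair Filter Topology
open UpperHalfPlane hiding I
open scoped Real
open Fermat.Agent.DS.P1.WpRows Fermat.Agent.GZ.Tate Fermat.Agent.GZ.Tate.T2.Lambert

/-! ### the cube row sum -/

/-- `∑_{m ∈ ℤ} 1 / (w + m)³`. -/
def rowSum3 (w : ℂ) : ℂ := ∑' m : ℤ, 1 / (w + m) ^ 3

theorem summable_rowSum3 (w : ℂ) : Summable fun m : ℤ => 1 / (w + m) ^ 3 := by
  have h := EisensteinSeries.linear_right_summable w 1 (k := 3) (by norm_num)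
  refine h.congr fun m => ?_
  simp [zpow_ofNat]

theorem hasSum_rowSum3 (w : ℂ) : HasSum (fun m : ℤ => 1 / (w + m) ^ 3) (rowSum3 w) :=
  (summable_rowSum3 w).hasSum

theorem hasSum_rowSum3_sub (w : ℂ) : HasSum (fun m : ℤ => 1 / (w - m) ^ 3) (rowSum3 w) := by
  have h := (Equiv.neg ℤ).hasSum_iff.mpr (hasSum_rowSum3 w)
  refine h.congr_fun fun m => ?_
  simp [sub_eq_add_neg]

theorem rowSum3_neg (w : ℂ) : rowSum3 (-w) = -rowSum3 w := by
  have h := (hasSum_rowSum3_sub w).neg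
  have h2 : HasSum (fun m : ℤ => 1 / (-w + m) ^ 3) (-rowSum3 w) := by
    refine h.congr_fun fun m => ?_
    have : (-w + (m : ℂ)) ^ 3 = -((w - m) ^ 3) := by ring
    rw [this, one_div, one_div, inv_neg]
  exact h2.tsum_eq

/-- `F(x) = x (1 + x) / (1 - x)³ = xTerm x + 2 yTerm x`. -/
def FF (x : ℂ) : ℂ := xTerm x + 2 * yTerm x

theorem sq_eq_add_choose (m : ℕ) : (m + 1) ^ 2 = (m + 1) + 2 * (m + 1).choose 2 := by
  induction m with
  | zero => simp
  | succ k ih =>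
    rw [Nat.choose_succ_succ' (k + 1) 1, Nat.choose_one_right]
    have e : (k + 1 + 1) ^ 2 = (k + 1) ^ 2 + 2 * (k + 1) + 1 := by ring
    rw [e]
    generalize (k + 1) ^ 2 = a at ih ⊢
    generalize (k + 1).choose 2 = c at ih ⊢
    omega

theorem hasSum_FF {x : ℂ} (hx : ‖x‖ < 1) :
    HasSum (fun m : ℕ => ((m + 1 : ℕ) : ℂ) ^ 2 * x ^ (m + 1)) (FF x) := by
  have h := (hasSum_xTerm hx).add ((hasSum_yTerm hx).mul_left 2)
  refine h.congr_fun fun m => ?_
  have e : (((m + 1 : ℕ) : ℂ)) ^ 2 = ((m + 1 : ℕ) : ℂ) + 2 * (((m + 1).choose 2 : ℕ) : ℂ) := by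
    have h2 : (m + 1) ^ 2 = (m + 1) + 2 * (m + 1).choose 2 := sq_eq_add_choose m
    exact_mod_cast h2
  rw [e]
  ring

theorem FF_inv {x : ℂ} (hx : x ≠ 0) : FF x⁻¹ = -FF x := by
  unfold FF
  rw [xTerm_inv hx, yTerm_inv hx]
  ring

theorem rowSum3_of_im_pos {w : ℂ} (hw : 0 < w.im) :
    rowSum3 w = (-2 * π * I) ^ 3 / 2 * FF (cexp (2 * π * I * w)) := by
  have h := EisensteinSeries.qExpansion_identity_pnat (k := 2) (by norm_num) ⟨w, hw⟩
  rw [show (2 + 1 : ℕ) = 3 from rfl] at h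
  rw [rowSum3]
  rw [show ((⟨w, hw⟩ : ℍ) : ℂ) = w from rfl] at h
  rw [h]
  congr 1
  rw [tsum_pnat_eq_tsum_succ (f := fun n : ℕ => (n : ℂ) ^ 2 * cexp (2 * π * I * w) ^ n)]
  exact (hasSum_FF (norm_cexp_lt_one hw)).tsum_eq

theorem continuousAt_rowSum3 {w₀ : ℂ} (hw₀ : ∀ n : ℤ, w₀ ≠ n) : ContinuousAt rowSum3 w₀ := by
  obtain ⟨ε, hε, hle⟩ := exists_pos_le_norm_add_int hw₀
  have hkey : ∀ m : ℤ, ∀ w ∈ Metric.ball w₀ (ε / 2), ‖w₀ + m‖ / 2 ≤ ‖w + m‖ := by
    intro m w hw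
    rw [Metric.mem_ball, dist_eq_norm] at hw
    have h1 : ‖w₀ + m‖ ≤ ‖w + m‖ + ‖w - w₀‖ := by
      have : w₀ + m = (w + m) - (w - w₀) := by ring
      rw [this]; exact norm_sub_le _ _
    have := hle m
    linarith
  have hcont : ContinuousOn rowSum3 (Metric.ball w₀ (ε / 2)) := by
    refine continuousOn_tsum (u := fun m : ℤ => 8 * ‖1 / (w₀ + m) ^ 3‖) (fun m => ?_)
      ((summable_rowSum3 w₀).norm.mul_left 8) (fun m w hw => ?_)
    · refine ContinuousOn.div continuousOn_const (by fun_prop) (fun w hw => ?_)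
      have h1 := hkey m w hw
      have h2 := hle m
      have : 0 < ‖w + m‖ := by linarith
      exact pow_ne_zero 3 (norm_pos_iff.mp this)
    · have h1 := hkey m w hw
      have h2 := hle m
      have hpos : 0 < ‖w₀ + m‖ := by linarith
      rw [norm_div, norm_div, norm_one, norm_pow, norm_pow]
      rw [show 8 * (1 / ‖w₀ + (m : ℂ)‖ ^ 3) = 1 / (‖w₀ + (m : ℂ)‖ / 2) ^ 3 by field_simp; ring]
      apply one_div_le_one_div_of_le (by positivity)
      exact pow_le_pow_left₀ (by positivity) h1 3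
  exact hcont.continuousAt (Metric.ball_mem_nhds _ (by positivity))

theorem continuousAt_FF_cexp {w : ℂ} (hw : ∀ n : ℤ, w ≠ n) :
    ContinuousAt (fun v : ℂ => FF (cexp (2 * π * I * v))) w := by
  have h1 : 1 - cexp (2 * π * I * w) ≠ 0 := sub_ne_zero.mpr (cexp_two_pi_I_mul_ne_one hw).symm
  unfold FF xTerm yTerm
  refine ContinuousAt.add ?_ (continuousAt_const.mul ?_)
  · exact ContinuousAt.div (by fun_prop) (by fun_prop) (pow_ne_zero 2 h1)
  · exact ContinuousAt.div (by fun_prop) (by fun_prop) (pow_ne_zero 3 h1)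

theorem rowSum3_closed {w : ℂ} (hw : ∀ n : ℤ, w ≠ n) :
    rowSum3 w = (-2 * π * I) ^ 3 / 2 * FF (cexp (2 * π * I * w)) := by
  rcases lt_trichotomy w.im 0 with h | h | h
  · have h' : 0 < (-w).im := by simpa using h
    have e := rowSum3_of_im_pos h'
    rw [rowSum3_neg] at e
    have hu : cexp (2 * π * I * -w) = (cexp (2 * π * I * w))⁻¹ := by
      rw [← Complex.exp_neg]; congr 1; ring
    rw [hu, FF_inv (Complex.exp_ne_zero _)] at e
    linear_combination -e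
  · set G : ℂ → ℂ := fun v => rowSum3 v - (-2 * π * I) ^ 3 / 2 * FF (cexp (2 * π * I * v)) with hG
    have hc : ContinuousAt G w :=
      (continuousAt_rowSum3 hw).sub (continuousAt_const.mul (continuousAt_FF_cexp hw))
    have ht : Tendsto (fun t : ℝ => w + (t : ℂ) * I) (𝓝[>] 0) (𝓝 w) := by
      have : Continuous (fun t : ℝ => w + (t : ℂ) * I) := by fun_prop
      have h2 := this.tendsto 0
      simp only [ofReal_zero, zero_mul, add_zero] at h2
      exact h2.mono_left nhdsWithin_le_nhds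
    have hev : ∀ᶠ t : ℝ in 𝓝[>] 0, G (w + (t : ℂ) * I) = 0 := by
      filter_upwards [self_mem_nhdsWithin] with t ht0
      have him : 0 < (w + (t : ℂ) * I).im := by
        have : (w + (t : ℂ) * I).im = w.im + t := by simp
        rw [this, h]; simpa using ht0
      simp only [hG]
      rw [rowSum3_of_im_pos him]
      ring
    have h0 : G w = 0 :=
      tendsto_nhds_unique (hc.tendsto.comp ht)
        (tendsto_const_nhds.congr' (hev.mono fun t ht => ht.symm))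
    simp only [hG] at h0
    linear_combination h0
  · exact rowSum3_of_im_pos h

/-! ### the rows of `℘'` -/

theorem hasSum_derivWeierstrassP_prod (T : ℍ) (z : ℂ) :
    HasSum (fun y : ℤ × ℤ => -2 / (z - ((y.2 : ℂ) + y.1 * T)) ^ 3)
      ((pairOne T).derivWeierstrassP z) := by
  have h1 := (pairOne T).hasSum_derivWeierstrassP z
  have h2 := ((pairOne T).latticeEquivProd.symm.toEquiv).hasSum_iff.mpr h1
  have h3 := (Equiv.prodComm ℤ ℤ).hasSum_iff.mpr h2
  refine h3.congr_fun fun y => ?_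
  simp only [Function.comp_apply, Equiv.prodComm_apply, LinearEquiv.coe_toEquiv,
    latticeEquiv_symm_apply, Prod.fst_swap, Prod.snd_swap, pairOne_ω₁, pairOne_ω₂, mul_one]

theorem hasSum_row3 (T : ℍ) (z : ℂ) (n : ℤ) :
    HasSum (fun m : ℤ => -2 / (z - ((m : ℂ) + n * T)) ^ 3) (-2 * rowSum3 (z - n * T)) := by
  refine ((hasSum_rowSum3_sub (z - n * T)).mul_left (-2)).congr_fun fun m => ?_
  rw [show z - ((m : ℂ) + n * T) = z - n * T - m by ring]
  ring

theorem hasSum_rows3 (T : ℍ) (z : ℂ) :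
    HasSum (fun n : ℤ => -2 * rowSum3 (z - n * T)) ((pairOne T).derivWeierstrassP z) :=
  (hasSum_derivWeierstrassP_prod T z).prod_fiberwise fun n => hasSum_row3 T z n

/-- a point of the strip `|Im z| < Im T` which is not an integer stays off `ℤ` after any shift by
a multiple of `T`. -/
theorem sub_mul_ne_intCast {T : ℍ} {z : ℂ} (hz : |z.im| < T.im) (hzZ : ∀ n : ℤ, z ≠ n) (n m : ℤ) :
    z - n * T ≠ m := by
  intro h
  have him := congrArg Complex.im h
  have hTim : ((T : ℂ)).im = T.im := rfl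
  simp only [Complex.sub_im, Complex.mul_im, Complex.intCast_re, Complex.intCast_im, zero_mul,
    add_zero, hTim] at him
  have hT := T.im_pos
  have hn : n = 0 := by
    by_contra hn0
    have h1 : (1 : ℝ) ≤ |(n : ℝ)| := by
      have : (1 : ℤ) ≤ |n| := Int.one_le_abs hn0
      exact_mod_cast this
    have h2 : |z.im| = |(n : ℝ)| * T.im := by
      have : z.im = n * T.im := by linarith
      rw [this, abs_mul, abs_of_pos hT]
    have h3 : T.im ≤ |(n : ℝ)| * T.im := le_mul_of_one_le_left hT.le h1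
    linarith
  subst hn
  apply hzZ m
  simpa using h

theorem cexp_sub_int_mul (T : ℍ) (z : ℂ) (n : ℤ) :
    cexp (2 * π * I * (z - n * T)) = cexp (2 * π * I * T) ^ (-n) * cexp (2 * π * I * z) := by
  rw [← Complex.exp_int_mul, ← Complex.exp_add]
  congr 1
  push_cast
  ring

/-- **the `q`-expansion of `℘'` in closed row form**. -/
theorem hasSum_FF_int (T : ℍ) (z : ℂ) (hz : |z.im| < T.im) (hzZ : ∀ n : ℤ, z ≠ n) :
    HasSum (fun n : ℤ => FF (cexp (2 * π * I * T) ^ n * cexp (2 * π * I * z)))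
      ((pairOne T).derivWeierstrassP z / (2 * π * I) ^ 3) := by
  have h1 := hasSum_rows3 T z
  have h2 : HasSum (fun n : ℤ => (2 * π * I) ^ 3 *
      FF (cexp (2 * π * I * T) ^ (-n) * cexp (2 * π * I * z))) ((pairOne T).derivWeierstrassP z) := by
    refine h1.congr_fun fun n => ?_
    rw [rowSum3_closed (sub_mul_ne_intCast hz hzZ n), cexp_sub_int_mul]
    ring
  have h3 := (Equiv.neg ℤ).hasSum_iff.mpr h2
  have hpi : (2 * (π : ℂ) * I) ^ 3 ≠ 0 := by
    have : (π : ℂ) ≠ 0 := by exact_mod_cast Real.pi_ne_zero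
    exact pow_ne_zero 3 (mul_ne_zero (mul_ne_zero (by norm_num) this) I_ne_zero)
  have h4 := h3.div_const ((2 * (π : ℂ) * I) ^ 3)
  refine h4.congr_fun fun n => ?_
  simp only [Function.comp_apply, Equiv.neg_apply, neg_neg]
  rw [mul_div_cancel_left₀ _ hpi]

/-! ### the two identities -/

section Final

variable {T : ℍ} {z : ℂ}

theorem norm_q_lt_one (T : ℍ) : ‖cexp (2 * π * I * T)‖ < 1 :=
  norm_cexp_lt_one (w := (T : ℂ)) T.im_pos

theorem norm_lt_of_strip (hz : |z.im| < T.im) :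
    ‖cexp (2 * π * I * T)‖ < ‖cexp (2 * π * I * z)‖ ∧
      ‖cexp (2 * π * I * z)‖ * ‖cexp (2 * π * I * T)‖ < 1 := by
  obtain ⟨hz1, hz2⟩ := abs_lt.mp hz
  have hTim : ((T : ℂ)).im = T.im := rfl
  have hpi := Real.pi_pos
  rw [norm_cexp_two_pi_I_mul, norm_cexp_two_pi_I_mul, hTim]
  constructor
  · rw [Real.exp_lt_exp]
    nlinarith
  · rw [← Real.exp_add, Real.exp_lt_one_iff]
    nlinarith

/-- **`X + 2Y = ℘' / (2πi)³`.** -/
theorem X_add_two_mul_Y (hz : |z.im| < T.im) (hzZ : ∀ n : ℤ, z ≠ n) :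
    X (cexp (2 * π * I * T)) (cexp (2 * π * I * z))
        + 2 * Y (cexp (2 * π * I * T)) (cexp (2 * π * I * z))
      = (pairOne T).derivWeierstrassP z / (2 * π * I) ^ 3 := by
  obtain ⟨hu1, hu2⟩ := norm_lt_of_strip hz
  have hq0 : cexp (2 * π * I * T) ≠ 0 := Complex.exp_ne_zero _
  have hq1 := norm_q_lt_one T
  have hx := hasSum_int_xTerm hq0 hq1 hu1 hu2
  have hy := hasSum_int_yTerm hq0 hq1 hu1 hu2
  have hF : HasSum (fun n : ℤ => FF (cexp (2 * π * I * T) ^ n * cexp (2 * π * I * z))) _ :=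
    hx.add (hy.mul_left 2)
  have h := hF.unique (hasSum_FF_int T z hz hzZ)
  rw [X, Y, hx.tsum_eq, hy.tsum_eq]
  linear_combination h

/-- `X q u = xTerm u + ∑_{n,m ≥ 1} (m u^m + m u^{-m} - 2m) q^{nm}`. -/
theorem X_eq_tsum_lam {𝕜 : Type*} [NormedField 𝕜] [CompleteSpace 𝕜] {q u : 𝕜} (hq0 : q ≠ 0)
    (hq1 : ‖q‖ < 1) (hu1 : ‖q‖ < ‖u‖) (hu2 : ‖u‖ * ‖q‖ < 1) :
    X q u = xTerm u + ∑' x, lam (GX u u⁻¹) q x := by
  rw [X, (hasSum_int_xTerm hq0 hq1 hu1 hu2).tsum_eq, tsum_GX hq1 hu2 (norm_inv_mul_lt hu1),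
    sK_eq_tsum_lam 1 hq1]
  ring

/-- **`X = ℘ / (2πi)² - 1/12`.** -/
theorem X_eq_weierstrassP (hz : |z.im| < T.im) (hzZ : ∀ n : ℤ, z ≠ n) :
    X (cexp (2 * π * I * T)) (cexp (2 * π * I * z))
      = (pairOne T).weierstrassP z / (2 * π * I) ^ 2 - 1 / 12 := by
  obtain ⟨hu1, hu2⟩ := norm_lt_of_strip hz
  have hq0 : cexp (2 * π * I * T) ≠ 0 := Complex.exp_ne_zero _
  have hq1 := norm_q_lt_one T
  have h1 := hasSum_weierstrassP_rows T z hz hzZ
  have h2 := ((Equiv.pnatEquivNat.symm.prodCongr Equiv.pnatEquivNat.symm).hasSum_iff).mpr h1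
  have h3 : HasSum (lam (GX (cexp (2 * π * I * z)) (cexp (2 * π * I * z))⁻¹)
      (cexp (2 * π * I * T))) ((pairOne T).weierstrassP z / (2 * π * I) ^ 2 - 1 / 12
        - cexp (2 * π * I * z) / (1 - cexp (2 * π * I * z)) ^ 2) := by
    refine h2.congr_fun fun c => ?_
    obtain ⟨n, m⟩ := c
    simp only [Function.comp_apply, Equiv.prodCongr_apply, Prod.map_apply, Equiv.pnatEquivNat_symm_apply,
      Nat.succPNat_coe, lam, GX, gXp, gS, pow_one, Nat.succ_eq_add_one]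
    ring
  rw [X_eq_tsum_lam hq0 hq1 hu1 hu2, h3.tsum_eq, xTerm]
  ring

end Final

end Fermat.Agent.GZ.Tate.T2.WpPrime
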