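/-
GATE-Z (S15) / [MOD-beta] T2, PLUG of sub-leaf B (helper29): helper21's binder `ComplexAdd.Bridge`
is a THEOREM (`T2/WpY.lean`), and `hns` is helper71's `Weq.nonsingular` (`Weq/Closed.lean`), hence
BINDER-FREE:

* `bridge` : `ComplexAdd.Bridge`;
* `rel`, `hgen` : the two addition relations on the Tate curve (`hgen` of `T2/Hom.lean`);
* `tateP_mul`, `exists_hom` : the Tate parametrisation `Kˣ → E_q(K)` is a homomorphism with
  kernel `q^ℤ`, for every complete ultrametric normed field `K`.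
-/
import Mathlib
import Fermat.Agent.GZ.Tate.T2.WpY
import Fermat.Agent.GZ.Tate.Weq.Closed
import Fermat.Agent.GZ.Tate.T2.Main

set_option autoImplicit false

namespace Fermat.Agent.GZ.Tate.T2.WpYPlug

open Fermat.Agent.GZ.Tate (X Y IsAdm tateCurve)
open WeierstrassCurve

universe v

/-- helper21's binder `ComplexAdd.Bridge` is a theorem. -/
theorem bridge : ComplexAdd.Bridge := WpY.wpY_at

/-- helper71's binder `Weq.WpYAt` from `T2/WpY.lean` (twin of `Weq.wpYAt`). -/
theorem wpYAt' : Fermat.Agent.GZ.Tate.Weq.WpYAt := WpY.wpY_at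

section Field

variable {K : Type*} [NormedField K] [CompleteSpace K]

/-- **the two addition relations for all admissible `u`, `v`, `u v`**, binder-free -/
theorem rel {q : K} (hq0 : q ≠ 0) (hq1 : ‖q‖ < 1) {u v : K}
    (hu : IsAdm q u) (hv : IsAdm q v) (huv : IsAdm q (u * v)) :
    ColRel (X q u) (Y q u) (X q v) (Y q v) (X q (u * v)) (Y q (u * v)) ∧
      SumRel (X q u) (Y q u) (X q v) (Y q v) (X q (u * v)) :=
  Main.rel bridge hq0 hq1 hu hv huv

/-- the binder `hgen` of `T2/Hom.lean`, binder-free -/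
theorem hgen {q : K} (hq0 : q ≠ 0) (hq1 : ‖q‖ < 1) :
    ∀ u v : K, IsAdm q u → IsAdm q v → IsAdm q (u * v) → X q u ≠ X q v →
      ColRel (X q u) (Y q u) (X q v) (Y q v) (X q (u * v)) (Y q (u * v)) ∧
        SumRel (X q u) (Y q u) (X q v) (Y q v) (X q (u * v)) :=
  Main.hgen bridge hq0 hq1

end Field

section Ultrametric

variable {K : Type v} [NormedField K] [IsUltrametricDist K] [CompleteSpace K] [DecidableEq K]

/-- **T2**: `P(u v) = P(u) + P(v)` for ALL `u v : Kˣ`, binder-free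
(`hns := Weq.nonsingular hq0 hq1`) -/
theorem tateP_mul (q : K) (hq0 : q ≠ 0) (hq1 : ‖q‖ < 1) (u v : Kˣ) :
    Hom.tateP q (Fermat.Agent.GZ.Tate.Weq.nonsingular hq0 hq1) (u * v) =
      Hom.tateP q (Fermat.Agent.GZ.Tate.Weq.nonsingular hq0 hq1) u +
        Hom.tateP q (Fermat.Agent.GZ.Tate.Weq.nonsingular hq0 hq1) v :=
  Main.tateP_mul bridge q (Fermat.Agent.GZ.Tate.Weq.nonsingular hq0 hq1) hq0 hq1 u v

/-- **the Tate parametrisation** `Kˣ → E_q(K)`: a homomorphism with kernel `q^ℤ`, binder-free -/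
theorem exists_hom (q : K) (hq0 : q ≠ 0) (hq1 : ‖q‖ < 1) :
    ∃ P : Kˣ → (tateCurve q).toAffine.Point,
      (∀ u v, P (u * v) = P u + P v) ∧
      (∀ u, P u = 0 ↔ u ∈ Subgroup.zpowers (Units.mk0 q hq0)) ∧
      ∀ (u : Kˣ) (h : IsAdm q (u : K)),
        P u = Affine.Point.some (X q u) (Y q u)
          (Fermat.Agent.GZ.Tate.Weq.nonsingular hq0 hq1 u h) :=
  Main.exists_hom bridge q (Fermat.Agent.GZ.Tate.Weq.nonsingular hq0 hq1) hq0 hq1

end Ultrametric

end Fermat.Agent.GZ.Tate.T2.WpYPlug
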